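import Fermat.Agent.RIB.Deg
import Fermat.Agent.GAL.HeckeComm
import Fermat.Agent.GAL.GalHeckeWire

/-!
# RIB : the `θ`-part of the `p`-power torsion of `J₀(N)`

`S : Set ℕ` = the bad primes (must contain `p`, the primes of all the levels in play, the TW
primes), `θ : ℕ → ℤ` (e.g. `θ r = a_r(E)`).

`thetaPart N p S θ = {x ∈ J₀(N)[p^∞] | ∀ r prime, r ∉ S → ∃ m, (T_r - θ r)^m x = 0}`.

It is an additive subgroup, stable under `G_ℚ`, under all Hecke operators, and it is respected by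
every `G_ℚ`-equivariant homomorphism `J₀(N) → J₀(N')` (when `S` contains the primes of `N N' p`), in
particular by the degeneracy maps `iot`, `Pii` of `RIB/Deg.lean`.
-/

set_option autoImplicit false
set_option linter.unusedSectionVars false

noncomputable section

open AlgebraicCurve ModularCurve

namespace Fermat.Agent.RIB

open Fermat.Agent.GAL Fermat.Agent.GAL.PC

local notation "Qbar" => AlgebraicClosure ℚ
local notation "GQ" => (AlgebraicClosure ℚ ≃ₐ[ℚ] AlgebraicClosure ℚ)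

section Def

variable (N p : ℕ) [NeZero N] (S : Set ℕ) (θ : ℕ → ℤ)

/-- the operator `T_r - θ(r)` on `J₀(N)` -/
def hk (r : Nat.Primes) : Module.End ℤ (JZero N) :=
  heckeOperatorBar N r - ((θ r : ℤ) : Module.End ℤ (JZero N))

theorem hk_apply (r : Nat.Primes) (x : JZero N) :
    hk N θ r x = heckeOperatorBar N r x - θ r • x := by
  rw [hk, LinearMap.sub_apply, Module.End.intCast_apply]

/-- the `θ`-part of the `p`-power torsion of `J₀(N)` -/
def thetaPart : AddSubgroup (JZero N) where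
  carrier := {x | x ∈ ptors (JZero N) p ∧
    ∀ r : Nat.Primes, (r : ℕ) ∉ S → ∃ m : ℕ, (hk N θ r ^ m) x = 0}
  zero_mem' := ⟨(ptors (JZero N) p).zero_mem, fun _ _ => ⟨0, map_zero _⟩⟩
  add_mem' := by
    rintro a b ⟨ha, ha'⟩ ⟨hb, hb'⟩
    refine ⟨(ptors (JZero N) p).add_mem ha hb, fun r hr => ?_⟩
    obtain ⟨m, hm⟩ := ha' r hr
    obtain ⟨m', hm'⟩ := hb' r hr
    refine ⟨m + m', ?_⟩
    have h1 : (hk N θ r ^ (m + m')) a = 0 := by
      rw [add_comm, pow_add, Module.End.mul_apply, hm, map_zero]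
    have h2 : (hk N θ r ^ (m + m')) b = 0 := by
      rw [pow_add, Module.End.mul_apply, hm', map_zero]
    rw [map_add, h1, h2, add_zero]
  neg_mem' := by
    rintro a ⟨ha, ha'⟩
    refine ⟨(ptors (JZero N) p).neg_mem ha, fun r hr => ?_⟩
    obtain ⟨m, hm⟩ := ha' r hr
    exact ⟨m, by rw [map_neg, hm, neg_zero]⟩

variable {N p S θ}

theorem mem_thetaPart {x : JZero N} : x ∈ thetaPart N p S θ ↔
    (∃ n : ℕ, p ^ n • x = 0) ∧
      ∀ r : Nat.Primes, (r : ℕ) ∉ S → ∃ m : ℕ, (hk N θ r ^ m) x = 0 := Iff.rfl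

theorem thetaPart_le_ptors : thetaPart N p S θ ≤ ptors (JZero N) p := fun _ h => h.1

theorem thetaPart_mono {S' : Set ℕ} (h : S ⊆ S') : thetaPart N p S θ ≤ thetaPart N p S' θ :=
  fun _ hx => ⟨hx.1, fun r hr => hx.2 r fun h' => hr (h h')⟩

/-- an additive map which intertwines the `T_r - θ(r)`, `r ∉ S`, ON `p`-POWER TORSION respects the
`θ`-parts. -/
theorem map_mem_thetaPart {N' : ℕ} [NeZero N'] (u : JZero N →+ JZero N')
    (hu : ∀ r : Nat.Primes, (r : ℕ) ∉ S → ∀ x ∈ ptors (JZero N) p,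
      u (heckeOperatorBar N r x) = heckeOperatorBar N' r (u x))
    {x : JZero N} (hx : x ∈ thetaPart N p S θ) : u x ∈ thetaPart N' p S θ := by
  refine ⟨SS.map_mem_ptors' u hx.1, fun r hr => ?_⟩
  obtain ⟨m, hm⟩ := hx.2 r hr
  refine ⟨m, ?_⟩
  have hst : ∀ y ∈ ptors (JZero N) p, hk N θ r y ∈ ptors (JZero N) p := fun y hy =>
    map_mem_ptors (hk N θ r).toAddMonoidHom hy
  have key : ∀ (j : ℕ), ∀ y ∈ ptors (JZero N) p, (hk N' θ r ^ j) (u y) = u ((hk N θ r ^ j) y) := by
    intro j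
    induction j with
    | zero => intro y _; rfl
    | succ j ih =>
      intro y hy
      have h1 : hk N' θ r (u y) = u (hk N θ r y) := by
        rw [hk_apply, hk_apply, map_sub, map_zsmul, hu r hr y hy]
      rw [pow_succ, pow_succ, Module.End.mul_apply, Module.End.mul_apply, ← ih _ (hst y hy), h1]
  rw [key m x hx.1, hm, map_zero]

/-- a `G_ℚ`-equivariant homomorphism respects the `θ`-parts. -/
theorem map_mem_thetaPart_of_equivariant {N' : ℕ} [NeZero N'] (u : JZero N →+ JZero N')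
    (hu : ∀ (σ : GQ) x, u (σ • x) = σ • u x)
    (hS : ∀ r : ℕ, r.Prime → r ∉ S → ¬ r ∣ N * p ∧ ¬ r ∣ N' * p)
    {x : JZero N} (hx : x ∈ thetaPart N p S θ) : u x ∈ thetaPart N' p S θ :=
  map_mem_thetaPart u (fun r hr y hy =>
    SS.map_hecke_of_equivariant (SS.es_all N p).2 (SS.es_all N' p).2 u hu r (hS r r.2 hr).1
      (hS r r.2 hr).2 y hy) hx

/-- the `θ`-part is Galois stable. -/
theorem smul_mem_thetaPart (σ : GQ) {x : JZero N} (hx : x ∈ thetaPart N p S θ) :
    σ • x ∈ thetaPart N p S θ :=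
  map_mem_thetaPart (DistribSMul.toAddMonoidHom (JZero N) σ)
    (fun r _ y _ => galHecke N r σ y) hx

/-- the `θ`-part is stable under all Hecke operators. -/
theorem hecke_mem_thetaPart (r : Nat.Primes) {x : JZero N} (hx : x ∈ thetaPart N p S θ) :
    heckeOperatorBar N r x ∈ thetaPart N p S θ :=
  map_mem_thetaPart (heckeOperatorBar N r).toAddMonoidHom
    (fun r' _ y _ => by
      have := HeckeComm.heckeOperatorsCommuteBar N r r'
      exact congrArg (fun f : Module.End ℤ (JZero N) => f y) this) hx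

instance : DistribMulAction GQ (thetaPart N p S θ) where
  smul σ x := ⟨σ • x.1, smul_mem_thetaPart σ x.2⟩
  one_smul x := Subtype.ext (one_smul GQ x.1)
  mul_smul σ τ x := Subtype.ext (mul_smul σ τ x.1)
  smul_zero σ := Subtype.ext (smul_zero σ)
  smul_add σ x y := Subtype.ext (smul_add σ x.1 y.1)

@[simp] theorem coe_smul_thetaPart (σ : GQ) (x : thetaPart N p S θ) :
    ((σ • x : thetaPart N p S θ) : JZero N) = σ • (x : JZero N) := rfl

end Def

section Deg

variable {L l p : ℕ} [NeZero L] [NeZero l] {S : Set ℕ} {θ : ℕ → ℤ}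

theorem not_dvd_of_not_dvd_level {r : ℕ} (h : ¬ r ∣ L * l * l * p) : ¬ r ∣ L * p := fun h' =>
  h (Dvd.dvd.trans h' (Nat.mul_dvd_mul_right ((Dvd.intro _ rfl).mul_right l) p))

theorem iot_mem_thetaPart (hS : ∀ r : ℕ, r.Prime → r ∉ S → ¬ r ∣ L * l * l * p) (i : Fin 3)
    {x : JZero L} (hx : x ∈ thetaPart L p S θ) : iot L l i x ∈ thetaPart (L * l * l) p S θ :=
  map_mem_thetaPart_of_equivariant (iot L l i) (iot_smul L l i)
    (fun r hr hrS => ⟨not_dvd_of_not_dvd_level (hS r hr hrS), hS r hr hrS⟩) hx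

theorem Pii_mem_thetaPart (hS : ∀ r : ℕ, r.Prime → r ∉ S → ¬ r ∣ L * l * l * p) (i : Fin 3)
    {y : JZero (L * l * l)} (hy : y ∈ thetaPart (L * l * l) p S θ) :
    Pii L l i y ∈ thetaPart L p S θ :=
  map_mem_thetaPart_of_equivariant (Pii L l i) (Pii_smul L l i)
    (fun r hr hrS => ⟨hS r hr hrS, not_dvd_of_not_dvd_level (hS r hr hrS)⟩) hy

theorem iota_mem_thetaPart (hS : ∀ r : ℕ, r.Prime → r ∉ S → ¬ r ∣ L * l * l * p)
    {v : Fin 3 → JZero L} (hv : ∀ i, v i ∈ thetaPart L p S θ) :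
    iota L l v ∈ thetaPart (L * l * l) p S θ := by
  rw [iota_apply]
  exact AddSubgroup.sum_mem _ fun i _ => iot_mem_thetaPart hS i (hv i)

end Deg

end Fermat.Agent.RIB
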