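import Mathlib

/-!
# RIB : the abstract form of `(*)` and of `(MP)`   (Mathlib only)

`R` a commutative ring, `W` an `R`-module which is a module over `M₂(R)`:
`Φ : Matrix (Fin 2) (Fin 2) R →ₐ[R] Module.End R W`.

* `entry_smul_eq_zero` : if `X ≤ W` is `Φ`-stable and `Φ G = 0` on `X` then every entry of `G` kills `X`.
* `map_apply_eq_zero_of_entries` : if all entries of `N` kill `x` then `Φ N x = 0`.
* `star` = `(*)` : `R` local, `2` a unit, `S ≡ ε` mod `m`, `ε² = 1`, KEY : `Φ N x = 0 → Φ (S * S) x = x`.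
  Then every `x` killed by the entries of `N` is killed by the entries of `S - ε`.
* `mp` = `(MP)` : `w` an involution of `W` commuting with `Φ`, KEY_w : `Φ N x = 0 → Φ S x = - c • w x`, the entries of `N`
  in `m`, `det S = c` a unit, `W[m] ≠ 0`.  Then `c ≡ 1` and `S ≡ ε` mod `m` with `ε = 1` or `ε = -1`.
-/

set_option autoImplicit false

namespace Fermat.Agent.RIB

open Matrix

variable {R W : Type*} [CommRing R] [AddCommGroup W] [Module R W]
  (Φ : Matrix (Fin 2) (Fin 2) R →ₐ[R] Module.End R W)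

theorem smul_one_eq_sum_single (G : Matrix (Fin 2) (Fin 2) R) (i j : Fin 2) :
    G i j • (1 : Matrix (Fin 2) (Fin 2) R) =
      ∑ a : Fin 2, Matrix.single a i 1 * G * Matrix.single j a 1 := by
  simp only [Matrix.single_mul_mul_single, one_mul, mul_one]
  ext a b
  fin_cases a <;> fin_cases b <;> simp [Matrix.single, Fin.sum_univ_two]

/-- if `X` is `Φ`-stable and `Φ G` vanishes on `X`, every entry of `G` kills `X`. -/
theorem entry_smul_eq_zero (X : Submodule R W)
    (hX : ∀ (A : Matrix (Fin 2) (Fin 2) R), ∀ x ∈ X, Φ A x ∈ X) (G : Matrix (Fin 2) (Fin 2) R)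
    (hG : ∀ x ∈ X, Φ G x = 0) (i j : Fin 2) {x : W} (hx : x ∈ X) : G i j • x = 0 := by
  have h1 : G i j • x = Φ (G i j • (1 : Matrix (Fin 2) (Fin 2) R)) x := by
    rw [map_smul, map_one]; rfl
  rw [h1, smul_one_eq_sum_single, map_sum, LinearMap.sum_apply]
  refine Finset.sum_eq_zero fun a _ => ?_
  rw [map_mul, map_mul, Module.End.mul_apply, Module.End.mul_apply, hG _ (hX _ _ hx), map_zero]

/-- if all the entries of `N` kill `x` then `Φ N x = 0`. -/
theorem map_apply_eq_zero_of_entries (N : Matrix (Fin 2) (Fin 2) R) {x : W}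
    (hx : ∀ i j, N i j • x = 0) : Φ N x = 0 := by
  rw [Matrix.matrix_eq_sum_single N, map_sum, LinearMap.sum_apply]
  refine Finset.sum_eq_zero fun i _ => ?_
  rw [map_sum, LinearMap.sum_apply]
  refine Finset.sum_eq_zero fun j _ => ?_
  have : Matrix.single i j (N i j) = N i j • Matrix.single i j (1 : R) := by
    rw [Matrix.smul_single, smul_eq_mul, mul_one]
  rw [this, map_smul, LinearMap.smul_apply, ← map_smul, hx, map_zero]

/-- the submodule `W[J]` -/
def tors (W : Type*) [AddCommGroup W] [Module R W] (J : Ideal R) : Submodule R W :=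
  Submodule.torsionBySet R W (J : Set R)

theorem mem_tors {J : Ideal R} {x : W} : x ∈ tors W J ↔ ∀ t ∈ J, t • x = 0 := by
  unfold tors
  rw [Submodule.mem_torsionBySet_iff]
  exact ⟨fun h t ht => h ⟨t, ht⟩, fun h t => h t t.2⟩

theorem map_mem_tors (J : Ideal R) (A : Matrix (Fin 2) (Fin 2) R) {x : W} (hx : x ∈ tors W J) :
    Φ A x ∈ tors W J := by
  rw [mem_tors] at hx ⊢
  intro t ht
  rw [← map_smul, hx t ht, map_zero]

theorem tors_anti {J J' : Ideal R} (h : J ≤ J') : tors W J' ≤ tors W J := by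
  intro x hx
  rw [mem_tors] at hx ⊢
  exact fun t ht => hx t (h ht)

/-- the ideal generated by the entries of a matrix -/
def entryIdeal (N : Matrix (Fin 2) (Fin 2) R) : Ideal R :=
  Ideal.span (Set.range fun ij : Fin 2 × Fin 2 => N ij.1 ij.2)

theorem entry_mem_entryIdeal (N : Matrix (Fin 2) (Fin 2) R) (i j : Fin 2) : N i j ∈ entryIdeal N :=
  Ideal.subset_span ⟨(i, j), rfl⟩

theorem entryIdeal_le {N : Matrix (Fin 2) (Fin 2) R} {J : Ideal R} :
    entryIdeal N ≤ J ↔ ∀ i j, N i j ∈ J := by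
  unfold entryIdeal
  rw [Ideal.span_le]
  constructor
  · intro h i j
    exact h ⟨(i, j), rfl⟩
  · rintro h _ ⟨⟨i, j⟩, rfl⟩
    exact h i j

theorem mem_tors_entryIdeal {N : Matrix (Fin 2) (Fin 2) R} {x : W} :
    x ∈ tors W (entryIdeal N) ↔ ∀ i j, N i j • x = 0 := by
  rw [mem_tors]
  constructor
  · intro h i j
    exact h _ (entry_mem_entryIdeal N i j)
  · intro h t ht
    unfold entryIdeal at ht
    induction ht using Submodule.span_induction with
    | mem t ht => obtain ⟨⟨i, j⟩, rfl⟩ := ht; exact h i j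
    | zero => simp
    | add a b _ _ ha hb => rw [add_smul, ha, hb, add_zero]
    | smul c a _ ha => rw [smul_eq_mul, mul_smul, ha, smul_zero]

section local_ring

variable [IsLocalRing R]

open IsLocalRing

/-- a matrix congruent to `u • 1`, `u` a unit, modulo the maximal ideal is invertible. -/
theorem isUnit_of_entries_mem (A : Matrix (Fin 2) (Fin 2) R) (u : R) (hu : IsUnit u)
    (hA : ∀ i j, (A - u • (1 : Matrix (Fin 2) (Fin 2) R)) i j ∈ maximalIdeal R) : IsUnit A := by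
  rw [Matrix.isUnit_iff_isUnit_det, Matrix.det_fin_two, ← IsLocalRing.notMem_maximalIdeal]
  intro h
  have h00 := hA 0 0
  have h01 := hA 0 1
  have h11 := hA 1 1
  simp only [Matrix.sub_apply, Matrix.smul_apply, Matrix.one_apply_eq, smul_eq_mul, mul_one,
    Matrix.one_apply_ne (show (0 : Fin 2) ≠ 1 by decide), mul_zero, sub_zero] at h00 h01 h11
  have : u * u ∈ maximalIdeal R := by
    have e : u * u = (A 0 0 * A 1 1 - A 0 1 * A 1 0) - (A 0 0 - u) * A 1 1 - u * (A 1 1 - u)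
        + A 0 1 * A 1 0 := by ring
    rw [e]
    exact Ideal.add_mem _ (Ideal.sub_mem _ (Ideal.sub_mem _ h (Ideal.mul_mem_right _ _ h00))
      (Ideal.mul_mem_left _ _ h11)) (Ideal.mul_mem_right _ _ h01)
  exact (IsLocalRing.notMem_maximalIdeal.2 (hu.mul hu)) this

/-- **`(*)`** -/
theorem star (h2 : IsUnit (2 : R)) (N S : Matrix (Fin 2) (Fin 2) R) (ε : R) (hε : ε * ε = 1)
    (hS : ∀ i j, (S - ε • (1 : Matrix (Fin 2) (Fin 2) R)) i j ∈ maximalIdeal R)
    (key : ∀ x : W, Φ N x = 0 → Φ (S * S) x = x) {x : W} (hx : ∀ i j, N i j • x = 0) (i j : Fin 2) :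
    (S - ε • (1 : Matrix (Fin 2) (Fin 2) R)) i j • x = 0 := by
  have hεu : IsUnit ε := IsUnit.of_mul_eq_one ε hε
  have hU : IsUnit (S + ε • (1 : Matrix (Fin 2) (Fin 2) R)) := by
    refine isUnit_of_entries_mem _ (2 * ε) (h2.mul hεu) fun a b => ?_
    have : S + ε • (1 : Matrix (Fin 2) (Fin 2) R) - (2 * ε) • (1 : Matrix (Fin 2) (Fin 2) R)
        = S - ε • (1 : Matrix (Fin 2) (Fin 2) R) := by
      rw [two_mul, add_smul]; abel
    rw [this]
    exact hS a b
  obtain ⟨U, hU⟩ := hU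
  refine entry_smul_eq_zero Φ (tors W (entryIdeal N)) (fun A y hy => map_mem_tors Φ _ A hy) _
    (fun y hy => ?_) i j (mem_tors_entryIdeal.2 hx)
  have hy0 : Φ N y = 0 := map_apply_eq_zero_of_entries Φ N (mem_tors_entryIdeal.1 hy)
  have h1 := key y hy0
  have e : (S + ε • (1 : Matrix (Fin 2) (Fin 2) R)) * (S - ε • (1 : Matrix (Fin 2) (Fin 2) R))
      = S * S - 1 := by
    rw [add_mul, mul_sub, mul_sub, smul_mul_assoc, one_mul, mul_smul_comm, mul_one,
      smul_mul_assoc, one_mul, smul_smul, hε, one_smul]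
    abel
  have h3 : Φ ((S + ε • (1 : Matrix (Fin 2) (Fin 2) R)) * (S - ε • (1 : Matrix (Fin 2) (Fin 2) R))) y
      = 0 := by
    rw [e, map_sub, map_one, LinearMap.sub_apply, h1, Module.End.one_apply, sub_self]
  have h4 : (S - ε • (1 : Matrix (Fin 2) (Fin 2) R))
      = (↑U⁻¹ : Matrix (Fin 2) (Fin 2) R) *
        ((S + ε • (1 : Matrix (Fin 2) (Fin 2) R)) * (S - ε • (1 : Matrix (Fin 2) (Fin 2) R))) := by
    rw [← mul_assoc, ← hU, Units.inv_mul, one_mul]
  rw [h4, map_mul, Module.End.mul_apply, h3, map_zero]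

/-- **`(MP)`** -/
theorem mp (N S : Matrix (Fin 2) (Fin 2) R) (c : R) (hc : IsUnit c)
    (hdet : S.det = c) (hN : ∀ i j, N i j ∈ maximalIdeal R) (w : W →ₗ[R] W) (hw : ∀ x, w (w x) = x)
    (hwΦ : ∀ (A : Matrix (Fin 2) (Fin 2) R) (x : W), w (Φ A x) = Φ A (w x))
    (key : ∀ x : W, Φ N x = 0 → Φ S x = -(c • w x))
    (hW : ∃ x : W, x ≠ 0 ∧ ∀ t ∈ maximalIdeal R, t • x = 0) :
    c - 1 ∈ maximalIdeal R ∧ ∃ ε : R, (ε = 1 ∨ ε = -1) ∧
      ∀ i j, (S - ε • (1 : Matrix (Fin 2) (Fin 2) R)) i j ∈ maximalIdeal R := by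
  obtain ⟨x, hx0, hx⟩ := hW
  -- an eigenvector of `w` in `W[m]`
  obtain ⟨δ, hδ, y, hy0, hy, hwy⟩ : ∃ δ : R, (δ = 1 ∨ δ = -1) ∧ ∃ y : W, y ≠ 0 ∧
      (∀ t ∈ maximalIdeal R, t • y = 0) ∧ w y = δ • y := by
    by_cases h : x + w x = 0
    · refine ⟨-1, Or.inr rfl, x, hx0, hx, ?_⟩
      rw [neg_smul, one_smul]
      exact (neg_eq_of_add_eq_zero_right h).symm
    · refine ⟨1, Or.inl rfl, x + w x, h, fun t ht => ?_, ?_⟩
      · rw [smul_add, ← map_smul, hx t ht, map_zero, add_zero]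
      · rw [map_add, hw, one_smul, add_comm]
  have hδδ : δ * δ = 1 := by rcases hδ with rfl | rfl <;> ring
  -- the `Φ`-stable submodule
  let X : Submodule R W :=
    { carrier := {z | (∀ t ∈ maximalIdeal R, t • z = 0) ∧ w z = δ • z}
      add_mem' := by
        rintro a b ⟨ha, ha'⟩ ⟨hb, hb'⟩
        exact ⟨fun t ht => by rw [smul_add, ha t ht, hb t ht, add_zero],
          by rw [map_add, ha', hb', smul_add]⟩
      zero_mem' := ⟨fun t _ => smul_zero t, by simp⟩
      smul_mem' := by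
        rintro r a ⟨ha, ha'⟩
        exact ⟨fun t ht => by rw [smul_comm, ha t ht, smul_zero],
          by rw [map_smul, ha', smul_comm]⟩ }
  have hXs : ∀ (A : Matrix (Fin 2) (Fin 2) R), ∀ z ∈ X, Φ A z ∈ X := by
    rintro A z ⟨hz, hz'⟩
    exact ⟨fun t ht => by rw [← map_smul, hz t ht, map_zero], by rw [hwΦ, hz', map_smul]⟩
  have hyX : y ∈ X := ⟨hy, hwy⟩
  have hG : ∀ z ∈ X, Φ (S - (-(c * δ)) • (1 : Matrix (Fin 2) (Fin 2) R)) z = 0 := by
    rintro z ⟨hz, hz'⟩
    have h0 : Φ N z = 0 := map_apply_eq_zero_of_entries Φ N fun i j => hz _ (hN i j)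
    rw [map_sub, map_smul, map_one, LinearMap.sub_apply, key z h0, hz', LinearMap.smul_apply,
      Module.End.one_apply, smul_smul, neg_smul, sub_self]
  have hent : ∀ i j, (S - (-(c * δ)) • (1 : Matrix (Fin 2) (Fin 2) R)) i j ∈ maximalIdeal R := by
    intro i j
    by_contra hu
    rw [IsLocalRing.notMem_maximalIdeal] at hu
    have := entry_smul_eq_zero Φ X hXs _ hG i j hyX
    exact hy0 ((hu.smul_eq_zero).1 this)
  -- the determinant
  have h00 := hent 0 0
  have h01 := hent 0 1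
  have h11 := hent 1 1
  simp only [Matrix.sub_apply, Matrix.smul_apply, Matrix.one_apply_eq, smul_eq_mul, mul_one,
    Matrix.one_apply_ne (show (0 : Fin 2) ≠ 1 by decide), mul_zero, sub_zero] at h00 h01 h11
  have hc1 : c - 1 ∈ maximalIdeal R := by
    have h5 : c * (c - 1) ∈ maximalIdeal R := by
      have e : c * (c - 1) = -((S 0 0 - -(c * δ)) * S 1 1) + (c * δ) * (S 1 1 - -(c * δ))
          + S 0 1 * S 1 0 + c * c * (1 - δ * δ) + (S 0 0 * S 1 1 - S 0 1 * S 1 0 - c) := by ring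
      rw [e, hδδ, sub_self, mul_zero, add_zero, ← Matrix.det_fin_two, hdet, sub_self, add_zero]
      exact Ideal.add_mem _ (Ideal.add_mem _ (neg_mem (Ideal.mul_mem_right _ _ h00))
        (Ideal.mul_mem_left _ _ h11)) (Ideal.mul_mem_right _ _ h01)
    rcases (Ideal.IsPrime.mem_or_mem (inferInstance : (maximalIdeal R).IsPrime) h5) with h | h
    · exact absurd h (IsLocalRing.notMem_maximalIdeal.2 hc)
    · exact h
  refine ⟨hc1, -δ, by rcases hδ with rfl | rfl <;> simp, fun i j => ?_⟩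
  have e : S - (-δ) • (1 : Matrix (Fin 2) (Fin 2) R)
      = (S - (-(c * δ)) • (1 : Matrix (Fin 2) (Fin 2) R))
        - ((c - 1) * δ) • (1 : Matrix (Fin 2) (Fin 2) R) := by
    rw [sub_sub, ← add_smul]
    congr 2
    ring
  rw [e, Matrix.sub_apply]
  refine Ideal.sub_mem _ (hent i j) ?_
  rw [Matrix.smul_apply, smul_eq_mul]
  exact Ideal.mul_mem_right _ _ (Ideal.mul_mem_right _ _ hc1)

end local_ring

end Fermat.Agent.RIB
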