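import Mathlib

/-!
# RIB / TameAlg : tame inertia at a Taylor-Wiles prime, WITHOUT diagonalisation

`A` a commutative ring, `I` a nilpotent ideal, `Fr u : M₂(A)` with `Fr * u = u ^ l * Fr`
(`Fr` = Frobenius, `u` = a generator of tame inertia), `u ≡ 1 mod I`, `l ≡ 1 mod I`, and the discriminant
`tr(Fr)² - 4 det(Fr)` a UNIT.  Then `u` commutes with `Fr`, `u ^ (l-1) = 1`, and `u ^ (p ^ v) = 1` if `p ∈ I`, `l - 1 = p ^ v * c`, `p ∤ c`.

No eigenvalue of `Fr` has to lie in `A` : the statement applies to Hecke algebras over `ℤ/p^k` with residue field `𝔽_p`.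

Proof: `δ X := Fr X - X Fr` is a derivation with `δ³ = disc • δ`;  `δ u = (u^l - u) Fr`,
and `δ(u^l - u) ≡ (l-1) δ u ≡ 0` modulo `I J` if `δ u ≡ 0` modulo `J`.
-/

set_option autoImplicit false

namespace Fermat.Agent.RIB.TameAlg

open Matrix

variable {A : Type*} [CommRing A]

local notation "M2" => Matrix (Fin 2) (Fin 2) A

/-- all entries in the ideal `J`. -/
def Ent (J : Ideal A) (X : M2) : Prop := ∀ i j, X i j ∈ J

theorem Ent.add {J : Ideal A} {X Y : M2} (hX : Ent J X) (hY : Ent J Y) : Ent J (X + Y) :=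
  fun i j => J.add_mem (hX i j) (hY i j)

theorem Ent.sub {J : Ideal A} {X Y : M2} (hX : Ent J X) (hY : Ent J Y) : Ent J (X - Y) :=
  fun i j => J.sub_mem (hX i j) (hY i j)

theorem Ent.zero (J : Ideal A) : Ent J (0 : M2) := fun _ _ => J.zero_mem

theorem Ent.mono {J J' : Ideal A} (h : J ≤ J') {X : M2} (hX : Ent J X) : Ent J' X :=
  fun i j => h (hX i j)

theorem Ent.mul {I J : Ideal A} {X Y : M2} (hX : Ent I X) (hY : Ent J Y) : Ent (I * J) (X * Y) := by
  intro i j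
  rw [Matrix.mul_apply]
  exact Ideal.sum_mem _ fun c _ => Ideal.mul_mem_mul (hX i c) (hY c j)

theorem Ent.top (X : M2) : Ent (⊤ : Ideal A) X := fun _ _ => Submodule.mem_top

theorem Ent.mul_left {J : Ideal A} (Y : M2) {X : M2} (hX : Ent J X) : Ent J (Y * X) := by
  have := (Ent.top Y).mul hX
  rwa [Ideal.top_mul] at this

theorem Ent.mul_right {J : Ideal A} (Y : M2) {X : M2} (hX : Ent J X) : Ent J (X * Y) := by
  have := hX.mul (Ent.top Y)
  rwa [Ideal.mul_top] at this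

theorem Ent.smul {I J : Ideal A} {a : A} (ha : a ∈ I) {X : M2} (hX : Ent J X) :
    Ent (I * J) (a • X) := fun i j => by
  rw [Matrix.smul_apply, smul_eq_mul]
  exact Ideal.mul_mem_mul ha (hX i j)

theorem Ent.eq_zero {X : M2} (hX : Ent (⊥ : Ideal A) X) : X = 0 := by
  ext i j
  exact hX i j

theorem Ent.sum {J : Ideal A} {ι : Type*} (s : Finset ι) (f : ι → M2) (h : ∀ i ∈ s, Ent J (f i)) :
    Ent J (∑ i ∈ s, f i) := by
  intro a b
  rw [Matrix.sum_apply]
  exact Ideal.sum_mem _ fun c hc => h c hc a b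

/-- `u ≡ 1` implies `u ^ k ≡ 1`. -/
theorem ent_pow_sub_one {J : Ideal A} {u : M2} (hu : Ent J (u - 1)) (k : ℕ) : Ent J (u ^ k - 1) := by
  rw [← geom_sum_mul]
  exact hu.mul_left _

/-- the commutator with `Fr`. -/
def dl (Fr X : M2) : M2 := Fr * X - X * Fr

theorem dl_mul (Fr X Y : M2) : dl Fr (X * Y) = dl Fr X * Y + X * dl Fr Y := by
  unfold dl; noncomm_ring

theorem dl_sub (Fr X Y : M2) : dl Fr (X - Y) = dl Fr X - dl Fr Y := by
  unfold dl; noncomm_ring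

theorem dl_one (Fr : M2) : dl Fr 1 = 0 := by
  unfold dl; noncomm_ring

theorem dl_self (Fr : M2) : dl Fr Fr = 0 := by
  unfold dl; noncomm_ring

theorem Ent.dl {J : Ideal A} (Fr : M2) {X : M2} (hX : Ent J X) : Ent J (dl Fr X) :=
  (hX.mul_left Fr).sub (hX.mul_right Fr)

/-- `(ad Fr)³ = disc(Fr) • ad Fr` for `2 × 2` matrices. -/
theorem dl_dl_dl (Fr X : M2) :
    dl Fr (dl Fr (dl Fr X)) = (Fr.trace ^ 2 - 4 * Fr.det) • dl Fr X := by
  ext i j
  fin_cases i <;> fin_cases j <;>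
    simp [dl, Matrix.mul_apply, Fin.sum_univ_two, Matrix.trace, Matrix.det_fin_two] <;> ring

/-- `δ(u^k) ≡ 0 mod J` and `δ(u^k) ≡ k δ(u) mod I J`. -/
theorem dl_pow {I J : Ideal A} (Fr : M2) {u : M2} (hu : Ent I (u - 1)) (hd : Ent J (dl Fr u)) (k : ℕ) :
    Ent J (dl Fr (u ^ k)) ∧ Ent (I * J) (dl Fr (u ^ k) - (k : A) • dl Fr u) := by
  induction k with
  | zero =>
    simp only [pow_zero, dl_one, Nat.cast_zero, zero_smul, sub_zero]
    exact ⟨Ent.zero _, Ent.zero _⟩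
  | succ k ih =>
    obtain ⟨h1, h2⟩ := ih
    rw [pow_succ, dl_mul]
    refine ⟨(h1.mul_right _).add (hd.mul_left _), ?_⟩
    have e : dl Fr (u ^ k) * u + u ^ k * dl Fr u - ((k + 1 : ℕ) : A) • dl Fr u
        = (dl Fr (u ^ k) - (k : A) • dl Fr u) + dl Fr (u ^ k) * (u - 1)
          + (u ^ k - 1) * dl Fr u := by
      rw [Nat.cast_succ, add_smul, one_smul]
      noncomm_ring
    rw [e]
    refine (h2.add ?_).add ((ent_pow_sub_one hu k).mul hd)
    have := h1.mul hu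
    rwa [mul_comm J I] at this

/-- one step of the induction. -/
theorem dl_step {I J : Ideal A} {Fr u : M2} {l : ℕ} (h : Fr * u = u ^ l * Fr)
    (hu : Ent I (u - 1)) (hl : (l : A) - 1 ∈ I) (hdisc : IsUnit (Fr.trace ^ 2 - 4 * Fr.det))
    (hd : Ent J (dl Fr u)) : Ent (I * J) (dl Fr u) := by
  have e1 : dl Fr u = (u ^ l - u) * Fr := by
    unfold dl; rw [h]; noncomm_ring
  have e2 : dl Fr (dl Fr u) = dl Fr (u ^ l - u) * Fr := by
    conv_lhs => rw [e1, dl_mul, dl_self, mul_zero, add_zero]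
  have h3 : Ent (I * J) (dl Fr (u ^ l - u)) := by
    have e3 : dl Fr (u ^ l - u) = (dl Fr (u ^ l) - (l : A) • dl Fr u) + ((l : A) - 1) • dl Fr u := by
      rw [dl_sub, sub_smul, one_smul]; abel
    rw [e3]
    exact (dl_pow Fr hu hd l).2.add (Ent.smul hl hd)
  have h4 : Ent (I * J) (dl Fr (dl Fr (dl Fr u))) := by
    rw [e2]
    exact (h3.mul_right Fr).dl Fr
  rw [dl_dl_dl] at h4
  obtain ⟨c, hc⟩ := hdisc.exists_left_inv
  intro i j
  have := (I * J).mul_mem_left c (h4 i j)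
  rwa [Matrix.smul_apply, smul_eq_mul, ← mul_assoc, hc, one_mul] at this

/-- **`u` commutes with `Fr`.** -/
theorem commute_of_tame {I : Ideal A} {N : ℕ} (hI : I ^ N = ⊥) {Fr u : M2} {l : ℕ}
    (h : Fr * u = u ^ l * Fr) (hu : ∀ i j, (u - 1) i j ∈ I) (hl : (l : A) - 1 ∈ I)
    (hdisc : IsUnit (Fr.trace ^ 2 - 4 * Fr.det)) : Fr * u = u * Fr := by
  have key : ∀ k : ℕ, Ent (I ^ k) (dl Fr u) := by
    intro k
    induction k with
    | zero => rw [pow_zero, Ideal.one_eq_top]; exact Ent.top _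
    | succ k ih =>
      rw [pow_succ']
      exact dl_step h hu hl hdisc ih
  have := key N
  rw [hI] at this
  exact sub_eq_zero.1 this.eq_zero

/-- `u ≡ 1` modulo a nilpotent ideal is a unit. -/
theorem isUnit_of_ent {I : Ideal A} {N : ℕ} (hI : I ^ N = ⊥) {u : M2} (hu : ∀ i j, (u - 1) i j ∈ I) :
    IsUnit u := by
  have key : ∀ k : ℕ, Ent (I ^ k) ((u - 1) ^ k) := by
    intro k
    induction k with
    | zero => rw [pow_zero, Ideal.one_eq_top]; exact Ent.top _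
    | succ k ih => rw [pow_succ, pow_succ]; exact ih.mul hu
  have h0 : (u - 1) ^ N = 0 := by
    have := key N
    rw [hI] at this
    exact this.eq_zero
  have : IsNilpotent (u - 1) := ⟨N, h0⟩
  have h1 := this.isUnit_add_one
  rwa [sub_add_cancel] at h1

/-- **`u ^ (l - 1) = 1`.** -/
theorem pow_pred_eq_one {I : Ideal A} {N : ℕ} (hI : I ^ N = ⊥) {Fr u : M2} {l : ℕ} (hl0 : 0 < l)
    (hFr : IsUnit Fr) (h : Fr * u = u ^ l * Fr) (hu : ∀ i j, (u - 1) i j ∈ I) (hl : (l : A) - 1 ∈ I)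
    (hdisc : IsUnit (Fr.trace ^ 2 - 4 * Fr.det)) : u ^ (l - 1) = 1 := by
  have hc := commute_of_tame hI h hu hl hdisc
  have h1 : u ^ l = u := hFr.mul_right_cancel (h.symm.trans hc)
  have hU := isUnit_of_ent hI hu
  apply hU.mul_right_cancel
  rw [← pow_succ, Nat.sub_add_cancel hl0, h1, one_mul]

/-- `u ^ (p ^ m) ≡ 1 mod I ^ (m + 1)`. -/
theorem ent_pow_p_pow {I : Ideal A} {p : ℕ} (hp : (p : A) ∈ I) {u : M2} (hu : ∀ i j, (u - 1) i j ∈ I)
    (m : ℕ) : Ent (I ^ (m + 1)) (u ^ (p ^ m) - 1) := by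
  induction m with
  | zero =>
    rw [pow_zero, pow_one, pow_one]
    exact hu
  | succ m ih =>
    rw [pow_succ p m, pow_mul, ← geom_sum_mul, pow_succ' I (m + 1)]
    refine Ent.mul ?_ ih
    have hle : I ^ (m + 1) ≤ I := Ideal.pow_le_self (Nat.succ_ne_zero m)
    have e : ∑ i ∈ Finset.range p, (u ^ p ^ m) ^ i
        = ∑ i ∈ Finset.range p, ((u ^ p ^ m) ^ i - 1) + (p : A) • (1 : M2) := by
      rw [Finset.sum_sub_distrib, Finset.sum_const, Finset.card_range, ← Nat.cast_smul_eq_nsmul A]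
      abel
    rw [e]
    refine (Ent.sum _ _ fun i _ => (ent_pow_sub_one ih i).mono hle).add ?_
    intro a b
    rw [Matrix.smul_apply, smul_eq_mul]
    exact I.mul_mem_right _ hp

/-- **`u ^ (p ^ v) = 1`** if `l - 1 = p ^ v * c`, `p ∤ c`. -/
theorem pow_p_pow_eq_one {I : Ideal A} {N : ℕ} (hI : I ^ N = ⊥) {p : ℕ} (hp : p.Prime)
    (hpI : (p : A) ∈ I) {Fr u : M2} {l v c : ℕ} (hlv : l = p ^ v * c + 1) (hc : ¬ p ∣ c)
    (hFr : IsUnit Fr) (h : Fr * u = u ^ l * Fr) (hu : ∀ i j, (u - 1) i j ∈ I)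
    (hdisc : IsUnit (Fr.trace ^ 2 - 4 * Fr.det)) (hv : 0 < v) : u ^ (p ^ v) = 1 := by
  have hl : (l : A) - 1 ∈ I := by
    rw [hlv]
    push_cast
    rw [add_sub_cancel_right]
    obtain ⟨w, rfl⟩ := Nat.exists_eq_succ_of_ne_zero hv.ne'
    rw [pow_succ', mul_assoc]
    exact I.mul_mem_right _ hpI
  have h1 : u ^ (p ^ v * c) = 1 := by
    have := pow_pred_eq_one hI (by omega) hFr h hu hl hdisc
    rwa [hlv, Nat.add_sub_cancel] at this
  have h2 : u ^ (p ^ N) = 1 := by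
    have h3 := ent_pow_p_pow hpI hu N
    have h4 : I ^ (N + 1) = ⊥ := by rw [pow_succ, hI, Ideal.bot_mul]
    rw [h4] at h3
    exact sub_eq_zero.1 h3.eq_zero
  have d1 := orderOf_dvd_of_pow_eq_one h1
  have d2 := orderOf_dvd_of_pow_eq_one h2
  obtain ⟨j, -, hj⟩ := (Nat.dvd_prime_pow hp).1 d2
  have hcop : Nat.Coprime (orderOf u) c := by
    rw [hj]
    exact Nat.Coprime.pow_left _ ((Nat.Prime.coprime_iff_not_dvd hp).2 hc)
  exact orderOf_dvd_iff_pow_eq_one.1 (hcop.dvd_of_dvd_mul_right d1)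

end Fermat.Agent.RIB.TameAlg
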