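import Fermat.Agent.SS.Top35.SMO
import Fermat.Agent.SS.Top35.Push
import Fermat.Agent.RED.S37.Pull

/-!
# RIB / (G0) : the degeneracy maps between `J₀(L)`, `J₀(L l)` and `J₀(L l²)`

One step (`M` arbitrary, `q` arbitrary non zero):
* `pullA M q`, `pullB M q : J₀(M) → J₀(M q)`   (`α^*`, `β^*`; `α : τ ↦ τ`, `β : τ ↦ q τ`),
* `SS.pushA M q`, `SS.pushB M q : J₀(M q) → J₀(M)`   (`α_*`, `β_*`; already on main).

Two steps, level `L * l * l` (the shape used by `S36.Ctx`):
* `iot L l i : J₀(L) → J₀(L l l)`, `i : Fin 3`     (`π_i^*`, `π_i : τ ↦ l^i τ`),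
* `Pii L l i : J₀(L l l) → J₀(L)`                  (`π_{i *}`),
* `iota L l : (Fin 3 → J₀(L)) → J₀(L l l)`, `Pi L l : J₀(L l l) → (Fin 3 → J₀(L))`.

All maps are additive and `G_ℚ`-equivariant, hence commute with `T_r` (`r ∤` levels `· p`) on
`p`-power torsion (`SS.map_hecke_of_equivariant`, `SS.es_all`).
-/

set_option autoImplicit false
set_option linter.unusedSectionVars false

noncomputable section

open AlgebraicCurve ModularCurve

namespace Fermat.Agent.RIB

open Fermat.Agent.GAL Fermat.Agent.GAL.HeckeInputs Fermat.Agent.GAL.PC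

local notation "Qbar" => AlgebraicClosure ℚ
local notation "GQ" => (AlgebraicClosure ℚ ≃ₐ[ℚ] AlgebraicClosure ℚ)

section OneStep

variable (M q : ℕ) [NeZero M] [NeZero q]

/-- `α^* : J₀(M) → J₀(M q)` -/
def pullA : JZero M →+ JZero (M * q) :=
  RED.pullPic0 (heckeAlphaBar Qbar M q) (heckeAlphaBarIntegral M q)
    (fundamentalIdentityAlong_alpha M q)

/-- `β^* : J₀(M) → J₀(M q)` -/
def pullB : JZero M →+ JZero (M * q) :=
  RED.pullPic0 (heckeBetaBar Qbar M q) (heckeBetaBarIntegral M q)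
    (fundamentalIdentityAlong_beta M q)

theorem pullA_smul (σ : GQ) (x : JZero M) : pullA M q (σ • x) = σ • pullA M q x := by
  rw [galois_smul_pic0_def, galois_smul_pic0_def]
  exact RED.pullPic0_smul _ _ _ (SS.intertwines_heckeAlphaBar M q σ) x

theorem pullB_smul (σ : GQ) (x : JZero M) : pullB M q (σ • x) = σ • pullB M q x := by
  rw [galois_smul_pic0_def, galois_smul_pic0_def]
  exact RED.pullPic0_smul _ _ _ (RED.intertwines_heckeBetaBar M q σ) x

end OneStep

section TwoStep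

variable (L l : ℕ) [NeZero L] [NeZero l]

/-- `π_i^* : J₀(L) → J₀(L l l)`; `π_0^* = α'^* α^*`, `π_1^* = α'^* β^*`, `π_2^* = β'^* β^*`. -/
def iot : Fin 3 → (JZero L →+ JZero (L * l * l)) :=
  ![(pullA (L * l) l).comp (pullA L l), (pullA (L * l) l).comp (pullB L l),
    (pullB (L * l) l).comp (pullB L l)]

/-- `π_{i *} : J₀(L l l) → J₀(L)`; `π_{0 *} = α_* α'_*`, `π_{1 *} = β_* α'_*`,
`π_{2 *} = β_* β'_*`. -/
def Pii : Fin 3 → (JZero (L * l * l) →+ JZero L) :=
  ![(SS.pushA L l).comp (SS.pushA (L * l) l), (SS.pushB L l).comp (SS.pushA (L * l) l),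
    (SS.pushB L l).comp (SS.pushB (L * l) l)]

theorem iot_zero (x : JZero L) : iot L l 0 x = pullA (L * l) l (pullA L l x) := rfl
theorem iot_one (x : JZero L) : iot L l 1 x = pullA (L * l) l (pullB L l x) := rfl
theorem iot_two (x : JZero L) : iot L l 2 x = pullB (L * l) l (pullB L l x) := rfl

theorem Pii_zero (y : JZero (L * l * l)) :
    Pii L l 0 y = SS.pushA L l (SS.pushA (L * l) l y) := rfl
theorem Pii_one (y : JZero (L * l * l)) :
    Pii L l 1 y = SS.pushB L l (SS.pushA (L * l) l y) := rfl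
theorem Pii_two (y : JZero (L * l * l)) :
    Pii L l 2 y = SS.pushB L l (SS.pushB (L * l) l y) := rfl

theorem iot_smul (i : Fin 3) (σ : GQ) (x : JZero L) : iot L l i (σ • x) = σ • iot L l i x := by
  fin_cases i
  · show pullA (L * l) l (pullA L l (σ • x)) = σ • pullA (L * l) l (pullA L l x)
    rw [pullA_smul, pullA_smul]
  · show pullA (L * l) l (pullB L l (σ • x)) = σ • pullA (L * l) l (pullB L l x)
    rw [pullB_smul, pullA_smul]
  · show pullB (L * l) l (pullB L l (σ • x)) = σ • pullB (L * l) l (pullB L l x)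
    rw [pullB_smul, pullB_smul]

theorem Pii_smul (i : Fin 3) (σ : GQ) (y : JZero (L * l * l)) :
    Pii L l i (σ • y) = σ • Pii L l i y := by
  fin_cases i
  · show SS.pushA L l (SS.pushA (L * l) l (σ • y)) = σ • SS.pushA L l (SS.pushA (L * l) l y)
    rw [SS.pushA_smul, SS.pushA_smul]
  · show SS.pushB L l (SS.pushA (L * l) l (σ • y)) = σ • SS.pushB L l (SS.pushA (L * l) l y)
    rw [SS.pushA_smul, SS.pushB_smul]
  · show SS.pushB L l (SS.pushB (L * l) l (σ • y)) = σ • SS.pushB L l (SS.pushB (L * l) l y)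
    rw [SS.pushB_smul, SS.pushB_smul]

/-- `ι = ∑ π_i^* : J₀(L)³ → J₀(L l l)` -/
def iota : (Fin 3 → JZero L) →+ JZero (L * l * l) where
  toFun v := ∑ i, iot L l i (v i)
  map_zero' := by simp
  map_add' v w := by simp [Finset.sum_add_distrib]

/-- `Π = (π_{i *}) : J₀(L l l) → J₀(L)³` -/
def Pi : JZero (L * l * l) →+ (Fin 3 → JZero L) where
  toFun y i := Pii L l i y
  map_zero' := by ext i; simp
  map_add' y z := by ext i; simp

theorem iota_apply (v : Fin 3 → JZero L) : iota L l v = ∑ i, iot L l i (v i) := rfl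

theorem iota_apply' (v : Fin 3 → JZero L) :
    iota L l v = iot L l 0 (v 0) + iot L l 1 (v 1) + iot L l 2 (v 2) := by
  rw [iota_apply, Fin.sum_univ_three]

theorem Pi_apply (y : JZero (L * l * l)) (i : Fin 3) : Pi L l y i = Pii L l i y := rfl

theorem iota_smul (σ : GQ) (v : Fin 3 → JZero L) :
    iota L l (fun i => σ • v i) = σ • iota L l v := by
  rw [iota_apply, iota_apply, Finset.smul_sum]
  exact Finset.sum_congr rfl fun i _ => iot_smul L l i σ (v i)

theorem Pi_smul (σ : GQ) (y : JZero (L * l * l)) (i : Fin 3) :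
    Pi L l (σ • y) i = σ • Pi L l y i := Pii_smul L l i σ y

variable {L l} {p : ℕ}

/-- `π_i^*` commutes with `T_r` on `p`-power torsion, `r ∤ L l p`. -/
theorem iot_hecke (i : Fin 3) (r : Nat.Primes) (hr : ¬ (r : ℕ) ∣ L * l * l * p) (x : JZero L)
    (hx : x ∈ ptors (JZero L) p) :
    iot L l i (heckeOperatorBar L r x) = heckeOperatorBar (L * l * l) r (iot L l i x) :=
  SS.map_hecke_of_equivariant (SS.es_all L p).2 (SS.es_all (L * l * l) p).2 (iot L l i)
    (iot_smul L l i) r
    (fun h => hr (Dvd.dvd.trans h (Nat.mul_dvd_mul_right ((Dvd.intro _ rfl).mul_right l) p))) hr x hx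

/-- `π_{i *}` commutes with `T_r` on `p`-power torsion, `r ∤ L l p`. -/
theorem Pii_hecke (i : Fin 3) (r : Nat.Primes) (hr : ¬ (r : ℕ) ∣ L * l * l * p)
    (y : JZero (L * l * l)) (hy : y ∈ ptors (JZero (L * l * l)) p) :
    Pii L l i (heckeOperatorBar (L * l * l) r y) = heckeOperatorBar L r (Pii L l i y) :=
  SS.map_hecke_of_equivariant (SS.es_all (L * l * l) p).2 (SS.es_all L p).2 (Pii L l i)
    (Pii_smul L l i) r hr
    (fun h => hr (Dvd.dvd.trans h (Nat.mul_dvd_mul_right ((Dvd.intro _ rfl).mul_right l) p))) y hy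

end TwoStep

end Fermat.Agent.RIB
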