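/-
RIB: the `θ`-part (generalised eigenspace) of a module over a commutative ring `A`, cut out by a
family `u i ∈ A` (think `u i = T_i - a_i`), and the Fitting projector on finite modules.
Mathlib only.
-/
import Mathlib

namespace Fermat.Agent.RIB.Fit

variable {A : Type*} [CommRing A] {ι : Type*}

/-- The `θ`-part: elements killed by a power of every `u i`. -/
def part (u : ι → A) (X : Type*) [AddCommGroup X] [Module A X] : Submodule A X where
  carrier := {x | ∀ i, ∃ m : ℕ, u i ^ m • x = 0}
  zero_mem' := fun _ => ⟨0, smul_zero _⟩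
  add_mem' := by
    intro x y hx hy i
    obtain ⟨m, hm⟩ := hx i
    obtain ⟨n, hn⟩ := hy i
    refine ⟨m + n, ?_⟩
    rw [smul_add, pow_add, mul_smul _ _ y, hn, smul_zero, mul_comm, mul_smul, hm, smul_zero,
      add_zero]
  smul_mem' := by
    intro c x hx i
    obtain ⟨m, hm⟩ := hx i
    exact ⟨m, by rw [smul_comm, hm, smul_zero]⟩

theorem mem_part {u : ι → A} {X : Type*} [AddCommGroup X] [Module A X] {x : X} :
    x ∈ part u X ↔ ∀ i, ∃ m : ℕ, u i ^ m • x = 0 := Iff.rfl

theorem map_mem_part {u : ι → A} {X Y : Type*} [AddCommGroup X] [Module A X]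
    [AddCommGroup Y] [Module A Y] (f : X →ₗ[A] Y) {x : X} (hx : x ∈ part u X) :
    f x ∈ part u Y := by
  intro i
  obtain ⟨m, hm⟩ := hx i
  exact ⟨m, by rw [← map_smul, hm, map_zero]⟩

/-- On a finite module some positive power of `u` acts as an idempotent. -/
theorem exists_idem_pow (u : A) (X : Type*) [AddCommGroup X] [Module A X] [Finite X] :
    ∃ m : ℕ, 1 ≤ m ∧ ∀ x : X, u ^ (2 * m) • x = u ^ m • x := by
  obtain ⟨i, j, hij, h⟩ := Finite.exists_ne_map_eq_of_infinite (fun n : ℕ => fun x : X => u ^ n • x)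
  wlog hlt : i < j generalizing i j
  · exact this j i hij.symm h.symm (lt_of_le_of_ne (not_lt.1 hlt) hij.symm)
  obtain ⟨d, rfl⟩ := Nat.exists_eq_add_of_lt hlt
  have h1 : ∀ x : X, u ^ (i + (d + 1)) • x = u ^ i • x := fun x => (congrFun h x).symm
  have h2 : ∀ n, i ≤ n → ∀ x : X, u ^ (n + (d + 1)) • x = u ^ n • x := by
    intro n hn x
    obtain ⟨e, rfl⟩ := Nat.exists_eq_add_of_le hn
    rw [show i + e + (d + 1) = e + (i + (d + 1)) by ring, pow_add, mul_smul, h1, ← mul_smul,
      ← pow_add, add_comm]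
  have h3 : ∀ t n, i ≤ n → ∀ x : X, u ^ (n + t * (d + 1)) • x = u ^ n • x := by
    intro t
    induction t with
    | zero => intro n _ x; simp
    | succ t ih =>
      intro n hn x
      rw [show n + (t + 1) * (d + 1) = (n + t * (d + 1)) + (d + 1) by ring,
        h2 _ (hn.trans (Nat.le_add_right _ _)), ih n hn]
  refine ⟨(i + 1) * (d + 1), Nat.mul_pos (Nat.succ_pos _) (Nat.succ_pos _), fun x => ?_⟩
  rw [two_mul]
  exact h3 (i + 1) _ (by nlinarith) x

/-- If `u^(2m) y = u^m y` and `u^n y = 0` then `u^m y = 0`. -/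
theorem pow_smul_eq_zero_of_idem {u : A} {Y : Type*} [AddCommGroup Y] [Module A Y] {m : ℕ}
    (hm : 1 ≤ m) {y : Y} (h : u ^ (2 * m) • y = u ^ m • y) {n : ℕ} (hn : u ^ n • y = 0) :
    u ^ m • y = 0 := by
  have h1 : ∀ t : ℕ, u ^ (m * (t + 1)) • y = u ^ m • y := by
    intro t
    induction t with
    | zero => simp
    | succ t ih =>
      rw [show m * (t + 1 + 1) = m * t + 2 * m by ring, pow_add, mul_smul, h, ← mul_smul, ← pow_add,
        show m * t + m = m * (t + 1) by ring, ih]
  rw [← h1 n]
  have : n ≤ m * (n + 1) := by nlinarith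
  obtain ⟨e, he⟩ := Nat.exists_eq_add_of_le this
  rw [he, add_comm, pow_add, mul_smul, hn, smul_zero]

/-- **Fitting projector.**  For a finite `A`-module `X` there is `e ∈ A` which maps `X` into its
`θ`-part and fixes every element of the `θ`-part of any module which is the image of an element
of `X` under a linear map. -/
theorem exists_proj (u : ι → A) (X : Type*) [AddCommGroup X] [Module A X] [Finite X] :
    ∃ e : A, (∀ x : X, e • x ∈ part u X) ∧
      ∀ {Y : Type*} [AddCommGroup Y] [Module A Y] (f : X →ₗ[A] Y) (x : X),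
        f x ∈ part u Y → e • f x = f x := by
  classical
  choose m hm1 hm using fun i => exists_idem_pow (u i) X
  -- a finite set of indices detecting the `θ`-part
  have hch : ∀ x : X, ∃ i : Option ι, x ∉ part u X →
      ∃ j, i = some j ∧ ∀ n : ℕ, u j ^ n • x ≠ 0 := by
    intro x
    by_cases hx : x ∈ part u X
    · exact ⟨none, fun h => absurd hx h⟩
    · rw [mem_part] at hx
      push Not at hx
      obtain ⟨j, hj⟩ := hx
      exact ⟨some j, fun _ => ⟨j, rfl, hj⟩⟩
  choose c hc using hch
  have : Fintype X := Fintype.ofFinite X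
  let F : Finset ι := (Finset.univ.image c).eraseNone
  refine ⟨∏ i ∈ F, (1 - u i ^ m i), ?_, ?_⟩
  · intro x
    by_contra hx
    obtain ⟨j, hj, hjn⟩ := hc _ hx
    have hjF : j ∈ F := by
      rw [Finset.mem_eraseNone, Finset.mem_image]
      exact ⟨_, Finset.mem_univ _, hj⟩
    apply hjn (m j)
    rw [← Finset.mul_prod_erase F _ hjF, ← mul_smul, ← mul_assoc, mul_sub, mul_one, ← pow_add,
      ← two_mul, mul_smul, sub_smul, hm, sub_self]
  · intro Y _ _ f x hx
    have key : ∀ i, (1 - u i ^ m i) • f x = f x := by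
      intro i
      obtain ⟨n, hn⟩ := hx i
      have h1 : u i ^ (2 * m i) • f x = u i ^ m i • f x := by
        rw [← map_smul, hm, map_smul]
      rw [sub_smul, one_smul, pow_smul_eq_zero_of_idem (hm1 i) h1 hn, sub_zero]
    induction F using Finset.induction_on with
    | empty => simp
    | insert i s his ih => rw [Finset.prod_insert his, mul_smul, ih, key]

/-- exactness of the `θ`-part on finite modules: an element of the `θ`-part of `Y` which is in the
image of the finite module `X` is the image of an element of the `θ`-part of `X`. -/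
theorem exists_mem_part_map_eq (u : ι → A) {X Y : Type*} [AddCommGroup X] [Module A X] [Finite X]
    [AddCommGroup Y] [Module A Y] (f : X →ₗ[A] Y) (x : X) (hx : f x ∈ part u Y) :
    ∃ x' ∈ part u X, f x' = f x := by
  obtain ⟨e, he1, he2⟩ := exists_proj.{_, _, _, _} u X
  exact ⟨e • x, he1 x, by rw [map_smul, he2 f x hx]⟩

/-- **Group form.**  `J` an abelian group, `f : A →+* End J` (`A` commutative), `Z` a finite
subgroup stable under `A`.  There is `e ∈ A` which maps `Z` into the `θ`-part of `Z` and is the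
identity on it. -/
theorem exists_proj_end {J : Type*} [AddCommGroup J] (f : A →+* Module.End ℤ J) (u : ι → A)
    (Z : AddSubgroup J) [Finite Z] (hZ : ∀ (a : A), ∀ z ∈ Z, f a z ∈ Z) :
    ∃ e : A, (∀ z ∈ Z, ∀ i, ∃ m : ℕ, f (u i ^ m) (f e z) = 0) ∧
      ∀ z ∈ Z, (∀ i, ∃ m : ℕ, f (u i ^ m) z = 0) → f e z = z := by
  let _ : Module A J := Module.compHom J f
  have hsmul : ∀ (a : A) (x : J), a • x = f a x := fun _ _ => rfl
  let Z' : Submodule A J :=
    { carrier := Z
      zero_mem' := Z.zero_mem
      add_mem' := Z.add_mem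
      smul_mem' := fun a z hz => hZ a z hz }
  have : Finite Z' := ‹Finite Z›
  obtain ⟨e, he1, he2⟩ := exists_proj.{_, _, _, _} u Z'
  refine ⟨e, fun z hz i => ?_, fun z hz h => ?_⟩
  · obtain ⟨m, hm⟩ := he1 ⟨z, hz⟩ i
    exact ⟨m, congrArg Subtype.val hm⟩
  · have := he2 LinearMap.id ⟨z, hz⟩ (fun i => by
      obtain ⟨m, hm⟩ := h i
      exact ⟨m, Subtype.ext hm⟩)
    exact congrArg Subtype.val this

open scoped IsMulCommutative in
/-- A commuting family of endomorphisms defines a ring homomorphism from the polynomial ring. -/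
theorem exists_ringHom {κ M : Type*} [AddCommGroup M] (T : κ → Module.End ℤ M)
    (h : ∀ i j, T i * T j = T j * T i) :
    ∃ f : MvPolynomial κ ℤ →+* Module.End ℤ M, ∀ i, f (MvPolynomial.X i) = T i := by
  have hc : IsMulCommutative (Algebra.adjoin ℤ (Set.range T)) :=
    Algebra.isMulCommutative_adjoin ℤ (by
      rintro _ ⟨i, rfl⟩ _ ⟨j, rfl⟩
      exact h i j)
  let g : MvPolynomial κ ℤ →ₐ[ℤ] Algebra.adjoin ℤ (Set.range T) :=
    MvPolynomial.aeval fun i => ⟨T i, Algebra.subset_adjoin ⟨i, rfl⟩⟩
  refine ⟨((Algebra.adjoin ℤ (Set.range T)).val.comp g).toRingHom, fun i => ?_⟩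
  change ((g (MvPolynomial.X i) : Algebra.adjoin ℤ (Set.range T)) : Module.End ℤ M) = T i
  rw [MvPolynomial.aeval_X]

/-- **Master lemma (exactness of generalised eigenspaces).**  `T i`, `T' i` commuting families of
endomorphisms of `J`, `J'` (think `T_r - θ(r)`), `Z ⊆ J` a finite `T`-stable subgroup, `U k : J → J'`
a finite family of additive maps intertwining `T` and `T'` on `Z`.  If `x = ∑ U k (v k)`, `v k ∈ Z`,
is killed by a power of every `T' i`, then `x = ∑ U k (v' k)` with `v' k ∈ Z` killed by a power of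
every `T i`. -/
theorem exists_lift_family {J J' : Type*} [AddCommGroup J] [AddCommGroup J'] {κ : Type*}
    [Fintype κ] (T : ι → Module.End ℤ J) (T' : ι → Module.End ℤ J')
    (hT : ∀ i j, T i * T j = T j * T i) (hT' : ∀ i j, T' i * T' j = T' j * T' i)
    (Z : AddSubgroup J) [Finite Z] (hZ : ∀ i, ∀ z ∈ Z, T i z ∈ Z)
    (U : κ → J →+ J') (hU : ∀ k i, ∀ z ∈ Z, U k (T i z) = T' i (U k z))
    (v : κ → J) (hv : ∀ k, v k ∈ Z) (hx : ∀ i, ∃ m : ℕ, (T' i ^ m) (∑ k, U k (v k)) = 0) :
    ∃ v' : κ → J, (∀ k, v' k ∈ Z) ∧ (∀ k i, ∃ m : ℕ, (T i ^ m) (v' k) = 0) ∧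
      ∑ k, U k (v' k) = ∑ k, U k (v k) := by
  obtain ⟨f, hf⟩ := exists_ringHom T hT
  obtain ⟨f', hf'⟩ := exists_ringHom T' hT'
  have hZA : ∀ (a : MvPolynomial ι ℤ), ∀ z ∈ Z, f a z ∈ Z := by
    intro a
    induction a using MvPolynomial.induction_on with
    | C c =>
      intro z hz
      rw [eq_intCast (MvPolynomial.C : ℤ →+* MvPolynomial ι ℤ) c, map_intCast,
        Module.End.intCast_apply]
      exact Z.zsmul_mem hz c
    | add P Q hP hQ =>
      intro z hz
      rw [map_add, LinearMap.add_apply]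
      exact Z.add_mem (hP z hz) (hQ z hz)
    | mul_X P i hP =>
      intro z hz
      rw [map_mul, Module.End.mul_apply, hf]
      exact hP _ (hZ i z hz)
  have hUA : ∀ (k : κ) (a : MvPolynomial ι ℤ), ∀ z ∈ Z, U k (f a z) = f' a (U k z) := by
    intro k a
    induction a using MvPolynomial.induction_on with
    | C c =>
      intro z _
      rw [eq_intCast (MvPolynomial.C : ℤ →+* MvPolynomial ι ℤ) c, map_intCast, map_intCast,
        Module.End.intCast_apply, Module.End.intCast_apply, map_zsmul]
    | add P Q hP hQ =>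
      intro z hz
      rw [map_add, map_add, LinearMap.add_apply, LinearMap.add_apply, map_add, hP z hz, hQ z hz]
    | mul_X P i hP =>
      intro z hz
      rw [map_mul, map_mul, Module.End.mul_apply, Module.End.mul_apply, hf, hf',
        hP _ (hZ i z hz), hU k i z hz]
  let _ : Module (MvPolynomial ι ℤ) J := Module.compHom J f
  let _ : Module (MvPolynomial ι ℤ) J' := Module.compHom J' f'
  have hsmul : ∀ (a : MvPolynomial ι ℤ) (x : J), a • x = f a x := fun _ _ => rfl
  have hsmul' : ∀ (a : MvPolynomial ι ℤ) (x : J'), a • x = f' a x := fun _ _ => rfl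
  let Z' : Submodule (MvPolynomial ι ℤ) J :=
    { carrier := Z
      zero_mem' := Z.zero_mem
      add_mem' := Z.add_mem
      smul_mem' := fun a z hz => hZA a z hz }
  have : Finite Z' := ‹Finite Z›
  let F : (κ → Z') →ₗ[MvPolynomial ι ℤ] J' :=
    { toFun := fun w => ∑ k, U k (w k).1
      map_add' := fun w w' => by
        simp only [Pi.add_apply, Submodule.coe_add, map_add, Finset.sum_add_distrib]
      map_smul' := fun a w => by
        simp only [Pi.smul_apply, RingHom.id_apply, Finset.smul_sum]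
        refine Finset.sum_congr rfl fun k _ => ?_
        rw [hsmul', ← hUA k a _ (w k).2]
        rfl }
  have hF : ∀ w : κ → Z', F w = ∑ k, U k (w k).1 := fun _ => rfl
  obtain ⟨w', hw', hw'F⟩ := exists_mem_part_map_eq (fun i : ι => (MvPolynomial.X i : MvPolynomial ι ℤ))
    F (fun k => ⟨v k, hv k⟩) (fun i => by
      obtain ⟨m, hm⟩ := hx i
      refine ⟨m, ?_⟩
      rw [hsmul', map_pow, hf', hF]
      exact hm)
  refine ⟨fun k => (w' k).1, fun k => (w' k).2, fun k i => ?_, hw'F⟩
  obtain ⟨m, hm⟩ := hw' i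
  refine ⟨m, ?_⟩
  have := congrArg Subtype.val (congrFun hm k)
  rw [← hf, ← map_pow]
  exact this

/-- **Common eigenvector.**  A non zero element `x` of the `θ`-part of a finite module has a non
zero multiple killed by all `u i`. -/
theorem exists_eigen (u : ι → A) {X : Type*} [AddCommGroup X] [Module A X] [Finite X] {x : X}
    (hx : x ∈ part u X) (hx0 : x ≠ 0) : ∃ a : A, a • x ≠ 0 ∧ ∀ i, u i • a • x = 0 := by
  induction hn : (Submodule.span A {x} : Set X).ncard using Nat.strong_induction_on
    generalizing x with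
  | _ n ih =>
    by_cases h : ∀ i, u i • x = 0
    · exact ⟨1, by rwa [one_smul], fun i => by rw [one_smul, h i]⟩
    · push Not at h
      obtain ⟨i, hi⟩ := h
      have hle : Submodule.span A {u i • x} ≤ Submodule.span A {x} := by
        rw [Submodule.span_singleton_le_iff_mem]
        exact Submodule.smul_mem _ _ (Submodule.mem_span_singleton_self x)
      have hne : Submodule.span A {u i • x} ≠ Submodule.span A {x} := by
        intro heq
        have hmem : x ∈ Submodule.span A {u i • x} := by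
          rw [heq]; exact Submodule.mem_span_singleton_self x
        obtain ⟨a, ha⟩ := Submodule.mem_span_singleton.1 hmem
        obtain ⟨m, hm⟩ := hx i
        have key : ∀ t : ℕ, (a ^ t * u i ^ t) • x = x := by
          intro t
          induction t with
          | zero => simp
          | succ t iht =>
            calc (a ^ (t + 1) * u i ^ (t + 1)) • x = (a ^ t * u i ^ t) • (a • u i • x) := by
                  rw [← mul_smul, ← mul_smul]; congr 1; ring
              _ = x := by rw [ha, iht]
        apply hx0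
        rw [← key m, mul_smul, hm, smul_zero]
      have hlt : (Submodule.span A {u i • x} : Set X).ncard < n := by
        rw [← hn]
        apply Set.ncard_lt_ncard _ (Set.toFinite _)
        exact SetLike.coe_ssubset_coe.2 (lt_of_le_of_ne hle hne)
      obtain ⟨a, ha1, ha2⟩ := ih _ hlt ((part u X).smul_mem _ hx) hi rfl
      refine ⟨a * u i, by rwa [mul_smul], fun j => by rw [mul_smul]; exact ha2 j⟩

/-- group form of `exists_eigen`. -/
theorem exists_eigen_end {J : Type*} [AddCommGroup J] (T : ι → Module.End ℤ J)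
    (hT : ∀ i j, T i * T j = T j * T i) (Z : AddSubgroup J) [Finite Z]
    (hZ : ∀ i, ∀ z ∈ Z, T i z ∈ Z) {x : J} (hxZ : x ∈ Z) (hx0 : x ≠ 0)
    (hx : ∀ i, ∃ m : ℕ, (T i ^ m) x = 0) :
    ∃ y ∈ Z, y ≠ 0 ∧ (∀ i, T i y = 0) ∧
      ∀ Y : AddSubgroup J, (∀ i, ∀ z ∈ Y, T i z ∈ Y) → x ∈ Y → y ∈ Y := by
  obtain ⟨f, hf⟩ := exists_ringHom T hT
  have hst : ∀ Y : AddSubgroup J, (∀ i, ∀ z ∈ Y, T i z ∈ Y) →
      ∀ (a : MvPolynomial ι ℤ), ∀ z ∈ Y, f a z ∈ Y := by
    intro Y hY a
    induction a using MvPolynomial.induction_on with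
    | C c =>
      intro z hz
      rw [eq_intCast (MvPolynomial.C : ℤ →+* MvPolynomial ι ℤ) c, map_intCast,
        Module.End.intCast_apply]
      exact Y.zsmul_mem hz c
    | add P Q hP hQ =>
      intro z hz
      rw [map_add, LinearMap.add_apply]
      exact Y.add_mem (hP z hz) (hQ z hz)
    | mul_X P i hP =>
      intro z hz
      rw [map_mul, Module.End.mul_apply, hf]
      exact hP _ (hY i z hz)
  let _ : Module (MvPolynomial ι ℤ) J := Module.compHom J f
  have hsmul : ∀ (a : MvPolynomial ι ℤ) (x : J), a • x = f a x := fun _ _ => rfl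
  let Z' : Submodule (MvPolynomial ι ℤ) J :=
    { carrier := Z
      zero_mem' := Z.zero_mem
      add_mem' := Z.add_mem
      smul_mem' := fun a z hz => hst Z hZ a z hz }
  have : Finite Z' := ‹Finite Z›
  obtain ⟨a, ha1, ha2⟩ := exists_eigen (fun i : ι => (MvPolynomial.X i : MvPolynomial ι ℤ))
    (X := Z') (x := ⟨x, hxZ⟩) (fun i => by
      obtain ⟨m, hm⟩ := hx i
      refine ⟨m, Subtype.ext ?_⟩
      show f (MvPolynomial.X i ^ m) x = 0
      rw [map_pow, hf, hm]) (fun h => hx0 (congrArg Subtype.val h))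
  refine ⟨f a x, hst Z hZ a x hxZ, fun h => ha1 (Subtype.ext h), fun i => ?_,
    fun Y hY hxY => hst Y hY a x hxY⟩
  have := congrArg Subtype.val (ha2 i)
  rw [← hf]
  exact this

end Fermat.Agent.RIB.Fit
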