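/-
RIB (GROW)(d): the abstract algebra of the growth estimate.

`X` a `p`-primary `p`-divisible abelian group, `s` an additive endomorphism with `s^(p^n) = 1`
and finitely many fixed points.  If every element of `D ⊆ X` is `p^(n-1)` times a fixed point of
`s`, then `#D ^ φ(p^n) ≤ #X[p]`.
-/
import Mathlib

namespace Fermat.Agent.RIB

open Polynomial

/-- Shape of the shifted cyclotomic polynomial: `Φ_{p^(n+1)}(X+1) = X^φ + p (1 + X h)`. -/
theorem cyc_shape (p n : ℕ) [hp : Fact p.Prime] :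
    ∃ h : ℤ[X], (cyclotomic (p ^ (n + 1)) ℤ).comp (X + 1)
      = X ^ (p ^ n * (p - 1)) + C (p : ℤ) * (1 + X * h) := by
  set G : ℤ[X] := (cyclotomic (p ^ (n + 1)) ℤ).comp (X + 1) with hG
  have hE := cyclotomic_prime_pow_comp_X_add_one_isEisensteinAt (p := p) n
  have hmonic : G.Monic := by
    rw [hG, show (X + 1 : ℤ[X]) = X + C 1 by simp]
    refine (cyclotomic.monic _ ℤ).comp (monic_X_add_C 1) fun h => ?_
    rw [natDegree_X_add_C] at h
    exact zero_ne_one h.symm
  have hdeg : G.natDegree = p ^ n * (p - 1) := by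
    rw [hG, natDegree_comp, show (X + 1 : ℤ[X]) = X + C 1 by simp, natDegree_X_add_C, mul_one,
      natDegree_cyclotomic, Nat.totient_prime_pow_succ hp.out]
  have hpos : 0 < p ^ n * (p - 1) :=
    Nat.mul_pos (pow_pos hp.out.pos _) (Nat.sub_pos_of_lt hp.out.one_lt)
  have hdvd : C (p : ℤ) ∣ G - X ^ (p ^ n * (p - 1)) := by
    rw [C_dvd_iff_dvd_coeff]
    intro i
    rw [coeff_sub, coeff_X_pow]
    rcases lt_trichotomy i (p ^ n * (p - 1)) with hi | hi | hi
    · rw [if_neg hi.ne, sub_zero]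
      have := hE.mem (n := i) (by rw [← hG, hdeg]; exact hi)
      rwa [Ideal.submodule_span_eq, Ideal.mem_span_singleton] at this
    · rw [if_pos hi, hi, ← hdeg, hmonic.coeff_natDegree, sub_self]
      exact dvd_zero _
    · rw [if_neg hi.ne', sub_zero, coeff_eq_zero_of_natDegree_lt (by rw [hdeg]; exact hi)]
      exact dvd_zero _
  obtain ⟨g, hg⟩ := hdvd
  have hg0 : g.coeff 0 = 1 := by
    have h1 : (G - X ^ (p ^ n * (p - 1))).coeff 0 = (p : ℤ) := by
      rw [coeff_sub, coeff_X_pow, if_neg hpos.ne, sub_zero, coeff_zero_eq_eval_zero, hG,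
        eval_comp]
      simp [eval_one_cyclotomic_prime_pow]
    rw [hg, coeff_C_mul] at h1
    have hp0 : (p : ℤ) ≠ 0 := by exact_mod_cast hp.out.ne_zero
    exact mul_left_cancel₀ hp0 (by rw [h1, mul_one])
  have hX : X ∣ g - 1 := by
    rw [X_dvd_iff, coeff_sub, hg0, coeff_one_zero, sub_self]
  obtain ⟨h, hh⟩ := hX
  refine ⟨h, ?_⟩
  rw [← hh, add_sub_cancel, ← hg]
  ring

/-- Evaluated form: in any commutative ring,
`∑_{j<p} ((1+y)^(p^n))^j = y^φ + p (1 + y c)`. -/
theorem cyc_shape_eval {R : Type*} [CommRing R] (p n : ℕ) (hp : p.Prime) (y : R) :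
    ∃ c : R, ∑ j ∈ Finset.range p, ((y + 1) ^ p ^ n) ^ j
      = y ^ (p ^ n * (p - 1)) + (p : R) * (1 + y * c) := by
  have : Fact p.Prime := ⟨hp⟩
  obtain ⟨h, hh⟩ := cyc_shape p n
  refine ⟨aeval y h, ?_⟩
  have := congrArg (aeval y) hh
  rw [aeval_comp, cyclotomic_prime_pow_eq_geom_sum hp] at this
  simpa using this


/-- `#ker (g ∘ f) = #ker f * #ker g` for `f` onto. -/
theorem card_ker_comp {A B C : Type*} [AddCommGroup A] [AddCommGroup B] [AddCommGroup C]
    (f : A →+ B) (g : B →+ C) (hf : Function.Surjective f) :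
    Nat.card (g.comp f).ker = Nat.card f.ker * Nat.card g.ker := by
  -- the restriction of `f` to `ker (g ∘ f) → ker g`
  let F : (g.comp f).ker →+ g.ker :=
    (f.comp (g.comp f).ker.subtype).codRestrict g.ker (fun x => x.2)
  have hF : Function.Surjective F := by
    rintro ⟨b, hb⟩
    obtain ⟨a, rfl⟩ := hf b
    exact ⟨⟨a, hb⟩, rfl⟩
  have e1 : Nat.card F.ker = Nat.card f.ker := by
    refine Nat.card_congr
      ⟨fun x => ⟨x.1.1, ?_⟩, fun x => ⟨⟨x.1, ?_⟩, ?_⟩, fun x => rfl, fun x => rfl⟩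
    · have := x.2
      rw [AddMonoidHom.mem_ker] at this ⊢
      exact congrArg Subtype.val this
    · have := x.2
      rw [AddMonoidHom.mem_ker] at this ⊢
      simp [this]
    · have := x.2
      rw [AddMonoidHom.mem_ker] at this ⊢
      exact Subtype.ext this
  have e2 : Nat.card ((g.comp f).ker ⧸ F.ker) = Nat.card g.ker :=
    Nat.card_congr (QuotientAddGroup.quotientKerEquivOfSurjective F hF).toEquiv
  rw [AddSubgroup.card_eq_card_quotient_mul_card_addSubgroup F.ker, e1, e2, mul_comm]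

/-- `#ker (f^j) = (#ker f)^j` for `f` onto (`F j` plays the role of `f^j`). -/
theorem card_ker_pow {A : Type*} [AddCommGroup A] (F : ℕ → A →+ A) (h0 : ∀ x, F 0 x = x)
    (hS : ∀ j x, F (j + 1) x = F j (F 1 x)) (hf : Function.Surjective (F 1)) (j : ℕ) :
    Nat.card (F j).ker = Nat.card (F 1).ker ^ j := by
  induction j with
  | zero =>
    have : Subsingleton (F 0).ker := by
      refine ⟨fun a b => Subtype.ext ?_⟩
      have ha := a.2
      have hb := b.2
      rw [AddMonoidHom.mem_ker, h0] at ha hb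
      rw [ha, hb]
    rw [pow_zero]
    exact Nat.card_unique
  | succ j ih =>
    have : F (j + 1) = (F j).comp (F 1) := by
      ext x; exact hS j x
    rw [this, card_ker_comp (F 1) _ hf, ih, pow_succ, mul_comm]

/-- An additive map with finite range out of a `p`-divisible `p`-primary group is zero. -/
theorem hom_zero_of_finite_range {X Y : Type*} [AddCommGroup X] [AddCommGroup Y] (p : ℕ)
    (φ : X →+ Y) (hfin : (Set.range φ).Finite) (hdiv : ∀ x : X, ∃ x', p • x' = x)
    (htors : ∀ x : X, ∃ k, p ^ k • x = 0) (x : X) : φ x = 0 := by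
  have hF : Finite φ.range := hfin
  have hsurj : Function.Surjective (fun z : φ.range => p • z) := by
    rintro ⟨_, x, rfl⟩
    obtain ⟨x', rfl⟩ := hdiv x
    exact ⟨⟨φ x', x', rfl⟩, Subtype.ext (by simp)⟩
  have hinj : Function.Injective (fun z : φ.range => p • z) :=
    Finite.injective_iff_surjective.2 hsurj
  have key : ∀ k : ℕ, ∀ z : φ.range, p ^ k • z = 0 → z = 0 := by
    intro k
    induction k with
    | zero => intro z hz; simpa using hz
    | succ k ih =>
      intro z hz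
      apply ih
      apply hinj
      simp only [smul_zero]
      rw [← mul_smul, ← pow_succ']
      exact hz
  obtain ⟨k, hk⟩ := htors x
  have := key k ⟨φ x, x, rfl⟩ (Subtype.ext (by simp [← map_nsmul, hk]))
  exact congrArg Subtype.val this

section Main

variable {R X : Type*} [CommRing R] [AddCommGroup X] [Module R X]

theorem one_add_inj {a : R} (ha : ∀ x : X, a ∈ (Ideal.torsionOf R X x).radical) (x : X)
    (h : (1 + a) • x = 0) : x = 0 := by
  obtain ⟨k, hk⟩ := ha x
  rw [Ideal.mem_torsionOf_iff] at hk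
  have h1 := geom_sum_mul_neg (-a) k
  have h2 : (1 - (-a) ^ k) • x = 0 := by
    rw [← h1, sub_neg_eq_add, mul_smul, h, smul_zero]
  rw [sub_smul, one_smul, neg_pow, mul_smul, hk, smul_zero, sub_zero] at h2
  exact h2

theorem one_add_surj {a : R} (ha : ∀ x : X, a ∈ (Ideal.torsionOf R X x).radical) (x : X) :
    ∃ c : R, (1 + a) • (c • x) = x := by
  obtain ⟨k, hk⟩ := ha x
  rw [Ideal.mem_torsionOf_iff] at hk
  have h1 := geom_sum_mul_neg (-a) k
  refine ⟨∑ i ∈ Finset.range k, (-a) ^ i, ?_⟩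
  rw [← mul_smul, mul_comm, ← sub_neg_eq_add, h1, sub_smul, one_smul, neg_pow, mul_smul, hk,
    smul_zero, sub_zero]

theorem finite_ker_pow (y : R) (h1 : {x : X | y • x = 0}.Finite) (j : ℕ) :
    {x : X | y ^ j • x = 0}.Finite := by
  induction j with
  | zero => simp
  | succ j ih =>
    have : {x : X | y ^ (j + 1) • x = 0} = (fun x : X => y • x) ⁻¹' {x : X | y ^ j • x = 0} := by
      ext x
      simp [pow_succ, mul_smul]
    rw [this]
    refine ih.preimage' fun b _ => ?_
    by_cases hb : ∃ x0 : X, y • x0 = b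
    · obtain ⟨x0, rfl⟩ := hb
      refine (h1.image (fun z => x0 + z)).subset ?_
      intro x hx
      refine ⟨x - x0, ?_, by simp⟩
      simp only [Set.mem_preimage, Set.mem_singleton_iff] at hx
      simp [smul_sub, hx]
    · convert Set.finite_empty
      ext x
      simp only [Set.mem_preimage, Set.mem_singleton_iff, Set.mem_empty_iff_false, iff_false]
      exact fun hx => hb ⟨x, hx⟩

/-- **(GROW)(d), module form.** -/
theorem grow_mod (p n : ℕ) (hp : p.Prime)
    (hdiv : ∀ x : X, ∃ x', p • x' = x) (htors : ∀ x : X, ∃ k, p ^ k • x = 0)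
    (s : R) (hs : ∀ x : X, s ^ p ^ (n + 1) • x = x) (hfin : {x : X | s • x = x}.Finite)
    (D : Set X) (hD : ∀ d ∈ D, ∃ c : X, s • c = c ∧ p ^ n • c = d) :
    {x : X | p • x = 0}.Finite ∧ D.ncard ^ (p ^ n * (p - 1)) ≤ {x : X | p • x = 0}.ncard := by
  set y : R := s - 1 with hy
  have hsy : y + 1 = s := by rw [hy]; ring
  set Θ : R := ∑ i ∈ Finset.range (p ^ n), s ^ i with hΘdef
  set Ψ : R := ∑ j ∈ Finset.range p, (s ^ p ^ n) ^ j with hΨdef
  have hΘ : y * Θ = s ^ p ^ n - 1 := mul_geom_sum s (p ^ n)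
  have hΨ : (s ^ p ^ n - 1) * Ψ = s ^ p ^ (n + 1) - 1 := by
    rw [hΨdef, mul_geom_sum, ← pow_mul, ← pow_succ]
  have hfix : ∀ x : X, y • x = 0 ↔ s • x = x := by
    intro x; rw [hy, sub_smul, one_smul, sub_eq_zero]
  have hfin' : {x : X | y • x = 0}.Finite := by
    convert hfin using 2 with x
    ext x
    exact hfix x
  -- Step C
  have hC : ∀ x : X, (Θ * Ψ) • x = 0 := by
    intro x
    refine hom_zero_of_finite_range p (DistribSMul.toAddMonoidHom X (Θ * Ψ)) ?_ hdiv htors x
    refine hfin'.subset ?_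
    rintro _ ⟨x, rfl⟩
    simp only [DistribSMul.toAddMonoidHom_apply, Set.mem_ofPred_eq]
    rw [← mul_smul, ← mul_assoc, hΘ, hΨ, sub_smul, one_smul, hs, sub_self]
  -- Step A
  have hpR : ∀ x : X, (p : R) ∈ (Ideal.torsionOf R X x).radical := by
    intro x
    obtain ⟨k, hk⟩ := htors x
    exact ⟨k, by rw [Ideal.mem_torsionOf_iff, ← Nat.cast_pow, Nat.cast_smul_eq_nsmul]; exact hk⟩
  obtain ⟨r, hr⟩ := exists_add_pow_prime_pow_eq hp y 1 (n + 1)
  rw [hsy, one_pow] at hr
  have hypow : ∀ x : X, y ^ p ^ (n + 1) • x = - ((y * r) • (p • x)) := by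
    intro x
    have : y ^ p ^ (n + 1) = (s ^ p ^ (n + 1) - 1) - p * (y * r) := by rw [hr]; ring
    rw [this, sub_smul, sub_smul, one_smul, hs, sub_self, zero_sub, mul_comm, mul_smul,
      Nat.cast_smul_eq_nsmul]
  have hyR : ∀ x : X, y ∈ (Ideal.torsionOf R X x).radical := by
    intro x
    refine Ideal.radical_isRadical _ ⟨p ^ (n + 1), ?_⟩
    have : y ^ p ^ (n + 1) = (s ^ p ^ (n + 1) - 1) - p * (y * r) := by rw [hr]; ring
    rw [this]
    refine Ideal.sub_mem _ (Ideal.le_radical ?_) (Ideal.mul_mem_right _ _ (hpR x))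
    rw [Ideal.mem_torsionOf_iff, sub_smul, one_smul, hs, sub_self]
  -- finiteness of `X[p]`
  have hXp : {x : X | p • x = 0}.Finite := by
    refine (finite_ker_pow y hfin' (p ^ (n + 1))).subset ?_
    intro x hx
    simp only [Set.mem_ofPred_eq] at hx ⊢
    rw [hypow, hx, smul_zero, neg_zero]
  refine ⟨hXp, ?_⟩
  -- Step E
  obtain ⟨c, hc⟩ := cyc_shape_eval p n hp y
  rw [hsy] at hc
  set a : R := y * c with ha
  have haR : ∀ x : X, a ∈ (Ideal.torsionOf R X x).radical :=
    fun x => Ideal.mul_mem_right _ _ (hyR x)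
  set φ : ℕ := p ^ n * (p - 1) with hφ
  have hφpos : 0 < φ := Nat.mul_pos (pow_pos hp.pos _) (Nat.sub_pos_of_lt hp.one_lt)
  let U : Submodule R X := LinearMap.range (LinearMap.lsmul R X Θ)
  have hU1 : ∀ u ∈ U, y ^ φ • u + (1 + a) • (p • u) = 0 := by
    rintro _ ⟨x, rfl⟩
    have := hC x
    rw [mul_comm, mul_smul] at this
    rw [LinearMap.lsmul_apply, ← this, hΨdef, hc, add_smul (y ^ φ), mul_comm (p : R),
      mul_smul (1 + a), Nat.cast_smul_eq_nsmul]
  have F1 : ∀ u ∈ U, y ^ φ • u = 0 → p • u = 0 := by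
    intro u hu h
    have := hU1 u hu
    rw [h, zero_add] at this
    exact one_add_inj haR _ this
  have F2 : ∀ u ∈ U, ∃ u' ∈ U, y • u' = u := by
    rintro _ ⟨x, rfl⟩
    obtain ⟨x1, rfl⟩ := hdiv x
    obtain ⟨e, he⟩ := one_add_surj haR (Θ • x1)
    have hu2 : e • Θ • x1 ∈ U := U.smul_mem _ ⟨x1, rfl⟩
    have := hU1 _ hu2
    refine ⟨-(y ^ (φ - 1) • (e • Θ • x1)), U.neg_mem (U.smul_mem _ hu2), ?_⟩
    rw [smul_neg, ← mul_smul, ← pow_succ', Nat.sub_add_cancel hφpos, LinearMap.lsmul_apply,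
      neg_eq_iff_add_eq_zero, smul_comm Θ p x1, ← he, smul_comm p (1 + a)]
    rw [he]
    exact this
  let F : ℕ → U →+ U := fun j => DistribSMul.toAddMonoidHom U (y ^ j)
  have hcard := card_ker_pow F (fun x => by simp [F])
    (fun j x => by simp [F, pow_succ, mul_smul])
    (by
      rintro ⟨u, hu⟩
      obtain ⟨u', hu', h⟩ := F2 u hu
      exact ⟨⟨u', hu'⟩, Subtype.ext (by simpa [F] using h)⟩) φ
  have hfin1 : Finite (F 1).ker := by
    have : Finite {x : X | y • x = 0} := hfin'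
    refine Finite.of_injective (β := {x : X | y • x = 0}) (fun z => ⟨z.1.1, ?_⟩) ?_
    · have := z.2
      rw [AddMonoidHom.mem_ker] at this
      simpa [F] using congrArg Subtype.val this
    · intro z z' h
      have h' := congrArg Subtype.val h
      exact Subtype.ext (Subtype.ext h')
  have hD1 : D.ncard ≤ Nat.card (F 1).ker := by
    rw [← Nat.card_coe_set_eq]
    refine Nat.card_le_card_of_injective (fun d => ⟨⟨d.1, ?_⟩, ?_⟩) ?_
    · obtain ⟨c, hc1, hc2⟩ := hD d.1 d.2
      refine ⟨c, ?_⟩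
      rw [LinearMap.lsmul_apply, hΘdef, Finset.sum_smul, ← hc2]
      have : ∀ i : ℕ, s ^ i • c = c := by
        intro i
        induction i with
        | zero => simp
        | succ i ih => rw [pow_succ, mul_smul, hc1, ih]
      simp [this]
    · obtain ⟨c, hc1, hc2⟩ := hD d.1 d.2
      rw [AddMonoidHom.mem_ker]
      refine Subtype.ext ?_
      simp only [F, pow_one, DistribSMul.toAddMonoidHom_apply, SetLike.mk_smul_mk,
        ZeroMemClass.coe_zero]
      rw [← hc2, smul_comm, (hfix c).2 hc1, smul_zero]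
    · intro d d' h
      exact Subtype.ext (congrArg (fun z => z.1.1) h)
  have hD2 : Nat.card (F φ).ker ≤ {x : X | p • x = 0}.ncard := by
    rw [← Nat.card_coe_set_eq]
    have : Finite {x : X | p • x = 0} := hXp
    refine Nat.card_le_card_of_injective (fun z => ⟨z.1.1, ?_⟩) ?_
    · have := z.2
      rw [AddMonoidHom.mem_ker] at this
      refine F1 _ z.1.2 ?_
      exact congrArg Subtype.val this
    · intro z z' h
      have h' := congrArg Subtype.val h
      exact Subtype.ext (Subtype.ext h')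
  calc D.ncard ^ φ ≤ Nat.card (F 1).ker ^ φ := Nat.pow_le_pow_left hD1 φ
    _ = Nat.card (F φ).ker := hcard.symm
    _ ≤ _ := hD2

end Main

/-- **(GROW)(d).**  `X` a `p`-divisible `p`-primary abelian group, `s` an additive endomorphism
with `s^(p^(n+1)) = 1` and finitely many fixed points; if every element of `D` is `p^n` times a
fixed point of `s`, then `X[p]` is finite and `#D ^ φ(p^(n+1)) ≤ #X[p]`. -/
theorem grow_abs {X : Type*} [AddCommGroup X] (p n : ℕ) (hp : p.Prime)
    (hdiv : ∀ x : X, ∃ x', p • x' = x) (htors : ∀ x : X, ∃ k, p ^ k • x = 0)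
    (s : X →+ X) (hs : ∀ x : X, s^[p ^ (n + 1)] x = x) (hfin : {x : X | s x = x}.Finite)
    (D : Set X) (hD : ∀ d ∈ D, ∃ c : X, s c = c ∧ p ^ n • c = d) :
    {x : X | p • x = 0}.Finite ∧ D.ncard ^ (p ^ n * (p - 1)) ≤ {x : X | p • x = 0}.ncard := by
  let _ : Module ℤ[X] X :=
    Module.compHom X (aeval s.toIntLinearMap : ℤ[X] →ₐ[ℤ] Module.End ℤ X).toRingHom
  have hX : ∀ (m : ℕ) (x : X), ((Polynomial.X : ℤ[X]) ^ m) • x = s^[m] x := by
    intro m x
    change (aeval s.toIntLinearMap ((Polynomial.X : ℤ[X]) ^ m)) x = _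
    rw [map_pow, aeval_X, Module.End.pow_apply]
    rfl
  have hX1 : ∀ x : X, (Polynomial.X : ℤ[X]) • x = s x := by
    intro x
    have := hX 1 x
    simpa using this
  refine grow_mod (R := ℤ[X]) p n hp hdiv htors Polynomial.X ?_ ?_ D ?_
  · intro x; rw [hX, hs]
  · simpa only [hX1] using hfin
  · simpa only [hX1] using hD

end Fermat.Agent.RIB
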