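import Mathlib

/-!
# RIB / WEIL-DUAL : `f` injective on the `θ`-part  ⟹  the adjoint `g` is onto on the `θ`-part

Pure algebra (Mathlib only).  `A`, `B` finite abelian groups with perfect pairings with values in
an algebraically closed field of characteristic zero, `f : A → B`, `g : B → A` adjoint,
`s_j` commuting self-adjoint operators on `A` and on `B`, intertwined by `f`.
The `θ`-part is the subgroup where all the `s_j` are nilpotent.
-/

set_option autoImplicit false

namespace Fermat.Agent.RIB.WA

/-! ### idempotent powers in finite monoids -/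

theorem exists_pow_idem {M : Type*} [Monoid M] [Finite M] (s : M) :
    ∃ k : ℕ, 0 < k ∧ IsIdempotentElem (s ^ k) := by
  obtain ⟨a, b, hab, h⟩ := Finite.exists_ne_map_eq_of_infinite (fun n : ℕ => s ^ n)
  wlog hlt : a < b generalizing a b
  · exact this b a hab.symm h.symm (lt_of_le_of_ne (not_lt.1 hlt) hab.symm)
  obtain ⟨d, rfl⟩ := Nat.exists_eq_add_of_lt hlt
  have h' : s ^ a = s ^ a * s ^ (d + 1) := by
    have : s ^ a = s ^ (a + d + 1) := h
    rw [← pow_add, ← add_assoc]
    exact this
  have step : ∀ t : ℕ, s ^ a * s ^ ((d + 1) * t) = s ^ a := by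
    intro t
    induction t with
    | zero => simp
    | succ t ih => rw [mul_add, mul_one, pow_add, ← mul_assoc, ih, ← h']
  refine ⟨(d + 1) * (a + 1), by positivity, ?_⟩
  have hk : (d + 1) * (a + 1) = a + (d * a + d + 1) := by ring
  have hkk : (d + 1) * (a + 1) + (d + 1) * (a + 1) =
      a + (d + 1) * (a + 1) + (d * a + d + 1) := by ring
  show s ^ ((d + 1) * (a + 1)) * s ^ ((d + 1) * (a + 1)) = s ^ ((d + 1) * (a + 1))
  rw [← pow_add, hkk, pow_add, pow_add, step, ← pow_add, ← hk]

section Nil

variable {A : Type*} [AddCommGroup A]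

/-- for an idempotent power `s ^ k`, the nilpotent part of `s` is the kernel of `s ^ k`. -/
theorem exists_pow_apply_eq_zero_iff {s : AddMonoid.End A} {k : ℕ} (hk : 0 < k)
    (hs : IsIdempotentElem (s ^ k)) (a : A) : (∃ n : ℕ, (s ^ n) a = 0) ↔ (s ^ k) a = 0 := by
  constructor
  · rintro ⟨n, hn⟩
    have h1 : (s ^ k) ^ (n + 1) = s ^ k := hs.pow_succ_eq n
    have h2 : k * (n + 1) = (k * (n + 1) - n) + n := by
      have : n < k * (n + 1) := by nlinarith
      omega
    rw [← h1, ← pow_mul, h2, pow_add, AddMonoid.End.coe_mul, Function.comp_apply, hn, map_zero]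
  · intro h
    exact ⟨k, h⟩

variable {κ : Type*}

/-- the product of the `1 - E j`, `j ∈ l`. -/
def projL (E : κ → AddMonoid.End A) (l : List κ) : AddMonoid.End A :=
  (l.map fun j => 1 - E j).prod

theorem projL_nil (E : κ → AddMonoid.End A) : projL E [] = 1 := rfl

theorem projL_cons (E : κ → AddMonoid.End A) (j : κ) (l : List κ) :
    projL E (j :: l) = (1 - E j) * projL E l := by
  simp [projL]

theorem projL_cons_apply (E : κ → AddMonoid.End A) (j : κ) (l : List κ) (a : A) :
    projL E (j :: l) a = projL E l a - E j (projL E l a) := by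
  rw [projL_cons]
  rfl

theorem projL_fix (E : κ → AddMonoid.End A) (l : List κ) {a : A} (h : ∀ j ∈ l, E j a = 0) :
    projL E l a = a := by
  induction l with
  | nil => rfl
  | cons j l ih =>
    rw [projL_cons_apply, ih fun i hi => h i (List.mem_cons_of_mem _ hi),
      h j List.mem_cons_self, sub_zero]

theorem projL_commute {E : κ → AddMonoid.End A} (hc : ∀ i j, Commute (E i) (E j)) (i : κ)
    (l : List κ) : Commute (E i) (projL E l) := by
  apply Commute.list_prod_right
  intro x hx
  obtain ⟨j, -, rfl⟩ := List.mem_map.1 hx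
  exact (Commute.one_right _).sub_right (hc i j)

theorem projL_kill {E : κ → AddMonoid.End A} (hc : ∀ i j, Commute (E i) (E j))
    (hid : ∀ j, IsIdempotentElem (E j)) (l : List κ) {i : κ} (hi : i ∈ l) (a : A) :
    E i (projL E l a) = 0 := by
  induction l with
  | nil => simp at hi
  | cons j l ih =>
    rw [projL_cons_apply, map_sub]
    rcases List.mem_cons.1 hi with rfl | hi
    · have : E i (E i (projL E l a)) = (E i * E i) (projL E l a) := rfl
      rw [this, (hid i).eq, sub_self]
    · have : E i (E j (projL E l a)) = E j (E i (projL E l a)) := by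
        have h := congrArg (fun u : AddMonoid.End A => u (projL E l a)) (hc i j).eq
        exact h
      rw [this, ih hi, map_zero, sub_zero]

theorem projL_map {B : Type*} [AddCommGroup B] {EA : κ → AddMonoid.End A}
    {EB : κ → AddMonoid.End B} (f : A →+ B) (hf : ∀ j a, f (EA j a) = EB j (f a)) (l : List κ)
    (a : A) : f (projL EA l a) = projL EB l (f a) := by
  induction l with
  | nil => rfl
  | cons j l ih => rw [projL_cons_apply, projL_cons_apply, map_sub, hf, ih]

end Nil

/-! ### perfect pairings -/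

/-- a bimultiplicative pairing without zeros which is non degenerate (on the left). -/
structure PerfPair {A K : Type*} [AddCommGroup A] [Field K] (e : A → A → K) : Prop where
  ne_zero : ∀ x y, e x y ≠ 0
  add_left : ∀ x x' y, e (x + x') y = e x y * e x' y
  add_right : ∀ x y y', e x (y + y') = e x y * e x y'
  nondeg : ∀ x, (∀ y, e x y = 1) → x = 0

namespace PerfPair

variable {A K : Type*} [AddCommGroup A] [Field K] {e : A → A → K}

theorem zero_left (h : PerfPair e) (y : A) : e 0 y = 1 := by
  have h1 := h.add_left 0 0 y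
  rw [add_zero] at h1
  exact (mul_eq_left₀ (h.ne_zero 0 y)).1 h1.symm

theorem zero_right (h : PerfPair e) (x : A) : e x 0 = 1 := by
  have h1 := h.add_right x 0 0
  rw [add_zero] at h1
  exact (mul_eq_left₀ (h.ne_zero x 0)).1 h1.symm

theorem neg_left (h : PerfPair e) (x y : A) : e (-x) y = (e x y)⁻¹ := by
  have h1 := h.add_left (-x) x y
  rw [neg_add_cancel, h.zero_left] at h1
  exact eq_inv_of_mul_eq_one_left h1.symm

theorem neg_right (h : PerfPair e) (x y : A) : e x (-y) = (e x y)⁻¹ := by
  have h1 := h.add_right x (-y) y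
  rw [neg_add_cancel, h.zero_right] at h1
  exact eq_inv_of_mul_eq_one_left h1.symm

theorem sub_left (h : PerfPair e) (x x' y : A) : e (x - x') y = e x y / e x' y := by
  rw [sub_eq_add_neg, h.add_left, h.neg_left, div_eq_mul_inv]

theorem sub_right (h : PerfPair e) (x y y' : A) : e x (y - y') = e x y / e x y' := by
  rw [sub_eq_add_neg, h.add_right, h.neg_right, div_eq_mul_inv]

/-- the character `e x`. -/
noncomputable def char (h : PerfPair e) (x : A) : Multiplicative A →* Kˣ where
  toFun y := Units.mk0 (e x y.toAdd) (h.ne_zero _ _)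
  map_one' := Units.ext (h.zero_right x)
  map_mul' y y' := Units.ext (h.add_right x y.toAdd y'.toAdd)

/-- `x ↦ e x`. -/
noncomputable def charHom (h : PerfPair e) : Multiplicative A →* (Multiplicative A →* Kˣ) where
  toFun x := h.char x.toAdd
  map_one' := MonoidHom.ext fun y => Units.ext (h.zero_left y.toAdd)
  map_mul' x x' := MonoidHom.ext fun y => Units.ext (h.add_left x.toAdd x'.toAdd y.toAdd)

theorem charHom_injective (h : PerfPair e) : Function.Injective h.charHom := by
  rw [injective_iff_map_eq_one]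
  intro x hx
  have : x.toAdd = 0 := h.nondeg _ fun y => by
    have h1 := congrArg (fun φ : Multiplicative A →* Kˣ => ((φ (Multiplicative.ofAdd y) : Kˣ) : K)) hx
    exact h1
  exact this

variable [Finite A] [IsAlgClosed K] [CharZero K]

theorem charHom_surjective (h : PerfPair e) : Function.Surjective h.charHom := by
  haveI : NeZero (Monoid.exponent (Multiplicative A)) := ⟨Monoid.exponent_ne_zero_of_finite⟩
  haveI : NeZero ((Monoid.exponent (Multiplicative A) : ℕ) : K) :=
    ⟨Nat.cast_ne_zero.2 (NeZero.ne _)⟩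
  have hcard := CommGroup.card_monoidHom_of_hasEnoughRootsOfUnity (Multiplicative A) K
  haveI : Finite (Multiplicative A →* Kˣ) := by
    apply Nat.finite_of_card_ne_zero
    rw [hcard]
    exact Nat.card_pos.ne'
  exact (h.charHom_injective.bijective_of_nat_card_le hcard.le).2

/-- biduality: `(I^⊥)^⊥ ⊆ I`. -/
theorem mem_of_perp (h : PerfPair e) (I : AddSubgroup A) (x : A)
    (hx : ∀ a, (∀ y ∈ I, e a y = 1) → e a x = 1) : x ∈ I := by
  haveI : NeZero (Monoid.exponent (Multiplicative A)) := ⟨Monoid.exponent_ne_zero_of_finite⟩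
  haveI : NeZero ((Monoid.exponent (Multiplicative A) : ℕ) : K) :=
    ⟨Nat.cast_ne_zero.2 (NeZero.ne _)⟩
  have key := (CommGroup.forall_monoidHom_apply_eq_one_iff (M := K) (AddSubgroup.toSubgroup I)
    (Multiplicative.ofAdd x)).1 ?_
  · exact key
  · intro φ hφ
    obtain ⟨a, rfl⟩ := h.charHom_surjective φ
    apply Units.ext
    refine hx a.toAdd fun y hy => ?_
    exact congrArg Units.val (hφ (Multiplicative.ofAdd y) hy)

end PerfPair

section Main

variable {A B K κ : Type*} [AddCommGroup A] [AddCommGroup B] [Field K]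

theorem pow_adj {e : A → A → K} {s : AddMonoid.End A} (hadj : ∀ a a', e (s a) a' = e a (s a'))
    (n : ℕ) (a a' : A) : e ((s ^ n) a) a' = e a ((s ^ n) a') := by
  induction n generalizing a a' with
  | zero => rfl
  | succ n ih =>
    have h1 : (s ^ (n + 1)) a = s ((s ^ n) a) := by rw [pow_succ']; rfl
    have h2 : (s ^ (n + 1)) a' = (s ^ n) (s a') := by rw [pow_succ]; rfl
    rw [h1, h2, hadj, ih]

theorem pow_map {s : AddMonoid.End A} {t : AddMonoid.End B} (f : A →+ B)
    (hf : ∀ a, f (s a) = t (f a)) (n : ℕ) (a : A) : f ((s ^ n) a) = (t ^ n) (f a) := by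
  induction n generalizing a with
  | zero => rfl
  | succ n ih =>
    have h1 : (s ^ (n + 1)) a = s ((s ^ n) a) := by rw [pow_succ']; rfl
    have h2 : (t ^ (n + 1)) (f a) = t ((t ^ n) (f a)) := by rw [pow_succ']; rfl
    rw [h1, h2, hf, ih]

theorem projL_adj {e : A → A → K} (h : PerfPair e) {E : κ → AddMonoid.End A}
    (hc : ∀ i j, Commute (E i) (E j)) (hadj : ∀ j a a', e (E j a) a' = e a (E j a'))
    (l : List κ) (a a' : A) : e (projL E l a) a' = e a (projL E l a') := by
  induction l generalizing a a' with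
  | nil => rfl
  | cons j l ih =>
    have hcomm : projL E l (E j a') = E j (projL E l a') :=
      (congrArg (fun u : AddMonoid.End A => u a') (projL_commute hc j l).eq).symm
    rw [projL_cons_apply, projL_cons_apply, h.sub_left, h.sub_right, ih, hadj, ih, hcomm]

variable [Finite A] [Finite B] [IsAlgClosed K] [CharZero K]

/-- **duality**: if `f` is injective on the part of `A` where all `s_j` are nilpotent, then its
adjoint `g` maps the nilpotent part of `B` onto the nilpotent part of `A`. -/
theorem surj_of_inj {eA : A → A → K} {eB : B → B → K} (hA : PerfPair eA) (hB : PerfPair eB)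
    (f : A →+ B) (g : B →+ A) (hfg : ∀ a b, eB (f a) b = eA a (g b))
    (sA : κ → AddMonoid.End A) (sB : κ → AddMonoid.End B)
    (hcA : ∀ i j, Commute (sA i) (sA j)) (hcB : ∀ i j, Commute (sB i) (sB j))
    (hadjA : ∀ j a a', eA (sA j a) a' = eA a (sA j a'))
    (hadjB : ∀ j b b', eB (sB j b) b' = eB b (sB j b'))
    (hf : ∀ j a, f (sA j a) = sB j (f a))
    (hinj : ∀ a, (∀ j, ∃ n : ℕ, (sA j ^ n) a = 0) → f a = 0 → a = 0)
    (x : A) (hx : ∀ j, ∃ n : ℕ, (sA j ^ n) x = 0) :
    ∃ b, (∀ j, ∃ n : ℕ, (sB j ^ n) b = 0) ∧ g b = x := by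
  classical
  haveI : Finite (AddMonoid.End A) := DFunLike.finite (A →+ A)
  haveI : Finite (AddMonoid.End B) := DFunLike.finite (B →+ B)
  have hk : ∀ j, ∃ k : ℕ, 0 < k ∧
      IsIdempotentElem (((sA j, sB j) : AddMonoid.End A × AddMonoid.End B) ^ k) :=
    fun j => exists_pow_idem _
  choose k hk0 hkid using hk
  set EA : κ → AddMonoid.End A := fun j => sA j ^ k j with hEA
  set EB : κ → AddMonoid.End B := fun j => sB j ^ k j with hEB
  have hidA : ∀ j, IsIdempotentElem (EA j) := fun j => congrArg Prod.fst (hkid j)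
  have hidB : ∀ j, IsIdempotentElem (EB j) := fun j => congrArg Prod.snd (hkid j)
  have hθA : ∀ a, (∀ j, ∃ n : ℕ, (sA j ^ n) a = 0) ↔ ∀ j, EA j a = 0 := fun a =>
    forall_congr' fun j => exists_pow_apply_eq_zero_iff (hk0 j) (hidA j) a
  have hθB : ∀ b, (∀ j, ∃ n : ℕ, (sB j ^ n) b = 0) ↔ ∀ j, EB j b = 0 := fun b =>
    forall_congr' fun j => exists_pow_apply_eq_zero_iff (hk0 j) (hidB j) b
  have hcEA : ∀ i j, Commute (EA i) (EA j) := fun i j => (hcA i j).pow_pow _ _
  have hcEB : ∀ i j, Commute (EB i) (EB j) := fun i j => (hcB i j).pow_pow _ _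
  -- a finite list of indices which exhausts the idempotents
  obtain ⟨l, hl⟩ : ∃ l : List κ, ∀ j, ∃ j' ∈ l, EA j' = EA j ∧ EB j' = EB j := by
    let F : κ → AddMonoid.End A × AddMonoid.End B := fun j => (EA j, EB j)
    haveI : Fintype (Set.range F) := Fintype.ofFinite _
    refine ⟨(Finset.univ : Finset (Set.range F)).toList.map fun t => t.2.choose, fun j => ?_⟩
    let t : Set.range F := ⟨F j, j, rfl⟩
    refine ⟨t.2.choose, List.mem_map.2 ⟨t, by simp, rfl⟩, ?_, ?_⟩
    · exact congrArg Prod.fst t.2.choose_spec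
    · exact congrArg Prod.snd t.2.choose_spec
  have hkillA : ∀ a j, EA j (projL EA l a) = 0 := by
    intro a j
    obtain ⟨j', hj', h1, -⟩ := hl j
    rw [← h1]
    exact projL_kill hcEA hidA l hj' a
  have hkillB : ∀ b j, EB j (projL EB l b) = 0 := by
    intro b j
    obtain ⟨j', hj', -, h1⟩ := hl j
    rw [← h1]
    exact projL_kill hcEB hidB l hj' b
  have hmem : x ∈ (g.comp (projL EB l : B →+ B)).range := by
    refine hA.mem_of_perp _ x fun a ha => ?_
    have h1 : f (projL EA l a) = 0 := by
      refine hB.nondeg _ fun b => ?_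
      rw [projL_map f (fun j a => pow_map f (hf j) (k j) a) l a,
        projL_adj hB hcEB (fun j => pow_adj (hadjB j) (k j)) l, hfg]
      exact ha _ ⟨b, rfl⟩
    have h2 : projL EA l a = 0 := hinj _ ((hθA _).2 (hkillA a)) h1
    rw [← projL_fix EA l (a := x) fun j _ => (hθA x).1 hx j,
      ← projL_adj hA hcEA (fun j => pow_adj (hadjA j) (k j)) l, h2, hA.zero_left]
  obtain ⟨b, rfl⟩ := hmem
  exact ⟨projL EB l b, (hθB _).2 (hkillB b), rfl⟩

end Main

/-! ### the same statement for the `m`-torsion of ambient groups and families of maps -/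

/-- a perfect pairing on the `m`-torsion of an ambient group. -/
structure TorsPair {X K : Type*} [AddCommGroup X] [Field K] (m : ℕ) (e : X → X → K) : Prop where
  ne_zero : ∀ x y, m • x = 0 → m • y = 0 → e x y ≠ 0
  add_left : ∀ x x' y, m • x = 0 → m • x' = 0 → m • y = 0 → e (x + x') y = e x y * e x' y
  add_right : ∀ x y y', m • x = 0 → m • y = 0 → m • y' = 0 → e x (y + y') = e x y * e x y'
  nondeg : ∀ x, m • x = 0 → (∀ y, m • y = 0 → e x y = 1) → x = 0

/-- the `m`-torsion subgroup. -/
def tor (X : Type*) [AddCommGroup X] (m : ℕ) : AddSubgroup X := (nsmulAddMonoidHom (α := X) m).ker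

theorem mem_tor {X : Type*} [AddCommGroup X] {m : ℕ} {x : X} : x ∈ tor X m ↔ m • x = 0 :=
  Iff.rfl

/-- restriction of a homomorphism to the `m`-torsion. -/
def torMap {X Y : Type*} [AddCommGroup X] [AddCommGroup Y] (m : ℕ) (u : X →+ Y) :
    tor X m →+ tor Y m :=
  (u.comp (tor X m).subtype).codRestrict _ fun x => by
    rw [mem_tor]
    show m • u (x : X) = 0
    rw [← map_nsmul, mem_tor.1 x.2, map_zero]

@[simp] theorem coe_torMap {X Y : Type*} [AddCommGroup X] [AddCommGroup Y] (m : ℕ) (u : X →+ Y)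
    (x : tor X m) : ((torMap m u x : tor Y m) : Y) = u x := rfl

theorem iterate_eq_zero_of_le {X : Type*} [AddCommGroup X] (s : X →+ X) {x : X} {n n' : ℕ}
    (h : s^[n] x = 0) (hn : n ≤ n') : s^[n'] x = 0 := by
  obtain ⟨d, rfl⟩ := Nat.exists_eq_add_of_le hn
  rw [add_comm, Function.iterate_add_apply, h]
  exact iterate_map_zero s d

section Ambient

variable {X Y K ι κ : Type*} [AddCommGroup X] [AddCommGroup Y] [Field K] [Fintype ι]

theorem TorsPair.perfPair_pi {m : ℕ} {e : X → X → K} (h : TorsPair m e) :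
    PerfPair (fun a a' : ι → tor X m => ∏ i, e (a i) (a' i)) where
  ne_zero a a' := Finset.prod_ne_zero_iff.2 fun i _ => h.ne_zero _ _ (a i).2 (a' i).2
  add_left a a' b := by
    rw [← Finset.prod_mul_distrib]
    exact Finset.prod_congr rfl fun i _ => h.add_left _ _ _ (a i).2 (a' i).2 (b i).2
  add_right a b b' := by
    rw [← Finset.prod_mul_distrib]
    exact Finset.prod_congr rfl fun i _ => h.add_right _ _ _ (a i).2 (b i).2 (b' i).2
  nondeg a ha := by
    classical
    have h0 : ∀ x : X, m • x = 0 → e x 0 = 1 := by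
      intro x hx
      have h1 := h.add_right x 0 0 hx (smul_zero m) (smul_zero m)
      rw [add_zero] at h1
      exact (mul_eq_left₀ (h.ne_zero x 0 hx (smul_zero m))).1 h1.symm
    funext i
    refine Subtype.ext (h.nondeg _ (a i).2 fun y hy => ?_)
    have h1 := ha (Pi.single i ⟨y, hy⟩)
    rw [Finset.prod_eq_single i] at h1
    · simpa using h1
    · intro j _ hj
      rw [Pi.single_eq_of_ne hj]
      exact h0 _ (a j).2
    · intro hi
      exact absurd (Finset.mem_univ i) hi

theorem TorsPair.perfPair {m : ℕ} {e : X → X → K} (h : TorsPair m e) :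
    PerfPair (fun a a' : tor X m => e a a') where
  ne_zero a a' := h.ne_zero _ _ a.2 a'.2
  add_left a a' b := h.add_left _ _ _ a.2 a'.2 b.2
  add_right a b b' := h.add_right _ _ _ a.2 b.2 b'.2
  nondeg a ha := Subtype.ext (h.nondeg _ a.2 fun y hy => ha ⟨y, hy⟩)

/-- `torMap` as an element of the endomorphism ring. -/
def torEnd (m : ℕ) (s : X →+ X) : AddMonoid.End (tor X m) := torMap m s

/-- componentwise action. -/
def piEnd (ι : Type*) {Z : Type*} [AddCommGroup Z] (s : AddMonoid.End Z) :
    AddMonoid.End (ι → Z) := AddMonoidHom.compLeft s ι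

theorem coe_pow_torEnd {m : ℕ} (s : X →+ X) (n : ℕ) (x : tor X m) :
    (((torEnd m s ^ n) x : tor X m) : X) = s^[n] x := by
  induction n with
  | zero => rfl
  | succ n ih =>
    have h1 : (torEnd m s ^ (n + 1)) x = torEnd m s ((torEnd m s ^ n) x) := by
      rw [pow_succ']; rfl
    rw [h1, Function.iterate_succ_apply', ← ih]
    rfl

theorem pow_piEnd_apply {Z : Type*} [AddCommGroup Z] (s : AddMonoid.End Z) (n : ℕ)
    (a : ι → Z) (i : ι) : ((piEnd ι s ^ n) a) i = (s ^ n) (a i) := by
  induction n generalizing a with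
  | zero => rfl
  | succ n ih =>
    have h1 : (piEnd ι s ^ (n + 1)) a = (piEnd ι s ^ n) (piEnd ι s a) := by rw [pow_succ]; rfl
    have h2 : (s ^ (n + 1)) (a i) = (s ^ n) (s (a i)) := by rw [pow_succ]; rfl
    rw [h1, ih, h2]
    rfl

variable [IsAlgClosed K] [CharZero K]

/-- **[INJ ⟹ ONTO]** `ι`-families `pull i : X → Y`, `push i : Y → X` adjoint for perfect pairings
on the (finite) `m`-torsion, `s_j` commuting self-adjoint operators intertwined by the `pull i`.
If `(v_i) ↦ ∑ pull i (v_i)` is injective on the nilpotent part of `X[m]^ι` then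
`y ↦ (push i y)_i` maps the nilpotent part of `Y[m]` onto the nilpotent part of `X[m]^ι`. -/
theorem exists_push_eq {m : ℕ} (hXfin : Finite (tor X m)) (hYfin : Finite (tor Y m))
    {eX : X → X → K} {eY : Y → Y → K} (hX : TorsPair m eX) (hY : TorsPair m eY)
    (pull : ι → X →+ Y) (push : ι → Y →+ X)
    (hadj : ∀ i x y, m • x = 0 → m • y = 0 → eY (pull i x) y = eX x (push i y))
    (sX : κ → X →+ X) (sY : κ → Y →+ Y)
    (hcX : ∀ j j' x, m • x = 0 → sX j (sX j' x) = sX j' (sX j x))
    (hcY : ∀ j j' y, m • y = 0 → sY j (sY j' y) = sY j' (sY j y))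
    (hsX : ∀ j x x', m • x = 0 → m • x' = 0 → eX (sX j x) x' = eX x (sX j x'))
    (hsY : ∀ j y y', m • y = 0 → m • y' = 0 → eY (sY j y) y' = eY y (sY j y'))
    (hpull : ∀ i j x, m • x = 0 → pull i (sX j x) = sY j (pull i x))
    (hinj : ∀ v : ι → X, (∀ i, m • v i = 0) → (∀ i j, ∃ n : ℕ, (sX j)^[n] (v i) = 0) →
      ∑ i, pull i (v i) = 0 → ∀ i, v i = 0)
    (v : ι → X) (hv : ∀ i, m • v i = 0) (hvθ : ∀ i j, ∃ n : ℕ, (sX j)^[n] (v i) = 0) :
    ∃ y : Y, m • y = 0 ∧ (∀ j, ∃ n : ℕ, (sY j)^[n] y = 0) ∧ ∀ i, push i y = v i := by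
  classical
  let f : (ι → tor X m) →+ tor Y m :=
    ∑ i, (torMap m (pull i)).comp (Pi.evalAddMonoidHom (fun _ => tor X m) i)
  let g : tor Y m →+ (ι → tor X m) := AddMonoidHom.pi fun i => torMap m (push i)
  have hf : ∀ a, ((f a : tor Y m) : Y) = ∑ i, pull i (a i) := by
    intro a
    simp only [f, AddMonoidHom.finsetSum_apply]
    rw [← AddSubgroup.subtype_apply, map_sum]
    rfl
  let sA : κ → AddMonoid.End (ι → tor X m) := fun j => piEnd ι (torEnd m (sX j))
  let sB : κ → AddMonoid.End (tor Y m) := fun j => torEnd m (sY j)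
  have hpowA : ∀ j n (a : ι → tor X m) i, ((((sA j) ^ n) a i : tor X m) : X) = (sX j)^[n] (a i) := by
    intro j n a i
    rw [pow_piEnd_apply]
    exact coe_pow_torEnd (sX j) n (a i)
  have hprod : ∀ (a : ι → tor X m) (b : tor Y m),
      eY (∑ i, pull i (a i)) b = ∏ i, eY (pull i (a i)) b := by
    intro a b
    have : ∀ s : Finset ι, eY (∑ i ∈ s, pull i (a i)) b = ∏ i ∈ s, eY (pull i (a i)) b ∧
        m • (∑ i ∈ s, pull i (a i)) = 0 := by
      intro s
      induction s using Finset.induction_on with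
      | empty =>
        refine ⟨?_, by simp⟩
        simp only [Finset.sum_empty, Finset.prod_empty]
        exact hY.perfPair.zero_left b
      | insert i s hi ih =>
        have hi' : m • pull i (a i) = 0 := by rw [← map_nsmul, mem_tor.1 (a i).2, map_zero]
        rw [Finset.sum_insert hi, Finset.prod_insert hi]
        exact ⟨by rw [hY.add_left _ _ _ hi' ih.2 b.2, ih.1], by rw [smul_add, hi', ih.2, add_zero]⟩
    exact (this Finset.univ).1
  obtain ⟨b, hb, hgb⟩ := surj_of_inj (κ := κ) (hX.perfPair_pi (ι := ι)) hY.perfPair f g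
    (fun a b => by
      show eY (f a : tor Y m) b = ∏ i, eX (a i) (push i b)
      rw [hf, hprod]
      exact Finset.prod_congr rfl fun i _ => hadj i _ _ (a i).2 b.2)
    sA sB
    (fun j j' => by
      refine AddMonoidHom.ext fun a => funext fun i => Subtype.ext ?_
      exact hcX j j' _ (a i).2)
    (fun j j' => by
      refine AddMonoidHom.ext fun b => Subtype.ext ?_
      exact hcY j j' _ b.2)
    (fun j a a' => Finset.prod_congr rfl fun i _ => hsX j _ _ (a i).2 (a' i).2)
    (fun j b b' => hsY j _ _ b.2 b'.2)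
    (fun j a => by
      apply Subtype.ext
      rw [hf]
      show ∑ i, pull i (sX j (a i)) = sY j (f a : tor Y m)
      rw [hf, map_sum]
      exact Finset.sum_congr rfl fun i _ => hpull i j _ (a i).2)
    (fun a ha hfa => by
      funext i
      refine Subtype.ext (hinj (fun i => (a i : X)) (fun i => (a i).2) (fun i j => ?_) ?_ i)
      · obtain ⟨n, hn⟩ := ha j
        refine ⟨n, ?_⟩
        rw [← hpowA, hn]
        rfl
      · rw [← hf, hfa]
        rfl)
    (fun i => ⟨v i, hv i⟩)
    (fun j => by
      choose n hn using fun i => hvθ i j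
      refine ⟨∑ i, n i, funext fun i => Subtype.ext ?_⟩
      rw [hpowA]
      exact iterate_eq_zero_of_le (sX j) (hn i)
        (Finset.single_le_sum (fun _ _ => Nat.zero_le _) (Finset.mem_univ i)))
  refine ⟨b, b.2, fun j => ?_, fun i => ?_⟩
  · obtain ⟨n, hn⟩ := hb j
    refine ⟨n, ?_⟩
    rw [← coe_pow_torEnd, show (torEnd m (sY j) ^ n) b = 0 from hn]
    rfl
  · exact congrArg Subtype.val (congrFun hgb i)

end Ambient

end Fermat.Agent.RIB.WA
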