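import Fermat.Agent.RIB.WeilAdj
import Fermat.Agent.RIB.WeilDual
import Fermat.Agent.RIB.Theta
import Fermat.Agent.S19
import Fermat.Agent.Cheb.Cyclo

/-!
# RIB / WEIL-J : the Weil pairing on `J₀(N)[p^k]`, Hecke operators and degeneracy maps

* `weil_hecke` : `T_r` (`r ∤ N p`) is self-adjoint for `e_{p^k}`,
* `weil_iot` : `π_i^*` and `π_{i *}` are adjoint,
* `exists_Pii_eq` : (`ι` injective on the `p^k`-torsion of the `θ`-part) ⟹ (`Π` is onto on it).
-/

set_option autoImplicit false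
set_option linter.unusedSectionVars false
set_option synthInstance.maxHeartbeats 400000

open AlgebraicCurve ModularCurve

namespace Fermat.Agent.RIB.WA

open Fermat.Agent.S27 Fermat.Agent.S19 Fermat.Agent.GAL Fermat.Agent.GAL.PC
  Fermat.Agent.GAL.HeckeInputs

local notation "Qbar" => AlgebraicClosure ℚ
local notation "GQ" => (AlgebraicClosure ℚ ≃ₐ[ℚ] AlgebraicClosure ℚ)

section General

variable {K F : Type*} [Field K] [Field F] [Algebra K F] [IsAlgClosed K] [CharZero K] [IsFF K F]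

theorem weil_zero_right {m : ℕ} {x : Pic0 K F} (hx : m • x = 0) : weil m x 0 = 1 := by
  have h1 := weil_add_right (y := 0) (y' := 0) hx (smul_zero m) (smul_zero m)
  rw [add_zero] at h1
  exact (mul_eq_left₀ (weil_ne_zero m x 0)).1 h1.symm

theorem weil_zero_left {m : ℕ} {y : Pic0 K F} (hy : m • y = 0) : weil m 0 y = 1 := by
  have h1 := weil_add_left (x := 0) (x' := 0) (smul_zero m) (smul_zero m) hy
  rw [add_zero] at h1
  exact (mul_eq_left₀ (weil_ne_zero m 0 y)).1 h1.symm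

theorem weil_nsmul_right {m : ℕ} {x y : Pic0 K F} (hx : m • x = 0) (hy : m • y = 0) (n : ℕ) :
    weil m x (n • y) = weil m x y ^ n := by
  induction n with
  | zero => rw [zero_nsmul, pow_zero, weil_zero_right hx]
  | succ n ih =>
    rw [succ_nsmul, weil_add_right hx (by rw [smul_comm, hy, smul_zero]) hy, ih, pow_succ]

theorem weil_nsmul_left {m : ℕ} {x y : Pic0 K F} (hx : m • x = 0) (hy : m • y = 0) (n : ℕ) :
    weil m (n • x) y = weil m x y ^ n := by
  induction n with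
  | zero => rw [zero_nsmul, pow_zero, weil_zero_left hy]
  | succ n ih =>
    rw [succ_nsmul, weil_add_left (by rw [smul_comm, hx, smul_zero]) hx hy, ih, pow_succ]

theorem weil_neg_right {m : ℕ} {x y : Pic0 K F} (hx : m • x = 0) (hy : m • y = 0) :
    weil m x (-y) = (weil m x y)⁻¹ := by
  have h1 := weil_add_right (y := -y) (y' := y) hx (by rw [neg_nsmul, hy, neg_zero]) hy
  rw [neg_add_cancel, weil_zero_right hx] at h1
  exact eq_inv_of_mul_eq_one_left h1.symm

theorem weil_neg_left {m : ℕ} {x y : Pic0 K F} (hx : m • x = 0) (hy : m • y = 0) :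
    weil m (-x) y = (weil m x y)⁻¹ := by
  have h1 := weil_add_left (x := -x) (x' := x) (by rw [neg_nsmul, hx, neg_zero]) hx hy
  rw [neg_add_cancel, weil_zero_left hy] at h1
  exact eq_inv_of_mul_eq_one_left h1.symm

theorem weil_zsmul_right {m : ℕ} {x y : Pic0 K F} (hx : m • x = 0) (hy : m • y = 0) (n : ℤ) :
    weil m x (n • y) = weil m x y ^ n := by
  obtain ⟨n, rfl | rfl⟩ := n.eq_nat_or_neg
  · rw [natCast_zsmul, zpow_natCast, weil_nsmul_right hx hy]
  · rw [neg_smul, natCast_zsmul, zpow_neg, zpow_natCast,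
      weil_neg_right hx (by rw [smul_comm, hy, smul_zero]), weil_nsmul_right hx hy]

theorem weil_zsmul_left {m : ℕ} {x y : Pic0 K F} (hx : m • x = 0) (hy : m • y = 0) (n : ℤ) :
    weil m (n • x) y = weil m x y ^ n := by
  obtain ⟨n, rfl | rfl⟩ := n.eq_nat_or_neg
  · rw [natCast_zsmul, zpow_natCast, weil_nsmul_left hx hy]
  · rw [neg_smul, natCast_zsmul, zpow_neg, zpow_natCast,
      weil_neg_left (by rw [smul_comm, hx, smul_zero]) hy, weil_nsmul_left hx hy]

end General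

section Modular

variable (N : ℕ) [NeZero N]

/-- Galois equivariance of the Weil pairing on `J₀(N)`. -/
theorem weil_galois (σ : GQ) {m : ℕ} {x y : JZero N} (hx : m • x = 0) (hy : m • y = 0) :
    weil m (σ • x) (σ • y) = σ (weil m x y) :=
  weil_smul (galM N σ) hx hy

theorem torsPair_weil {p : ℕ} (hp : p.Prime) (k : ℕ) :
    TorsPair (p ^ k) (fun x y : JZero N => weil (p ^ k) x y) where
  ne_zero x y _ _ := weil_ne_zero _ _ _
  add_left _ _ _ hx hx' hy := weil_add_left hx hx' hy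
  add_right _ _ _ hx hy hy' := weil_add_right hx hy hy'
  nondeg _ hx h := weil_nondeg hp k (divisible_cover p hp.pos) hx h

theorem finite_tor_JZero {p : ℕ} (hp : 0 < p) (k : ℕ) : Finite (tor (JZero N) (p ^ k)) := by
  have h := finite_tor N p k hp
  have h3 : (tor (JZero N) (p ^ k) : Set (JZero N)) =
      (Submodule.torsionBy ℤ (JZero N) ((p : ℤ) ^ k) : Set (JZero N)) := by
    ext x
    simp only [SetLike.mem_coe, mem_tor, Submodule.mem_torsionBy_iff]
    rw [← Nat.cast_pow, natCast_zsmul]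
  exact Set.finite_coe_iff.2 (h3 ▸ Set.finite_coe_iff.1 h)

/-- **`T_r` is self-adjoint** for the Weil pairing on `J₀(N)[p^k]`, `r ∤ N p`
(`T_r = φ + r φ⁻¹`, `e (φ x, φ y) = e (x, y)^r`). -/
theorem weil_hecke {p : ℕ} (k : ℕ) (r : Nat.Primes) (hr : ¬ (r : ℕ) ∣ N * p)
    {x y : JZero N} (hx : p ^ k • x = 0) (hy : p ^ k • y = 0) :
    weil (p ^ k) (heckeOperatorBar N r x) y = weil (p ^ k) x (heckeOperatorBar N r y) := by
  obtain ⟨A, hA⟩ := Fermat.Agent.S54.exists_liesOverPrime r.2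
  obtain ⟨φ, hφ⟩ := Fermat.Agent.S54.exists_isFrobeniusAt_of_liesOverPrime r.2 A hA
  have hrp : ¬ (r : ℕ) ∣ p ^ k := fun h =>
    hr (Dvd.dvd.mul_left (r.2.dvd_of_dvd_pow h) N)
  have hsm : ∀ (σ : GQ) {z : JZero N}, p ^ k • z = 0 → p ^ k • (σ • z) = 0 := by
    intro σ z hz
    rw [smul_comm, hz]
    exact smul_zero (A := JZero N) σ
  have hfrob : ∀ {a b : JZero N}, p ^ k • a = 0 → p ^ k • b = 0 →
      weil (p ^ k) (φ • a) (φ • b) = weil (p ^ k) a b ^ (r : ℕ) := by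
    intro a b ha hb
    rw [weil_galois N φ ha hb]
    exact Cheb.apply_rootOfUnity_of_isFrobeniusAt r.2 hA hrp hφ (weil_pow_eq_one ha hb)
  rw [SS.hecke_eq_frob' (SS.es_all N p).2 r hr hA hφ x ⟨k, hx⟩,
    SS.hecke_eq_frob' (SS.es_all N p).2 r hr hA hφ y ⟨k, hy⟩,
    weil_add_left (hsm φ hx) (by rw [smul_comm, hsm φ⁻¹ hx, smul_zero]) hy,
    weil_add_right hx (hsm φ hy) (by rw [smul_comm, hsm φ⁻¹ hy, smul_zero]),
    weil_nsmul_left (hsm φ⁻¹ hx) hy, weil_nsmul_right hx (hsm φ⁻¹ hy)]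
  have h1 : weil (p ^ k) (φ • x) y = weil (p ^ k) x (φ⁻¹ • y) ^ (r : ℕ) := by
    rw [← hfrob hx (hsm φ⁻¹ hy), smul_inv_smul]
  have h2 : weil (p ^ k) x (φ • y) = weil (p ^ k) (φ⁻¹ • x) y ^ (r : ℕ) := by
    rw [← hfrob (hsm φ⁻¹ hx) hy, smul_inv_smul]
  rw [h1, h2, mul_comm]

/-- `T_r - θ(r)` is self-adjoint. -/
theorem weil_hk {p : ℕ} (k : ℕ) (θ : ℕ → ℤ) (r : Nat.Primes) (hr : ¬ (r : ℕ) ∣ N * p)
    {x y : JZero N} (hx : p ^ k • x = 0) (hy : p ^ k • y = 0) :
    weil (p ^ k) (hk N θ r x) y = weil (p ^ k) x (hk N θ r y) := by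
  have hT : ∀ {z : JZero N}, p ^ k • z = 0 → p ^ k • heckeOperatorBar N r z = 0 := by
    intro z hz
    rw [← map_nsmul, hz, map_zero]
  have hz : ∀ {z : JZero N}, p ^ k • z = 0 → p ^ k • (θ r • z) = 0 := by
    intro z hz
    rw [smul_comm, hz, smul_zero]
  rw [hk_apply, hk_apply, sub_eq_add_neg, sub_eq_add_neg,
    weil_add_left (hT hx) (by rw [neg_nsmul, hz hx, neg_zero]) hy,
    weil_add_right hx (hT hy) (by rw [neg_nsmul, hz hy, neg_zero]),
    weil_neg_left (hz hx) hy, weil_neg_right hx (hz hy), weil_zsmul_left hx hy,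
    weil_zsmul_right hx hy, weil_hecke N k r hr hx hy]

theorem hk_comm (θ : ℕ → ℤ) (r r' : Nat.Primes) (x : JZero N) :
    hk N θ r (hk N θ r' x) = hk N θ r' (hk N θ r x) := by
  have hT : Commute (heckeOperatorBar N r) (heckeOperatorBar N r') :=
    HeckeComm.heckeOperatorsCommuteBar N r r'
  have hc : Commute (hk N θ r) (hk N θ r') := by
    unfold hk
    exact (hT.sub_right (Int.commute_cast _ _)).sub_left (Int.cast_commute _ _)
  exact congrArg (fun f : Module.End ℤ (JZero N) => f x) hc.eq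

end Modular

section Deg

theorem weil_pullA (M q : ℕ) [NeZero M] [NeZero q] {m : ℕ} {x : JZero M} {y : JZero (M * q)}
    (hx : m • x = 0) (hy : m • y = 0) :
    weil m (pullA M q x) y = weil m x (SS.pushA M q y) :=
  weil_pullPic0_left _ _ _ _ _ hx hy

theorem weil_pullB (M q : ℕ) [NeZero M] [NeZero q] {m : ℕ} {x : JZero M} {y : JZero (M * q)}
    (hx : m • x = 0) (hy : m • y = 0) :
    weil m (pullB M q x) y = weil m x (SS.pushB M q y) :=
  weil_pullPic0_left _ _ _ _ _ hx hy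

theorem weil_pushA (M q : ℕ) [NeZero M] [NeZero q] {m : ℕ} {x : JZero M} {y : JZero (M * q)}
    (hx : m • x = 0) (hy : m • y = 0) :
    weil m (SS.pushA M q y) x = weil m y (pullA M q x) :=
  weil_pushPic0_left _ _ _ _ _ hx hy

theorem weil_pushB (M q : ℕ) [NeZero M] [NeZero q] {m : ℕ} {x : JZero M} {y : JZero (M * q)}
    (hx : m • x = 0) (hy : m • y = 0) :
    weil m (SS.pushB M q y) x = weil m y (pullB M q x) :=
  weil_pushPic0_left _ _ _ _ _ hx hy

/-- `π_i^*` and `π_{i *}` are adjoint. -/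
theorem weil_iot (L l : ℕ) [NeZero L] [NeZero l] (i : Fin 3) {m : ℕ} {x : JZero L}
    {y : JZero (L * l * l)} (hx : m • x = 0) (hy : m • y = 0) :
    weil m (iot L l i x) y = weil m x (Pii L l i y) := by
  have hA : m • pullA L l x = 0 := by rw [← map_nsmul, hx, map_zero]
  have hB : m • pullB L l x = 0 := by rw [← map_nsmul, hx, map_zero]
  have hA' : m • SS.pushA (L * l) l y = 0 := by rw [← map_nsmul, hy, map_zero]
  have hB' : m • SS.pushB (L * l) l y = 0 := by rw [← map_nsmul, hy, map_zero]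
  fin_cases i
  · show weil m (pullA (L * l) l (pullA L l x)) y = weil m x (SS.pushA L l (SS.pushA (L * l) l y))
    rw [weil_pullA _ _ hA hy, weil_pullA _ _ hx hA']
  · show weil m (pullA (L * l) l (pullB L l x)) y = weil m x (SS.pushB L l (SS.pushA (L * l) l y))
    rw [weil_pullA _ _ hB hy, weil_pullB _ _ hx hA']
  · show weil m (pullB (L * l) l (pullB L l x)) y = weil m x (SS.pushB L l (SS.pushB (L * l) l y))
    rw [weil_pullB _ _ hB hy, weil_pullB _ _ hx hB']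

/-- `T_r = α_* β^*`. -/
theorem hecke_eq_pushA_pullB (N : ℕ) [NeZero N] (r : Nat.Primes) (x : JZero N) :
    haveI : NeZero (r : ℕ) := ⟨r.2.ne_zero⟩
    heckeOperatorBar N r x = SS.pushA N r (pullB N r x) := by
  haveI : NeZero (r : ℕ) := ⟨r.2.ne_zero⟩
  rw [heckeOperatorBar_apply, heckeOperatorAlong_eq']
  exact correspondence_eq_push_pull _ _ _ _ _ _ _ x

/-- the transposed correspondence `β_* α^*` coincides with `T_r` on `p`-power torsion
(`r ∤ N p`): both are adjoint to `T_r`. -/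
theorem pushB_pullA_eq_hecke (N : ℕ) [NeZero N] {p : ℕ} (hp : p.Prime) (k : ℕ) (r : Nat.Primes)
    (hr : ¬ (r : ℕ) ∣ N * p) {x : JZero N} (hx : p ^ k • x = 0) :
    haveI : NeZero (r : ℕ) := ⟨r.2.ne_zero⟩
    SS.pushB N r (pullA N r x) = heckeOperatorBar N r x := by
  haveI : NeZero (r : ℕ) := ⟨r.2.ne_zero⟩
  have h1 : p ^ k • pullA N r x = 0 := by rw [← map_nsmul, hx, map_zero]
  have h2 : p ^ k • SS.pushB N r (pullA N r x) = 0 := by rw [← map_nsmul, h1, map_zero]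
  have h3 : p ^ k • heckeOperatorBar N r x = 0 := by rw [← map_nsmul, hx, map_zero]
  rw [← sub_eq_zero]
  refine (torsPair_weil N hp k).nondeg _ (by rw [nsmul_sub, h2, h3, sub_zero]) fun y hy => ?_
  have h4 : p ^ k • pullB N r y = 0 := by rw [← map_nsmul, hy, map_zero]
  show weil (p ^ k) (SS.pushB N r (pullA N r x) - heckeOperatorBar N r x) y = 1
  rw [sub_eq_add_neg, weil_add_left h2 (by rw [neg_nsmul, h3, neg_zero]) hy, weil_neg_left h3 hy,
    weil_pushB N r hy h1, weil_pullA N r hx h4, ← hecke_eq_pushA_pullB, weil_hecke N k r hr hx hy,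
    mul_inv_cancel₀ (weil_ne_zero _ _ _)]

end Deg

section Onto

variable {N N' p : ℕ} [NeZero N] [NeZero N'] {S : Set ℕ} {θ : ℕ → ℤ} {ι : Type*} [Fintype ι]

theorem iterate_hk (r : Nat.Primes) (n : ℕ) (x : JZero N) :
    ((hk N θ r).toAddMonoidHom)^[n] x = (hk N θ r ^ n) x := by
  rw [Module.End.pow_apply]
  rfl

/-- **[INJ ⟹ ONTO] on `θ`-parts**, general levels: a family of `G_ℚ`-equivariant maps
`pull i : J₀(N) → J₀(N')` with Weil-adjoints `push i`.  If `(v_i) ↦ ∑ pull i (v_i)` is injective on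
the `p^k`-torsion of the `θ`-part, then `y ↦ (push i y)_i` is onto on the `p^k`-torsion of the
`θ`-parts. -/
theorem exists_push_eq_theta (hp : p.Prime) (k : ℕ)
    (hS : ∀ r : ℕ, r.Prime → r ∉ S → ¬ r ∣ N * p ∧ ¬ r ∣ N' * p)
    (pull : ι → JZero N →+ JZero N') (push : ι → JZero N' →+ JZero N)
    (hadj : ∀ i x y, p ^ k • x = 0 → p ^ k • y = 0 →
      weil (p ^ k) (pull i x) y = weil (p ^ k) x (push i y))
    (hgal : ∀ i (σ : GQ) x, pull i (σ • x) = σ • pull i x)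
    (hinj : ∀ v : ι → JZero N, (∀ i, v i ∈ thetaPart N p S θ) → (∀ i, p ^ k • v i = 0) →
      ∑ i, pull i (v i) = 0 → ∀ i, v i = 0)
    (v : ι → JZero N) (hv : ∀ i, v i ∈ thetaPart N p S θ) (hpv : ∀ i, p ^ k • v i = 0) :
    ∃ y ∈ thetaPart N' p S θ, p ^ k • y = 0 ∧ ∀ i, push i y = v i := by
  obtain ⟨y, hy, hyθ, hpush⟩ := exists_push_eq (κ := {r : Nat.Primes // (r : ℕ) ∉ S})
    (finite_tor_JZero N hp.pos k) (finite_tor_JZero N' hp.pos k)
    (torsPair_weil N hp k) (torsPair_weil N' hp k) pull push hadj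
    (fun r => (hk N θ r.1).toAddMonoidHom) (fun r => (hk N' θ r.1).toAddMonoidHom)
    (fun r r' x _ => hk_comm N θ r.1 r'.1 x) (fun r r' y _ => hk_comm N' θ r.1 r'.1 y)
    (fun r x x' hx hx' => weil_hk N k θ r.1 (hS _ r.1.2 r.2).1 hx hx')
    (fun r y y' hy hy' => weil_hk N' k θ r.1 (hS _ r.1.2 r.2).2 hy hy')
    (fun i r x hx => by
      show pull i (hk N θ r.1 x) = hk N' θ r.1 (pull i x)
      rw [hk_apply, hk_apply, map_sub, map_zsmul,
        SS.map_hecke_of_equivariant (SS.es_all N p).2 (SS.es_all N' p).2 (pull i) (hgal i) r.1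
          (hS _ r.1.2 r.2).1 (hS _ r.1.2 r.2).2 x ⟨k, hx⟩])
    (fun w hw hwθ h0 => hinj w (fun i => ⟨⟨k, hw i⟩, fun r hr => by
      obtain ⟨n, hn⟩ := hwθ i ⟨r, hr⟩
      exact ⟨n, by rw [← iterate_hk]; exact hn⟩⟩) hw h0)
    v hpv (fun i r => by
      obtain ⟨n, hn⟩ := (hv i).2 r.1 r.2
      exact ⟨n, by rw [iterate_hk]; exact hn⟩)
  refine ⟨y, ⟨⟨k, hy⟩, fun r hr => ?_⟩, hy, hpush⟩
  obtain ⟨n, hn⟩ := hyθ ⟨r, hr⟩
  exact ⟨n, by rw [← iterate_hk]; exact hn⟩

end Onto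

section Final

variable {L l p : ℕ} [NeZero L] [NeZero l] {S : Set ℕ} {θ : ℕ → ℤ}

/-- **(GROW)(a)**: `ι : V[p^k]³ → W[p^k]` injective ⟹ `Π : W[p^k] → V[p^k]³` onto
(`V`, `W` the `θ`-parts at the levels `L`, `L l l`). -/
theorem exists_Pii_eq (hp : p.Prime) (k : ℕ)
    (hS : ∀ r : ℕ, r.Prime → r ∉ S → ¬ r ∣ L * l * l * p)
    (hinj : ∀ v : Fin 3 → JZero L, (∀ i, v i ∈ thetaPart L p S θ) → (∀ i, p ^ k • v i = 0) →
      iota L l v = 0 → ∀ i, v i = 0)
    (v : Fin 3 → JZero L) (hv : ∀ i, v i ∈ thetaPart L p S θ) (hpv : ∀ i, p ^ k • v i = 0) :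
    ∃ y ∈ thetaPart (L * l * l) p S θ, p ^ k • y = 0 ∧ ∀ i, Pii L l i y = v i :=
  exists_push_eq_theta hp k
    (fun r hr hrS => ⟨not_dvd_of_not_dvd_level (hS r hr hrS), hS r hr hrS⟩)
    (iot L l) (Pii L l) (fun i _ _ hx hy => weil_iot L l i hx hy) (iot_smul L l) hinj v hv hpv

/-- the case `k = 1` in the shape of `RIB.Grow.Hyp.weil`. -/
theorem exists_Pii_eq_one (hp : p.Prime)
    (hS : ∀ r : ℕ, r.Prime → r ∉ S → ¬ r ∣ L * l * l * p)
    (hinj : ∀ v : Fin 3 → JZero L, (∀ i, v i ∈ thetaPart L p S θ) → (∀ i, p • v i = 0) →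
      iota L l v = 0 → ∀ i, v i = 0)
    (v : Fin 3 → JZero L) (hv : ∀ i, v i ∈ thetaPart L p S θ) (hpv : ∀ i, p • v i = 0) :
    ∃ y ∈ thetaPart (L * l * l) p S θ, p • y = 0 ∧ ∀ i, Pii L l i y = v i := by
  have h := exists_Pii_eq (θ := θ) hp 1 hS (by simpa only [pow_one] using hinj) v hv
    (by simpa only [pow_one] using hpv)
  simpa only [pow_one] using h

end Final

end Fermat.Agent.RIB.WA
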