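import Mathlib

/-!
# RIB / [NIL] : the nilpotency bound `K = e₀ (r (P - 1) + 1)` from the socle filtration

Board #1920 (CTRL)(ii), #1984 (1).  `A` a commutative ring acting on `V`, `y i ∈ A` (`i : ι`, `r = #ι`), `t ∈ A`.
If `t ^ e` kills `V[y] = {w | ∀ i, y i • w = 0}` then `t ^ (e j)` kills the `j`-th layer `soc y j` of the socle filtration
for the ideal `(y i)`; and a vector killed by all `y i ^ P` lies in `soc y (r (P - 1) + 1)`.
So `t ^ (e (r (P - 1) + 1))` kills `V[y_i ^ P]` : the SUM of the exponents, not the product.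
-/

set_option autoImplicit false

namespace Fermat.Agent.RIB

variable {A : Type*} [CommRing A] {V : Type*} [AddCommGroup V] [Module A V] {ι : Type*}

/-- the socle filtration of `V` for the ideal generated by the `y i` :
`soc y j = V[(y) ^ j]`. -/
def soc (y : ι → A) : ℕ → Submodule A V
  | 0 => ⊥
  | j + 1 =>
    { carrier := {w | ∀ i, y i • w ∈ soc y j}
      zero_mem' := fun i => by rw [smul_zero]; exact (soc y j).zero_mem
      add_mem' := fun {a b} ha hb i => by rw [smul_add]; exact (soc y j).add_mem (ha i) (hb i)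
      smul_mem' := fun c w hw i => by rw [smul_comm]; exact (soc y j).smul_mem c (hw i) }

theorem mem_soc_zero {y : ι → A} {w : V} : w ∈ soc y 0 ↔ w = 0 := Iff.rfl

theorem mem_soc_succ {y : ι → A} {j : ℕ} {w : V} :
    w ∈ soc y (j + 1) ↔ ∀ i, y i • w ∈ soc y j := Iff.rfl

theorem mem_soc_one {y : ι → A} {w : V} : w ∈ soc y 1 ↔ ∀ i, y i • w = 0 := Iff.rfl

theorem soc_le_succ (y : ι → A) (j : ℕ) : (soc y j : Submodule A V) ≤ soc y (j + 1) := by
  induction j with
  | zero =>
    intro w hw i
    rw [mem_soc_zero.mp hw, smul_zero]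
    exact Submodule.zero_mem _
  | succ j ih =>
    intro w hw i
    exact ih (hw i)

theorem soc_mono (y : ι → A) {j j' : ℕ} (h : j ≤ j') : (soc y j : Submodule A V) ≤ soc y j' := by
  induction h with
  | refl => exact le_rfl
  | step _ ih => exact ih.trans (soc_le_succ y _)

/-- if `t ^ e` kills the socle then `t ^ (e j)` kills the `j`-th layer. -/
theorem pow_smul_eq_zero_of_mem_soc {y : ι → A} {t : A} {e : ℕ}
    (ht : ∀ w : V, (∀ i, y i • w = 0) → t ^ e • w = 0) :
    ∀ (j : ℕ) (w : V), w ∈ soc y j → t ^ (e * j) • w = 0 := by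
  intro j
  induction j with
  | zero =>
    intro w hw
    rw [mem_soc_zero.mp hw, smul_zero]
  | succ j ih =>
    intro w hw
    have h1 : ∀ i, y i • (t ^ (e * j) • w) = 0 := by
      intro i
      rw [smul_comm]
      exact ih _ (hw i)
    have h2 := ht _ h1
    rw [smul_smul, ← pow_add] at h2
    rw [Nat.mul_succ, add_comm]
    exact h2

/-- a vector killed by `y i ^ (e i + 1)` for all `i` lies in the layer `∑ e i + 1`. -/
theorem mem_soc_of_pow_smul_eq_zero [Fintype ι] (y : ι → A) :
    ∀ (n : ℕ) (e : ι → ℕ), ∑ i, e i = n → ∀ w : V, (∀ i, y i ^ (e i + 1) • w = 0) →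
      w ∈ soc y (n + 1) := by
  classical
  intro n
  induction n with
  | zero =>
    intro e he w hw i
    have h0 : e i = 0 := by
      have := (Finset.sum_eq_zero_iff_of_nonneg (fun j _ => Nat.zero_le (e j))).mp he i
        (Finset.mem_univ i)
      exact this
    have := hw i
    rw [h0, zero_add, pow_one] at this
    rw [this]
    exact Submodule.zero_mem _
  | succ n ih =>
    intro e he w hw i
    rcases Nat.eq_zero_or_pos (e i) with h0 | hpos
    · have := hw i
      rw [h0, zero_add, pow_one] at this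
      rw [this]
      exact Submodule.zero_mem _
    · refine ih (Function.update e i (e i - 1)) ?_ (y i • w) ?_
      · have h1 := Finset.sum_update_of_mem (Finset.mem_univ i) e (e i - 1)
        have h2 := Finset.add_sum_erase Finset.univ e (Finset.mem_univ i)
        rw [Finset.sdiff_singleton_eq_erase] at h1
        omega
      · intro j
        by_cases hj : j = i
        · subst hj
          rw [Function.update_self, smul_smul, ← pow_succ]
          have : e j - 1 + 1 + 1 = e j + 1 := by omega
          rw [this]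
          exact hw j
        · rw [Function.update_of_ne hj, smul_comm, hw j, smul_zero]

/-- **[NIL]** : `t ^ (e (r (P - 1) + 1))` kills every vector killed by all the `y i ^ P`. -/
theorem nil_bound [Fintype ι] {y : ι → A} {t : A} {e P : ℕ} (hP : 0 < P)
    (ht : ∀ w : V, (∀ i, y i • w = 0) → t ^ e • w = 0) (w : V) (hw : ∀ i, y i ^ P • w = 0) :
    t ^ (e * (Fintype.card ι * (P - 1) + 1)) • w = 0 := by
  refine pow_smul_eq_zero_of_mem_soc ht _ w ?_
  refine mem_soc_of_pow_smul_eq_zero y _ (fun _ => P - 1) (by simp) w fun i => ?_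
  have : P - 1 + 1 = P := by omega
  rw [this]
  exact hw i

/-- **[NIL]**, the round form `K = e r P` (`r ≥ 1`). -/
theorem nil_bound' [Fintype ι] [Nonempty ι] {y : ι → A} {t : A} {e P : ℕ} (hP : 0 < P)
    (ht : ∀ w : V, (∀ i, y i • w = 0) → t ^ e • w = 0) (w : V) (hw : ∀ i, y i ^ P • w = 0) :
    t ^ (e * (Fintype.card ι * P)) • w = 0 := by
  have h := nil_bound hP ht w hw
  have hr : 0 < Fintype.card ι := Fintype.card_pos
  have hle : e * (Fintype.card ι * (P - 1) + 1) ≤ e * (Fintype.card ι * P) := by
    apply Nat.mul_le_mul_left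
    obtain ⟨P', rfl⟩ : ∃ P', P = P' + 1 := ⟨P - 1, by omega⟩
    rw [Nat.add_sub_cancel, Nat.mul_succ]
    omega
  obtain ⟨d, hd⟩ := Nat.exists_eq_add_of_le hle
  rw [hd, add_comm, pow_add, mul_smul, h, smul_zero]

end Fermat.Agent.RIB
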