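import Mathlib

/-!
# RIB / [CONC] : `dim U ≤ K · dim U[f]` and its iterations

Board #1920 (CNT), (END), #1984.  `k` a field, `V` a finite dimensional `k`-vector space.

* `finrank_le_mul_ker` : `U` stable under `f`, `f ^ K = 0` on `U`  ⇒  `dim U ≤ K · dim (U ⊓ ker f)`.
* `finrank_le_prod_mul_iInf_ker` : commuting `g i` (`i ∈ s`), `g i ^ Q i = 0` on `U`  ⇒
  `dim U ≤ (∏ Q i) · dim (U ⊓ ⨅ ker (g i))`.
* `finrank_le_prod_mul_iInf_ker_pow` : the same with `g i = y i ^ c i`, `y i ^ (c i * Q i) = 0`.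
* `conc_lower` : the lower bound of (END) :
  `e₀ ∏ φ(p ^ n i) ≤ dim V`, `y i ^ (p ^ n i) = 0`, `n ≤ n i` ⇒ `e₀ ((p - 1) p ^ (n - 1)) ^ r ≤ dim V[y i ^ (p ^ n)]`.
-/

set_option autoImplicit false

namespace Fermat.Agent.RIB

open Module

variable {k : Type*} [Field k] {V : Type*} [AddCommGroup V] [Module k V]

/-- `U ⊓ ker (f ^ (j+1))` has dimension at most `dim (U ⊓ ker (f ^ j)) + dim (U ⊓ ker f)`. -/
theorem finrank_inf_ker_pow_succ_le [FiniteDimensional k V] (f : End k V) (U : Submodule k V)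
    (hU : ∀ u ∈ U, f u ∈ U) (j : ℕ) :
    finrank k ↥(U ⊓ LinearMap.ker (f ^ (j + 1))) ≤
      finrank k ↥(U ⊓ LinearMap.ker (f ^ j)) + finrank k ↥(U ⊓ LinearMap.ker f) := by
  have hUj : ∀ (j : ℕ), ∀ u ∈ U, (f ^ j) u ∈ U := by
    intro j
    induction j with
    | zero => intro u hu; simpa using hu
    | succ j ih =>
      intro u hu
      rw [pow_succ', Module.End.mul_apply]
      exact hU _ (ih u hu)
  -- the map `u ↦ f ^ j u` from `U ⊓ ker f^(j+1)` to `U ⊓ ker f`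
  let φ : ↥(U ⊓ LinearMap.ker (f ^ (j + 1))) →ₗ[k] ↥(U ⊓ LinearMap.ker f) :=
    LinearMap.codRestrict _ ((f ^ j).domRestrict _) (by
      intro x
      obtain ⟨hu1, hu2⟩ := Submodule.mem_inf.mp x.2
      refine Submodule.mem_inf.mpr ⟨hUj j _ hu1, ?_⟩
      rw [LinearMap.mem_ker] at hu2 ⊢
      have h3 : ∀ v : V, (f ^ (j + 1)) v = f ((f ^ j) v) := by
        intro v
        rw [pow_succ', Module.End.mul_apply]
      rw [h3] at hu2
      exact hu2)
  have hrn := LinearMap.finrank_range_add_finrank_ker φ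
  have h1 : finrank k ↥(LinearMap.range φ) ≤ finrank k ↥(U ⊓ LinearMap.ker f) :=
    Submodule.finrank_le _
  -- the kernel injects into `U ⊓ ker f^j`
  let ψ : ↥(LinearMap.ker φ) →ₗ[k] ↥(U ⊓ LinearMap.ker (f ^ j)) :=
    LinearMap.codRestrict _ ((Submodule.subtype _).comp (Submodule.subtype _)) (by
      intro x
      obtain ⟨hu1, -⟩ := Submodule.mem_inf.mp x.1.2
      have hu3 := LinearMap.mem_ker.mp x.2
      refine Submodule.mem_inf.mpr ⟨hu1, ?_⟩
      rw [LinearMap.mem_ker]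
      exact congrArg Subtype.val hu3)
  have hψ : Function.Injective ψ := by
    intro a b hab
    have := congrArg Subtype.val hab
    exact Subtype.ext (Subtype.ext this)
  have h2 : finrank k ↥(LinearMap.ker φ) ≤ finrank k ↥(U ⊓ LinearMap.ker (f ^ j)) :=
    LinearMap.finrank_le_finrank_of_injective hψ
  omega

/-- `dim (U ⊓ ker (f ^ j)) ≤ j · dim (U ⊓ ker f)`. -/
theorem finrank_inf_ker_pow_le [FiniteDimensional k V] (f : End k V) (U : Submodule k V)
    (hU : ∀ u ∈ U, f u ∈ U) (j : ℕ) :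
    finrank k ↥(U ⊓ LinearMap.ker (f ^ j)) ≤ j * finrank k ↥(U ⊓ LinearMap.ker f) := by
  induction j with
  | zero =>
    have : U ⊓ LinearMap.ker (f ^ 0) = ⊥ := by
      rw [pow_zero, Module.End.one_eq_id, LinearMap.ker_id, inf_bot_eq]
    rw [this, finrank_bot, zero_mul]
  | succ j ih =>
    have := finrank_inf_ker_pow_succ_le f U hU j
    rw [Nat.succ_mul]
    omega

/-- **the step of (CNT)** : `U` stable under `f`, `f ^ K = 0` on `U` ⇒ `dim U ≤ K · dim U[f]`. -/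
theorem finrank_le_mul_ker [FiniteDimensional k V] (f : End k V) (U : Submodule k V)
    (hU : ∀ u ∈ U, f u ∈ U) (K : ℕ) (hK : ∀ u ∈ U, (f ^ K) u = 0) :
    finrank k ↥U ≤ K * finrank k ↥(U ⊓ LinearMap.ker f) := by
  have h : U ⊓ LinearMap.ker (f ^ K) = U := inf_eq_left.mpr fun u hu => LinearMap.mem_ker.mpr (hK u hu)
  have := finrank_inf_ker_pow_le f U hU K
  rwa [h] at this

/-- **iterated step** : commuting `g i`, `g i ^ Q i = 0` on the stable subspace `U` ⇒
`dim U ≤ (∏ Q i) · dim (U ⊓ ⨅ ker (g i))`. -/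
theorem finrank_le_prod_mul_iInf_ker [FiniteDimensional k V] {ι : Type*} (s : Finset ι)
    (g : ι → End k V) (Q : ι → ℕ) (hcomm : ∀ i ∈ s, ∀ j ∈ s, Commute (g i) (g j))
    (U : Submodule k V) (hU : ∀ i ∈ s, ∀ u ∈ U, g i u ∈ U)
    (hQ : ∀ i ∈ s, ∀ u ∈ U, (g i ^ Q i) u = 0) :
    finrank k ↥U ≤ (∏ i ∈ s, Q i) * finrank k ↥(U ⊓ ⨅ i ∈ s, LinearMap.ker (g i)) := by
  classical
  induction s using Finset.induction_on with
  | empty =>
    have : U ⊓ ⨅ i ∈ (∅ : Finset ι), LinearMap.ker (g i) = U := by simp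
    rw [this, Finset.prod_empty, one_mul]
  | insert a s ha ih =>
    have ih' := ih (fun i hi j hj => hcomm i (Finset.mem_insert_of_mem hi) j (Finset.mem_insert_of_mem hj))
      (fun i hi => hU i (Finset.mem_insert_of_mem hi)) (fun i hi => hQ i (Finset.mem_insert_of_mem hi))
    set U' : Submodule k V := U ⊓ ⨅ i ∈ s, LinearMap.ker (g i) with hU'
    have hstab : ∀ u ∈ U', g a u ∈ U' := by
      intro u hu
      obtain ⟨hu1, hu2⟩ := Submodule.mem_inf.mp hu
      refine Submodule.mem_inf.mpr ⟨hU a (Finset.mem_insert_self a s) u hu1, ?_⟩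
      simp only [Submodule.mem_iInf, LinearMap.mem_ker] at hu2 ⊢
      intro i hi
      have hc := hcomm i (Finset.mem_insert_of_mem hi) a (Finset.mem_insert_self a s)
      have : g i (g a u) = g a (g i u) := by
        have := congrArg (fun F : End k V => F u) hc.eq
        simpa [Module.End.mul_apply] using this
      rw [this, hu2 i hi, map_zero]
    have hstep := finrank_le_mul_ker (g a) U' hstab (Q a)
      (fun u hu => hQ a (Finset.mem_insert_self a s) u (Submodule.mem_inf.mp hu).1)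
    have heq : U' ⊓ LinearMap.ker (g a) = U ⊓ ⨅ i ∈ insert a s, LinearMap.ker (g i) := by
      rw [Finset.iInf_insert, hU', inf_assoc, inf_comm (⨅ i ∈ s, LinearMap.ker (g i))]
    rw [heq] at hstep
    rw [Finset.prod_insert ha]
    calc finrank k ↥U ≤ (∏ i ∈ s, Q i) * finrank k ↥U' := ih'
      _ ≤ (∏ i ∈ s, Q i) * (Q a * finrank k ↥(U ⊓ ⨅ i ∈ insert a s, LinearMap.ker (g i))) :=
          Nat.mul_le_mul_left _ hstep
      _ = _ := by ring

/-- the iterated step for `g i = y i ^ c i`. -/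
theorem finrank_le_prod_mul_iInf_ker_pow [FiniteDimensional k V] {ι : Type*} (s : Finset ι)
    (y : ι → End k V) (c Q : ι → ℕ) (hcomm : ∀ i ∈ s, ∀ j ∈ s, Commute (y i) (y j))
    (U : Submodule k V) (hU : ∀ i ∈ s, ∀ u ∈ U, y i u ∈ U)
    (hQ : ∀ i ∈ s, ∀ u ∈ U, (y i ^ (c i * Q i)) u = 0) :
    finrank k ↥U ≤ (∏ i ∈ s, Q i) * finrank k ↥(U ⊓ ⨅ i ∈ s, LinearMap.ker (y i ^ c i)) := by
  refine finrank_le_prod_mul_iInf_ker s (fun i => y i ^ c i) Q
    (fun i hi j hj => (hcomm i hi j hj).pow_pow _ _) U ?_ ?_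
  · intro i hi u hu
    have : ∀ (m : ℕ), ∀ u ∈ U, (y i ^ m) u ∈ U := by
      intro m
      induction m with
      | zero => intro u hu; simpa using hu
      | succ m ih =>
        intro u hu
        rw [pow_succ', Module.End.mul_apply]
        exact hU i hi _ (ih u hu)
    exact this _ u hu
  · intro i hi u hu
    rw [← pow_mul]
    exact hQ i hi u hu

/-- **(END), the lower bound** : if `dim V ≥ e₀ ∏ φ(p ^ n i)` (GROW), `y i ^ (p ^ n i) = 0` and `1 ≤ n ≤ n i`,
then `Y = V[y i ^ (p ^ n), all i]` has `dim Y ≥ e₀ ((p - 1) p ^ (n - 1)) ^ r`. -/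
theorem conc_lower [FiniteDimensional k V] {ι : Type*} [Fintype ι]
    (y : ι → End k V) (hcomm : ∀ i j, Commute (y i) (y j)) (p n e₀ : ℕ) (hp : 0 < p) (hn : 1 ≤ n)
    (ν : ι → ℕ) (hν : ∀ i, n ≤ ν i) (hy : ∀ i, y i ^ (p ^ ν i) = 0)
    (hgrow : e₀ * ∏ i, ((p - 1) * p ^ (ν i - 1)) ≤ finrank k V) :
    e₀ * ((p - 1) * p ^ (n - 1)) ^ Fintype.card ι ≤
      finrank k ↥(⨅ i, LinearMap.ker (y i ^ (p ^ n)) : Submodule k V) := by
  have h := finrank_le_prod_mul_iInf_ker_pow Finset.univ y (fun _ => p ^ n) (fun i => p ^ (ν i - n))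
    (fun i _ j _ => hcomm i j) ⊤ (fun _ _ _ _ => Submodule.mem_top) (by
      intro i _ u _
      rw [← pow_add, Nat.add_sub_cancel' (hν i), hy i, LinearMap.zero_apply])
  rw [finrank_top, top_inf_eq] at h
  have hinf : (⨅ i ∈ (Finset.univ : Finset ι), LinearMap.ker (y i ^ (p ^ n)) : Submodule k V) =
      ⨅ i, LinearMap.ker (y i ^ (p ^ n)) := by simp
  rw [hinf] at h
  set d := finrank k ↥(⨅ i, LinearMap.ker (y i ^ (p ^ n)) : Submodule k V) with hd
  -- `∏ (p-1) p^(ν i - 1) = (∏ p^(ν i - n)) * ((p-1) p^(n-1))^r`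
  have hprod : ∏ i, ((p - 1) * p ^ (ν i - 1)) =
      (∏ i, p ^ (ν i - n)) * ((p - 1) * p ^ (n - 1)) ^ Fintype.card ι := by
    rw [← Finset.card_univ, ← Finset.prod_const, ← Finset.prod_mul_distrib]
    refine Finset.prod_congr rfl fun i _ => ?_
    have : ν i - 1 = (ν i - n) + (n - 1) := by have := hν i; omega
    rw [this, pow_add]
    ring
  have hpos : 0 < ∏ i, p ^ (ν i - n) := Finset.prod_pos fun i _ => pow_pos hp _
  have h2 : (∏ i, p ^ (ν i - n)) * (e₀ * ((p - 1) * p ^ (n - 1)) ^ Fintype.card ι) ≤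
      (∏ i, p ^ (ν i - n)) * d := by
    calc _ = e₀ * ∏ i, ((p - 1) * p ^ (ν i - 1)) := by rw [hprod]; ring
      _ ≤ finrank k V := hgrow
      _ ≤ _ := h
  exact Nat.le_of_mul_le_mul_left h2 hpos

end Fermat.Agent.RIB
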