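import Fermat.Agent.RIB.Star
import Fermat.Agent.RIB.Nil
import Fermat.Agent.RIB.Conc

/-!
# RIB : (CNT) + (END), the abstract contradiction   (board #1920; no own hypotheses left, Mathlib only)

`k` a field, `R` a local commutative `k`-algebra (`= Tb(L_n)`), `V` a finite dimensional `k`-space which is an `R`-module
(`= W(L_n)`), `Φ : M₂(R) →ₐ[R] End_R V`.

* `trace_det_eq_zero_of_sq` : `N * N = 0`, `det (1 + N) = 1` ⟹ `N 1 1 = - N 0 0`, `(N 0 0)² = - N 0 1 * N 1 0`.
* `finrank_le_pow_mul_tors`, `cnt` : (CNT) in `R`-module form.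
* `tors_le_tors_maximalIdeal` : Nakayama, `m ≤ J ⊔ m²` ⟹ `V[J] ≤ V[m]`.
* `end_upper` : `dim U ≤ K ^ (2 s + g) 2 ^ s dim V[m]` from `(*)` (`star`), (GEN), nilpotency `K` on `U`.
* `end_num` : the numerical contradiction.
* `end_false` : hard data `N S ε : Fin s → ..`, (KEY), (GEN) with `g + 3 s = r`, `y : Fin r → R`, (GROW), (CTRL-ii), (CTRL-iii),
  `n > (e1 r p) ^ (2 s + g) 2 ^ s e2`   ⟹   `False`.
-/

set_option autoImplicit false

namespace Fermat.Agent.RIB

open Module IsLocalRing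

/-! ### `N ^ 2 = 0`, `det (1 + N) = 1`  ⟹  `tr N = det N = 0` -/

theorem trace_det_eq_zero_of_sq {R : Type*} [CommRing R] (N : Matrix (Fin 2) (Fin 2) R)
    (hNN : N * N = 0) (hdet : (1 + N).det = 1) :
    N 1 1 = - N 0 0 ∧ N 0 0 * N 0 0 = -(N 0 1 * N 1 0) := by
  have h00 := congrFun (congrFun hNN 0) 0
  have h01 := congrFun (congrFun hNN 0) 1
  have h10 := congrFun (congrFun hNN 1) 0
  have h11 := congrFun (congrFun hNN 1) 1
  simp only [Matrix.mul_apply, Fin.sum_univ_two, Matrix.zero_apply] at h00 h01 h10 h11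
  rw [Matrix.det_fin_two] at hdet
  simp only [Matrix.add_apply, Matrix.one_apply_eq,
    Matrix.one_apply_ne (show (0 : Fin 2) ≠ 1 by decide),
    Matrix.one_apply_ne (show (1 : Fin 2) ≠ 0 by decide), zero_add] at hdet
  -- `t := a + d`; `t (1 + a) = ..`
  have ht : N 0 0 + N 1 1 = 0 := by
    -- t = -(ad - bc), t*a = a^2 + ad = ad - bc ... 
    have e1 : N 0 0 + N 1 1 = -(N 0 0 * N 1 1 - N 0 1 * N 1 0) := by linear_combination hdet
    have e2 : (N 0 0 + N 1 1) * N 0 0 = N 0 0 * N 1 1 - N 0 1 * N 1 0 := by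
      linear_combination h00
    have e3 : (N 0 0 + N 1 1) * N 1 1 = N 0 0 * N 1 1 - N 0 1 * N 1 0 := by
      linear_combination h11
    -- t (1 + a) = 0, t (1 + d) = 0, t b = 0, t c = 0 ; det (1+N) = 1
    have f1 : (N 0 0 + N 1 1) * (1 + N 0 0) = 0 := by linear_combination e1 + e2
    have f2 : (N 0 0 + N 1 1) * N 0 1 = 0 := by linear_combination h01
    calc N 0 0 + N 1 1
        = (N 0 0 + N 1 1) * ((1 + N 0 0) * (1 + N 1 1) - N 0 1 * N 1 0) := by rw [hdet, mul_one]
      _ = (N 0 0 + N 1 1) * (1 + N 0 0) * (1 + N 1 1) - (N 0 0 + N 1 1) * N 0 1 * N 1 0 := by ring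
      _ = 0 := by rw [f1, f2]; ring
  refine ⟨by linear_combination ht, by linear_combination h00⟩

section

variable {k : Type*} [Field k] {R : Type*} [CommRing R] [Algebra k R]
  {V : Type*} [AddCommGroup V] [Module k V] [Module R V] [IsScalarTower k R V]

theorem mem_tors_span_range {ι : Type*} {z : ι → R} {x : V} :
    x ∈ tors V (Ideal.span (Set.range z)) ↔ ∀ i, z i • x = 0 := by
  rw [mem_tors]
  constructor
  · intro h i
    exact h _ (Ideal.subset_span ⟨i, rfl⟩)
  · intro h t ht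
    induction ht using Submodule.span_induction with
    | mem t ht => obtain ⟨i, rfl⟩ := ht; exact h i
    | zero => simp
    | add a b _ _ ha hb => rw [add_smul, ha, hb, add_zero]
    | smul c a _ ha => rw [smul_eq_mul, mul_smul, ha, smul_zero]

theorem tors_sup (J J' : Ideal R) : tors V (J ⊔ J') = tors V J ⊓ tors V J' := by
  ext x
  rw [Submodule.mem_inf, mem_tors, mem_tors, mem_tors]
  constructor
  · intro h
    exact ⟨fun t ht => h t (Ideal.mem_sup_left ht), fun t ht => h t (Ideal.mem_sup_right ht)⟩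
  · rintro ⟨h1, h2⟩ t ht
    obtain ⟨a, ha, b, hb, rfl⟩ := Submodule.mem_sup.1 ht
    rw [add_smul, h1 a ha, h2 b hb, add_zero]

variable [FiniteDimensional k V]

/-- the step of (CNT), `R`-module form -/
theorem finrank_le_pow_mul_tors {ι : Type*} [Fintype ι] (z : ι → R) (Q : ℕ) (U : Submodule R V)
    (hQ : ∀ i, ∀ u ∈ U, z i ^ Q • u = 0) :
    finrank k ↥(U.restrictScalars k) ≤ Q ^ Fintype.card ι *
      finrank k ↥((U ⊓ tors V (Ideal.span (Set.range z))).restrictScalars k) := by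
  have h := finrank_le_prod_mul_iInf_ker (k := k) (V := V) Finset.univ
    (fun i => Algebra.lsmul k k V (z i)) (fun _ => Q)
    (fun i _ j _ => (Commute.all (z i) (z j)).map (Algebra.lsmul k k V)) (U.restrictScalars k)
    (fun i _ u hu => U.smul_mem (z i) hu)
    (fun i _ u hu => by
      rw [← map_pow]
      exact hQ i u hu)
  have e : (U.restrictScalars k ⊓ ⨅ i ∈ (Finset.univ : Finset ι),
      LinearMap.ker (Algebra.lsmul k k V (z i)) : Submodule k V)
      = (U ⊓ tors V (Ideal.span (Set.range z))).restrictScalars k := by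
    ext x
    simp only [Submodule.mem_inf, Submodule.restrictScalars_mem, Submodule.mem_iInf,
      Finset.mem_univ, forall_true_left, LinearMap.mem_ker, mem_tors_span_range]
    rfl
  rw [e, Finset.prod_const, Finset.card_univ] at h
  exact h

/-- **(CNT)** -/
theorem cnt {s g : ℕ} (a b c : Fin s → R) (x : Fin g → R) (ha : ∀ j, a j * a j = -(b j * c j))
    (U : Submodule R V) (K : ℕ) (hb : ∀ j, ∀ u ∈ U, b j ^ K • u = 0)
    (hc : ∀ j, ∀ u ∈ U, c j ^ K • u = 0) (hx : ∀ i, ∀ u ∈ U, x i ^ K • u = 0) :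
    finrank k ↥(U.restrictScalars k) ≤ K ^ (2 * s + g) * 2 ^ s *
      finrank k ↥((U ⊓ tors V (Ideal.span (Set.range b)) ⊓ tors V (Ideal.span (Set.range c)) ⊓
        tors V (Ideal.span (Set.range a)) ⊓ tors V (Ideal.span (Set.range x))).restrictScalars k) := by
  have h1 := finrank_le_pow_mul_tors (k := k) b K U hb
  have h2 := finrank_le_pow_mul_tors (k := k) c K (U ⊓ tors V (Ideal.span (Set.range b)))
    (fun j u hu => hc j u hu.1)
  have h3 := finrank_le_pow_mul_tors (k := k) a 2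
    (U ⊓ tors V (Ideal.span (Set.range b)) ⊓ tors V (Ideal.span (Set.range c)))
    (fun j u hu => by
      rw [pow_two, ha j, neg_smul, mul_smul, mem_tors_span_range.1 hu.2 j, smul_zero, neg_zero])
  have h4 := finrank_le_pow_mul_tors (k := k) x K
    (U ⊓ tors V (Ideal.span (Set.range b)) ⊓ tors V (Ideal.span (Set.range c)) ⊓
      tors V (Ideal.span (Set.range a)))
    (fun i u hu => hx i u hu.1.1.1)
  rw [Fintype.card_fin] at h1 h2 h3 h4
  calc finrank k ↥(U.restrictScalars k)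
      ≤ K ^ s * (K ^ s * (2 ^ s * (K ^ g * _))) :=
        h1.trans (Nat.mul_le_mul_left _ (h2.trans (Nat.mul_le_mul_left _
          (h3.trans (Nat.mul_le_mul_left _ h4)))))
    _ = _ := by
      rw [two_mul, pow_add, pow_add]; ring

end


/-! ### the numerical contradiction -/

theorem end_num (p n e0 e1 e2 r s g : ℕ) (hp : 2 ≤ p) (he0 : 1 ≤ e0) (hs : 1 ≤ s)
    (hr : g + 3 * s = r) (hn : (e1 * r * p) ^ (2 * s + g) * 2 ^ s * e2 < n)
    (h : e0 * ((p - 1) * p ^ (n - 1)) ^ r ≤ (e1 * (r * p ^ n)) ^ (2 * s + g) * 2 ^ s * e2) :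
    False := by
  set P := p ^ (n - 1) with hP
  have hP0 : 0 < P := Nat.pow_pos (by omega)
  have hpn : p ^ n = p * P := by
    rw [hP, ← pow_succ']
    congr 1
    omega
  have h1 : P ^ r ≤ e0 * ((p - 1) * P) ^ r := by
    calc P ^ r ≤ ((p - 1) * P) ^ r :=
          Nat.pow_le_pow_left (Nat.le_mul_of_pos_left _ (by omega)) _
      _ ≤ e0 * ((p - 1) * P) ^ r := Nat.le_mul_of_pos_left _ he0
  have h2 : (e1 * (r * p ^ n)) ^ (2 * s + g) * 2 ^ s * e2
      = P ^ (2 * s + g) * ((e1 * r * p) ^ (2 * s + g) * 2 ^ s * e2) := by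
    rw [hpn, show e1 * (r * (p * P)) = (e1 * r * p) * P by ring, mul_pow]
    ring
  have h3 : P ^ (2 * s + g) * P ^ s ≤ P ^ (2 * s + g) * ((e1 * r * p) ^ (2 * s + g) * 2 ^ s * e2) := by
    rw [← h2, ← pow_add, show 2 * s + g + s = r by omega]
    exact h1.trans h
  have h4 : P ^ s ≤ (e1 * r * p) ^ (2 * s + g) * 2 ^ s * e2 :=
    Nat.le_of_mul_le_mul_left h3 (Nat.pow_pos hP0)
  have h5 : n ≤ P ^ s := by
    have a1 : n - 1 < 2 ^ (n - 1) := Nat.lt_two_pow_self
    have a2 : 2 ^ (n - 1) ≤ P := Nat.pow_le_pow_left hp _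
    have a3 : P ≤ P ^ s := Nat.le_self_pow (by omega) P
    omega
  omega

section main

variable {k : Type*} [Field k] {R : Type*} [CommRing R] [Algebra k R] [IsLocalRing R]
  {V : Type*} [AddCommGroup V] [Module k V] [Module R V] [IsScalarTower k R V]
  [FiniteDimensional k V]

theorem mem_tors_iff_le {R V : Type*} [CommRing R] [AddCommGroup V] [Module R V] {J : Ideal R}
    {x : V} : x ∈ tors V J ↔ J ≤ LinearMap.ker (LinearMap.toSpanSingleton R V x) := by
  rw [mem_tors]
  constructor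
  · intro h t ht
    rw [LinearMap.mem_ker, LinearMap.toSpanSingleton_apply]
    exact h t ht
  · intro h t ht
    have := h ht
    rwa [LinearMap.mem_ker, LinearMap.toSpanSingleton_apply] at this

include k in
/-- Nakayama : if `m ≤ J ⊔ m ^ 2` then `V[J] = V[m]`. -/
theorem tors_le_tors_maximalIdeal (J : Ideal R) (hJ : maximalIdeal R ≤ J ⊔ maximalIdeal R ^ 2) :
    tors V J ≤ tors V (maximalIdeal R) := by
  have hnoeth : IsNoetherian R V := isNoetherian_of_tower k inferInstance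
  have hbot : maximalIdeal R • tors V J = ⊥ := by
    refine Submodule.eq_bot_of_le_smul_of_le_jacobson_bot (maximalIdeal R) _
      (IsNoetherian.noetherian _) ?_ (IsLocalRing.maximalIdeal_le_jacobson _)
    rw [Submodule.smul_le]
    intro t ht x hx
    obtain ⟨a, ha, b, hb, rfl⟩ := Submodule.mem_sup.1 (hJ ht)
    rw [add_smul, mem_tors.1 hx a ha, zero_add, ← Submodule.mul_smul, ← pow_two]
    exact Submodule.smul_mem_smul hb hx
  intro x hx
  rw [mem_tors]
  intro t ht
  have : t • x ∈ maximalIdeal R • tors V J := Submodule.smul_mem_smul ht hx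
  rwa [hbot, Submodule.mem_bot] at this

variable (Φ : Matrix (Fin 2) (Fin 2) R →ₐ[R] Module.End R V)

/-- **(CNT) + `(*)` + (GEN)** : the upper bound. -/
theorem end_upper (h2 : IsUnit (2 : R)) {s g : ℕ} (N S : Fin s → Matrix (Fin 2) (Fin 2) R)
    (ε : Fin s → R) (hε : ∀ j, ε j * ε j = 1)
    (hS : ∀ j a b, (S j - ε j • (1 : Matrix (Fin 2) (Fin 2) R)) a b ∈ maximalIdeal R)
    (hNm : ∀ j a b, N j a b ∈ maximalIdeal R)
    (hNN : ∀ j, N j * N j = 0) (hdet : ∀ j, (1 + N j).det = 1)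
    (key : ∀ j (x : V), Φ (N j) x = 0 → Φ (S j * S j) x = x)
    (x : Fin g → R) (hxm : ∀ i, x i ∈ maximalIdeal R)
    (gen : maximalIdeal R ≤ (⨆ j, entryIdeal (N j) ⊔
      entryIdeal (S j - ε j • (1 : Matrix (Fin 2) (Fin 2) R))) ⊔ Ideal.span (Set.range x) ⊔
        maximalIdeal R ^ 2)
    (U : Submodule R V) (K : ℕ) (hK : ∀ t ∈ maximalIdeal R, ∀ u ∈ U, t ^ K • u = 0) :
    finrank k ↥(U.restrictScalars k) ≤ K ^ (2 * s + g) * 2 ^ s *
      finrank k ↥((tors V (maximalIdeal R)).restrictScalars k) := by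
  have h := cnt (k := k) (fun j => N j 0 0) (fun j => N j 0 1) (fun j => N j 1 0) x
    (fun j => (trace_det_eq_zero_of_sq (N j) (hNN j) (hdet j)).2) U K
    (fun j => hK _ (hNm j 0 1)) (fun j => hK _ (hNm j 1 0)) (fun i => hK _ (hxm i))
  refine h.trans (Nat.mul_le_mul_left _ (Submodule.finrank_mono ?_))
  intro u hu
  obtain ⟨⟨⟨⟨_, hb⟩, hc⟩, ha⟩, hx⟩ := hu
  refine tors_le_tors_maximalIdeal (k := k) _ gen ?_
  have hNu : ∀ j a b, N j a b • u = 0 := by
    intro j a b
    have h00 := mem_tors_span_range.1 ha j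
    have h01 := mem_tors_span_range.1 hb j
    have h10 := mem_tors_span_range.1 hc j
    fin_cases a <;> fin_cases b
    · exact h00
    · exact h01
    · exact h10
    · show N j 1 1 • u = 0
      rw [(trace_det_eq_zero_of_sq (N j) (hNN j) (hdet j)).1, neg_smul]
      simpa using h00
  rw [mem_tors_iff_le, sup_le_iff, iSup_le_iff]
  refine ⟨fun j => ?_, mem_tors_iff_le.1 hx⟩
  rw [sup_le_iff]
  refine ⟨mem_tors_iff_le.1 (mem_tors_entryIdeal.2 (hNu j)),
    mem_tors_iff_le.1 (mem_tors_entryIdeal.2 fun a b => ?_)⟩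
  exact star Φ h2 (N j) (S j) (ε j) (hε j) (hS j) (key j) (hNu j) a b

/-- **(END)** : the abstract contradiction. -/
theorem end_false (h2 : IsUnit (2 : R)) {s g r : ℕ} (N S : Fin s → Matrix (Fin 2) (Fin 2) R)
    (ε : Fin s → R) (hε : ∀ j, ε j * ε j = 1)
    (hS : ∀ j a b, (S j - ε j • (1 : Matrix (Fin 2) (Fin 2) R)) a b ∈ maximalIdeal R)
    (hNm : ∀ j a b, N j a b ∈ maximalIdeal R)
    (hNN : ∀ j, N j * N j = 0) (hdet : ∀ j, (1 + N j).det = 1)
    (key : ∀ j (x : V), Φ (N j) x = 0 → Φ (S j * S j) x = x)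
    (x : Fin g → R) (hxm : ∀ i, x i ∈ maximalIdeal R)
    (gen : maximalIdeal R ≤ (⨆ j, entryIdeal (N j) ⊔
      entryIdeal (S j - ε j • (1 : Matrix (Fin 2) (Fin 2) R))) ⊔ Ideal.span (Set.range x) ⊔
        maximalIdeal R ^ 2)
    (p n e0 e1 e2 : ℕ) (hp : 2 ≤ p) (he0 : 1 ≤ e0) (hs : 1 ≤ s) (hr : g + 3 * s = r)
    (y : Fin r → R) (ν : Fin r → ℕ) (hν : ∀ i, n ≤ ν i) (hy : ∀ i (v : V), y i ^ (p ^ ν i) • v = 0)
    (grow : e0 * ∏ i, ((p - 1) * p ^ (ν i - 1)) ≤ finrank k V)
    (ctrl2 : ∀ t ∈ maximalIdeal R, ∀ w : V, (∀ i, y i • w = 0) → t ^ e1 • w = 0)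
    (ctrl3 : finrank k ↥((tors V (maximalIdeal R)).restrictScalars k) ≤ e2)
    (hn : (e1 * r * p) ^ (2 * s + g) * 2 ^ s * e2 < n) : False := by
  have hn1 : 1 ≤ n := by omega
  have : Nonempty (Fin r) := ⟨⟨0, by omega⟩⟩
  -- the lower bound
  have hlow := conc_lower (k := k) (V := V) (fun i => Algebra.lsmul k k V (y i))
    (fun i j => (Commute.all (y i) (y j)).map (Algebra.lsmul k k V)) p n e0 (by omega) hn1 ν hν
    (fun i => by
      rw [← map_pow]
      ext v
      exact hy i v) grow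
  set Y : Submodule R V := tors V (Ideal.span (Set.range fun i => y i ^ (p ^ n))) with hY
  have e : (⨅ i, LinearMap.ker (Algebra.lsmul k k V (y i) ^ (p ^ n)) : Submodule k V)
      = Y.restrictScalars k := by
    ext v
    simp only [Submodule.mem_iInf, LinearMap.mem_ker, Submodule.restrictScalars_mem, hY,
      mem_tors_span_range, ← map_pow]
    rfl
  rw [e, Fintype.card_fin] at hlow
  -- the upper bound
  have hup := end_upper (k := k) Φ h2 N S ε hε hS hNm hNN hdet key x hxm gen Y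
    (e1 * (r * p ^ n)) (fun t ht u hu => by
      have := nil_bound' (y := y) (t := t) (e := e1) (P := p ^ n) (Nat.pow_pos (by omega))
        (ctrl2 t ht) u (mem_tors_span_range.1 hu)
      rwa [Fintype.card_fin] at this)
  exact end_num p n e0 e1 e2 r s g hp he0 hs hr hn
    (hlow.trans (hup.trans (Nat.mul_le_mul_left _ ctrl3)))

end main

end Fermat.Agent.RIB
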