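import Fermat.Agent.RIB.Nil
import Fermat.Agent.RIB.Conc

/-!
# RIB / (CNT) and the abstract inequality of (END)

Board #1920.  `k` a field, `A` a commutative ring, `V` a finite dimensional `k`-vector space with a
`k`-linear action of `A`.

* `kil z` : the `k`-subspace `V[z i, all i]`.
* `cnt_abs` : (CNT) `dim Y ≤ (2 K ^ 2) ^ s * K ^ g * dim Y[a, b, c, x]`.
* `rib_ineq` : the inequality `e₀ ((p-1) p^(n-1))^r ≤ (2 K^2)^s K^g D`, `K = e₁ (r p^n)`,
  out of (GROW), (CTRL)(ii), (CTRL)(iii), (GEN)+(*).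
-/

set_option autoImplicit false

namespace Fermat.Agent.RIB

open Module

variable {k : Type*} [Field k] {A : Type*} [CommRing A] {V : Type*} [AddCommGroup V] [Module k V]
  [Module A V] [SMulCommClass A k V]

/-- the `k`-subspace `V[z i, all i]`. -/
def kil (k : Type*) [Field k] {A : Type*} [CommRing A] (V : Type*) [AddCommGroup V] [Module k V]
    [Module A V] [SMulCommClass A k V] {ι : Type*} (z : ι → A) : Submodule k V :=
  ⨅ i, LinearMap.ker (Module.toModuleEnd k V (z i))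

theorem mem_kil {ι : Type*} {z : ι → A} {w : V} : w ∈ kil k V z ↔ ∀ i, z i • w = 0 := by
  simp [kil, Submodule.mem_iInf, LinearMap.mem_ker]

theorem toModuleEnd_pow_apply (t : A) (m : ℕ) (w : V) :
    ((Module.toModuleEnd k V t) ^ m) w = t ^ m • w := by
  rw [← map_pow]
  rfl

theorem toModuleEnd_commute (s t : A) :
    Commute (Module.toModuleEnd k V s) (Module.toModuleEnd k V t) := by
  unfold Commute SemiconjBy
  rw [← map_mul, ← map_mul, mul_comm]

/-- the iterated step of (CNT) in the `A`-module form. -/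
theorem finrank_le_pow_mul_kil [FiniteDimensional k V] {ι : Type*} [Fintype ι] (z : ι → A)
    (Y : Submodule k V) (hY : ∀ (t : A), ∀ w ∈ Y, t • w ∈ Y) (K : ℕ)
    (hK : ∀ i, ∀ w ∈ Y, z i ^ K • w = 0) :
    finrank k ↥Y ≤ K ^ Fintype.card ι * finrank k ↥(Y ⊓ kil k V z) := by
  have h := finrank_le_prod_mul_iInf_ker Finset.univ (fun i => Module.toModuleEnd k V (z i))
    (fun _ => K) (fun i _ j _ => toModuleEnd_commute _ _) Y (fun i _ u hu => hY (z i) u hu)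
    (fun i _ u hu => by rw [toModuleEnd_pow_apply]; exact hK i u hu)
  have hinf : (⨅ i ∈ (Finset.univ : Finset ι), LinearMap.ker (Module.toModuleEnd k V (z i)) :
      Submodule k V) = kil k V z := by simp [kil]
  rw [hinf, Finset.prod_const, Finset.card_univ] at h
  exact h

theorem smul_mem_kil {ι : Type*} {z : ι → A} (t : A) {w : V} (hw : w ∈ kil k V z) :
    t • w ∈ kil k V z := by
  rw [mem_kil] at hw ⊢
  intro i
  rw [smul_comm, hw i, smul_zero]

theorem smul_mem_inf_kil {ι : Type*} (z : ι → A) (U : Submodule k V)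
    (hU : ∀ (t : A), ∀ w ∈ U, t • w ∈ U) (t : A) (w : V) (hw : w ∈ U ⊓ kil k V z) :
    t • w ∈ U ⊓ kil k V z := by
  obtain ⟨h1, h2⟩ := Submodule.mem_inf.mp hw
  exact Submodule.mem_inf.mpr ⟨hU t w h1, smul_mem_kil t h2⟩

/-- **(CNT)** : `dim Y ≤ (2 K ^ 2) ^ s * K ^ g * dim Y[a, b, c, x]`. -/
theorem cnt_abs [FiniteDimensional k V] {σ γ : Type*} [Fintype σ] [Fintype γ]
    (a b c : σ → A) (x : γ → A) (Y : Submodule k V) (hY : ∀ (t : A), ∀ w ∈ Y, t • w ∈ Y)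
    (ha : ∀ j, ∀ w ∈ Y, a j • a j • w = -(b j • c j • w)) (K : ℕ)
    (hb : ∀ j, ∀ w ∈ Y, b j ^ K • w = 0) (hc : ∀ j, ∀ w ∈ Y, c j ^ K • w = 0)
    (hx : ∀ i, ∀ w ∈ Y, x i ^ K • w = 0) :
    finrank k ↥Y ≤ (2 * K ^ 2) ^ Fintype.card σ * K ^ Fintype.card γ *
      finrank k ↥(Y ⊓ kil k V b ⊓ kil k V c ⊓ kil k V x ⊓ kil k V a) := by
  have hY1 := smul_mem_inf_kil b Y hY
  have hY2 := smul_mem_inf_kil c _ hY1
  have hY3 := smul_mem_inf_kil x _ hY2
  have h1 := finrank_le_pow_mul_kil b Y hY K hb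
  have h2 := finrank_le_pow_mul_kil c (Y ⊓ kil k V b) hY1 K
    (fun j w hw => hc j w (Submodule.mem_inf.mp hw).1)
  have h3 := finrank_le_pow_mul_kil x (Y ⊓ kil k V b ⊓ kil k V c) hY2 K
    (fun j w hw => hx j w (Submodule.mem_inf.mp (Submodule.mem_inf.mp hw).1).1)
  have h4 := finrank_le_pow_mul_kil a (Y ⊓ kil k V b ⊓ kil k V c ⊓ kil k V x) hY3 2 (by
    intro j w hw
    obtain ⟨hw1, -⟩ := Submodule.mem_inf.mp hw
    obtain ⟨hw2, hwc⟩ := Submodule.mem_inf.mp hw1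
    obtain ⟨hwY, -⟩ := Submodule.mem_inf.mp hw2
    rw [pow_two, mul_smul, ha j w hwY, mem_kil.mp hwc j, smul_zero, neg_zero])
  set d := finrank k ↥(Y ⊓ kil k V b ⊓ kil k V c ⊓ kil k V x ⊓ kil k V a)
  calc finrank k ↥Y ≤ K ^ Fintype.card σ * finrank k ↥(Y ⊓ kil k V b) := h1
    _ ≤ K ^ Fintype.card σ * (K ^ Fintype.card σ * finrank k ↥(Y ⊓ kil k V b ⊓ kil k V c)) :=
        Nat.mul_le_mul_left _ h2
    _ ≤ K ^ Fintype.card σ * (K ^ Fintype.card σ * (K ^ Fintype.card γ *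
          finrank k ↥(Y ⊓ kil k V b ⊓ kil k V c ⊓ kil k V x))) :=
        Nat.mul_le_mul_left _ (Nat.mul_le_mul_left _ h3)
    _ ≤ K ^ Fintype.card σ * (K ^ Fintype.card σ * (K ^ Fintype.card γ *
          (2 ^ Fintype.card σ * d))) :=
        Nat.mul_le_mul_left _ (Nat.mul_le_mul_left _ (Nat.mul_le_mul_left _ h4))
    _ = (2 * K ^ 2) ^ Fintype.card σ * K ^ Fintype.card γ * d := by
        rw [mul_pow, ← pow_mul, mul_comm 2 (Fintype.card σ), pow_mul, sq]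
        ring

/-- **the abstract inequality of (END)**.  `V = W(L_n)`, `A = Tb(L_n)`, `m` = its maximal ideal (any subset of `A`),
`y i` the tame parameters at the TW primes, `(a, b, c) j` the entries of `N_j` at the hard primes, `x` the further
generators of (GEN).
* `hy` : `y i ^ (p ^ ν i) = 0`, `n ≤ ν i`;
* `hgrow` : (GROW) iterated;
* `hctrl` : (CTRL)(ii) every `t ∈ m` has `t ^ e₁ = 0` on `V[y]`;
* `hD` : `dim V[a, b, c, x] ≤ D` ((GEN) + (*) + (CTRL)(iii), `D = 3 ^ r e₀`). -/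
theorem rib_ineq [FiniteDimensional k V] {ι σ γ : Type*} [Fintype ι] [Nonempty ι] [Fintype σ]
    [Fintype γ] (m : Set A) (y : ι → A) (a b c : σ → A) (x : γ → A)
    (hbm : ∀ j, b j ∈ m) (hcm : ∀ j, c j ∈ m) (hxm : ∀ i, x i ∈ m)
    (ha : ∀ j, ∀ w : V, a j • a j • w = -(b j • c j • w))
    (p n e₀ e₁ D : ℕ) (hp : 0 < p) (hn : 1 ≤ n) (ν : ι → ℕ) (hν : ∀ i, n ≤ ν i)
    (hy : ∀ i, ∀ w : V, y i ^ (p ^ ν i) • w = 0)
    (hgrow : e₀ * ∏ i, ((p - 1) * p ^ (ν i - 1)) ≤ finrank k V)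
    (hctrl : ∀ t ∈ m, ∀ w : V, (∀ i, y i • w = 0) → t ^ e₁ • w = 0)
    (hD : finrank k ↥(kil k V b ⊓ kil k V c ⊓ kil k V x ⊓ kil k V a) ≤ D) :
    e₀ * ((p - 1) * p ^ (n - 1)) ^ Fintype.card ι ≤
      (2 * (e₁ * (Fintype.card ι * p ^ n)) ^ 2) ^ Fintype.card σ *
        (e₁ * (Fintype.card ι * p ^ n)) ^ Fintype.card γ * D := by
  set K := e₁ * (Fintype.card ι * p ^ n) with hKdef
  set Y : Submodule k V := kil k V (fun i => y i ^ (p ^ n)) with hYdef
  have hlow : e₀ * ((p - 1) * p ^ (n - 1)) ^ Fintype.card ι ≤ finrank k ↥Y := by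
    have h := conc_lower (k := k) (V := V) (fun i => Module.toModuleEnd k V (y i))
      (fun i j => toModuleEnd_commute _ _) p n e₀ hp hn ν hν (by
        intro i
        ext w
        rw [toModuleEnd_pow_apply, hy i w, LinearMap.zero_apply]) hgrow
    have hE : (⨅ i, LinearMap.ker ((Module.toModuleEnd k V (y i)) ^ (p ^ n)) : Submodule k V) = Y := by
      rw [hYdef, kil]
      refine iInf_congr fun i => ?_
      rw [map_pow]
    rwa [hE] at h
  have hYst : ∀ (t : A), ∀ w ∈ Y, t • w ∈ Y := fun t w hw => smul_mem_kil t hw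
  have hnil : ∀ t ∈ m, ∀ w ∈ Y, t ^ K • w = 0 := by
    intro t ht w hw
    exact nil_bound' (pow_pos hp n) (hctrl t ht) w (mem_kil.mp hw)
  have hc1 := cnt_abs a b c x Y hYst (fun j w _ => ha j w) K (fun j => hnil _ (hbm j))
    (fun j => hnil _ (hcm j)) (fun i => hnil _ (hxm i))
  have hle : finrank k ↥(Y ⊓ kil k V b ⊓ kil k V c ⊓ kil k V x ⊓ kil k V a) ≤ D := by
    refine le_trans (Submodule.finrank_mono ?_) hD
    intro w hw
    obtain ⟨h1, h1a⟩ := Submodule.mem_inf.mp hw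
    obtain ⟨h2, h2x⟩ := Submodule.mem_inf.mp h1
    obtain ⟨h3, h3c⟩ := Submodule.mem_inf.mp h2
    obtain ⟨-, h4b⟩ := Submodule.mem_inf.mp h3
    exact Submodule.mem_inf.mpr ⟨Submodule.mem_inf.mpr ⟨Submodule.mem_inf.mpr ⟨h4b, h3c⟩, h2x⟩, h1a⟩
  calc _ ≤ finrank k ↥Y := hlow
    _ ≤ _ := hc1
    _ ≤ _ := Nat.mul_le_mul_left _ hle

end Fermat.Agent.RIB
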