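import Fermat.Agent.S56.Gen.MainW
import Fermat.Agent.S56.Gen.Two
import Fermat.Agent.RIB.Flat.Lift
import Fermat.Agent.RIB.Star

/-!
# RIB / Gen : (GEN) in the exact shape of the hypothesis `gen` of `RIB.end_false`.

`A` a local `k`-algebra with `π : A →ₐ[k] k`, `rA : GQ →* M2 A`; hard primes `qh : Fin s → Nat.Primes` with elements `fr j`, `tm j : GQ`
such that `rA (D_{qh j})` is generated by `rA (fr j)`, `rA (tm j)`.

* `RibGenHyp` : the hypotheses on `(A, π, rA)`.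
* `RibGenHyp.toFlat` : they imply `S56.GenHypFlat` for `J = ⨆ j, entryIdeal (rA (tm j) - 1) ⊔ entryIdeal (rA (fr j) - ε j • 1)`.
* `hasFlat_of_phi` : the flatness hypothesis from `Φ : M2 A →ₐ[A] End A V`, `V ↪ (J₀(L)[p^n])^ι`.
* `exists_tw_gen_rib` : Taylor-Wiles primes + (GEN).
-/

set_option autoImplicit false

open ExtCitation Polynomial ModularCurve

namespace Fermat.Agent.RIB

open Fermat.Agent.S56 Fermat.Agent.S56.Gen
open CFT (levS levAll decomp Qb)
open IsLocalRing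

variable {k : Type} [Field k] {p : ℕ} [Fact p.Prime]

/-- the ideal of the local coordinates at the hard primes. -/
def hardIdeal {A : Type} [CommRing A] {s : ℕ} (N S : Fin s → M2 A) (ε : Fin s → A) : Ideal A :=
  ⨆ j, entryIdeal (N j) ⊔ entryIdeal (S j - ε j • (1 : M2 A))

/-- the hypotheses of (GEN), RIB form. -/
structure RibGenHyp (p : ℕ) [Fact p.Prime] (rbar : GQ →* M2 k) (S₀ Q : Finset Nat.Primes) {s : ℕ}
    (qh : Fin s → Nat.Primes) {A : Type} [CommRing A] [Algebra k A]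
    (π : A →ₐ[k] k) (rA : GQ →* M2 A) (fr tm : Fin s → GQ) (ε : Fin s → A) : Prop where
  lift : ∀ σ, (rA σ).map π = rbar σ
  det : ∀ σ, ∃ c : k, (rA σ).det = algebraMap k A c
  tr : Algebra.adjoin k (Set.range fun σ => (rA σ).trace) = ⊤
  lev : ∃ U ∈ (levS (S₀ ∪ Q)).carrier, ∀ s ∈ U, rA s = 1
  eps : ∀ j, ∃ c : k, ε j = algebraMap k A c
  frm : ∀ j a b, π ((rA (fr j) - ε j • (1 : M2 A)) a b) = 0
  tmm : ∀ j a b, π ((rA (tm j) - 1) a b) = 0
  loc : ∀ j, ∀ σ ∈ decomp (qh j), ∃ a b : ℕ, rA σ = rA (fr j) ^ a * rA (tm j) ^ b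
  unr : ∀ v ∈ S₀, (∀ j, v ≠ qh j) → v ≠ pPrime p → v ≠ twoP → ∀ σ ∈ inert v, rA σ = 1
  det2 : ∀ σ ∈ inert twoP, (rA σ).det = 1
  flat : ∀ φ : A →ₐ[k] DualNumber k, (∀ a, (φ a).fst = π a) →
    Flat.HasFlat (Flat.Ap p).valuation (Flat.matAct (Flat.Ip p) (pushRep φ rA))

section

variable {rbar : GQ →* M2 k} {S₀ Q : Finset Nat.Primes} {s : ℕ} {qh : Fin s → Nat.Primes}
  {A : Type} [CommRing A] [Algebra k A] {π : A →ₐ[k] k} {rA : GQ →* M2 A} {fr tm : Fin s → GQ}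
  {ε : Fin s → A}

theorem le_hardIdeal_left (N S : Fin s → M2 A) (ε : Fin s → A) (j : Fin s) :
    entryIdeal (N j) ≤ hardIdeal N S ε :=
  le_trans le_sup_left (le_iSup (fun j => entryIdeal (N j) ⊔ entryIdeal (S j - ε j • (1 : M2 A))) j)

theorem le_hardIdeal_right (N S : Fin s → M2 A) (ε : Fin s → A) (j : Fin s) :
    entryIdeal (S j - ε j • (1 : M2 A)) ≤ hardIdeal N S ε :=
  le_trans le_sup_right (le_iSup (fun j => entryIdeal (N j) ⊔ entryIdeal (S j - ε j • (1 : M2 A))) j)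

theorem RibGenHyp.scalarMod (H : RibGenHyp p rbar S₀ Q qh π rA fr tm ε) (j : Fin s) {σ : GQ}
    (hσ : σ ∈ decomp (qh j)) :
    ScalarMod k (hardIdeal (fun j => rA (tm j) - 1) (fun j => rA (fr j)) ε) (rA σ) := by
  obtain ⟨a, b, hab⟩ := H.loc j σ hσ
  rw [hab]
  refine ScalarMod.mul (ScalarMod.pow ?_ a) (ScalarMod.pow ?_ b)
  · obtain ⟨c, hc⟩ := H.eps j
    refine ⟨c, fun i l => ?_⟩
    rw [← hc, ← Matrix.sub_apply]
    exact le_hardIdeal_right (fun j => rA (tm j) - 1) (fun j => rA (fr j)) ε j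
      (entry_mem_entryIdeal _ i l)
  · refine ⟨1, fun i l => ?_⟩
    rw [map_one, one_smul, ← Matrix.sub_apply]
    exact le_hardIdeal_left (fun j => rA (tm j) - 1) (fun j => rA (fr j)) ε j
      (entry_mem_entryIdeal _ i l)

theorem RibGenHyp.hardIdeal_le (H : RibGenHyp p rbar S₀ Q qh π rA fr tm ε) :
    ∀ a ∈ hardIdeal (fun j => rA (tm j) - 1) (fun j => rA (fr j)) ε, π a = 0 := by
  have h : hardIdeal (fun j => rA (tm j) - 1) (fun j => rA (fr j)) ε ≤ RingHom.ker (π : A →+* k) := by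
    refine iSup_le fun j => sup_le ?_ ?_
    · exact entryIdeal_le.2 fun a b => H.tmm j a b
    · exact entryIdeal_le.2 fun a b => H.frm j a b
  exact fun a ha => h ha

variable [Finite k] [CharP k p]

/-- the hypotheses of `exists_tw_gen_flat`. -/
theorem RibGenHyp.toFlat (H : RibGenHyp p rbar S₀ Q qh π rA fr tm ε) (hp2 : p ≠ 2) (h2 : (2 : k) ≠ 0)
    (h3 : (3 : k) ≠ 0) (hram : ∃ σ ∈ inert twoP, rbar σ ≠ 1)
    (hun : ∀ σ ∈ inert twoP, (rbar σ).charpoly = (X - 1) ^ 2) :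
    GenHypFlat p h2 rbar S₀ Q (Finset.univ.image qh) π rA
      (hardIdeal (fun j => rA (tm j) - 1) (fun j => rA (fr j)) ε) where
  lift := H.lift
  det := H.det
  tr := H.tr
  lev := H.lev
  J_le := H.hardIdeal_le
  hard := by
    intro v hv φ hφ
    obtain ⟨j, -, rfl⟩ := Finset.mem_image.1 hv
    exact resLoc_coc_eq_zero h2 hφ.2 (qh j) fun σ hσ => H.scalarMod j hσ
  flat := fun φ hφ => H.flat φ hφ.1
  min := by
    intro v hv hvR hvp φ hφ
    have hl : IsLift rbar (pushRep φ rA) := isLift_pushRep H.lift hφ.1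
    have hcont : GaloisFactorsThroughFiniteLevel (pushRep φ rA) := cont_pushRep H.lev φ
    by_cases hv2 : v = twoP
    · subst hv2
      refine resLoc_coc_mem_Lur_two h2 hp2 h3 rbar hram _ hcont hl (fun σ hσ => ?_) hun
      have h1 : pushRep φ rA σ = (rA σ).map (φ : A →+* DualNumber k) := rfl
      have h4 : ((rA σ).map (φ : A →+* DualNumber k)).det = (φ : A →+* DualNumber k) (rA σ).det :=
        ((φ : A →+* DualNumber k).map_det (rA σ)).symm
      rw [h1, h4, H.det2 σ hσ, map_one]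
    · refine resLoc_coc_mem_Lur_of_trivial h2 rbar v _ hcont hl fun σ hσ =>
        pushRep_eq_one φ (H.unr v hv (fun j hj => hvR ?_) hvp hv2 σ hσ)
      exact Finset.mem_image.2 ⟨j, Finset.mem_univ j, hj.symm⟩

end

/-- the kernel of `π` is the maximal ideal. -/
theorem ker_eq_maximalIdeal {A : Type} [CommRing A] [IsLocalRing A] [Algebra k A] (π : A →ₐ[k] k) :
    RingHom.ker (π : A →+* k) = maximalIdeal A := by
  have hs : Function.Surjective (π : A →+* k) := fun c => ⟨algebraMap k A c, by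
    show π (algebraMap k A c) = c
    rw [AlgHom.commutes]; rfl⟩
  exact IsLocalRing.eq_maximalIdeal (RingHom.ker_isMaximal_of_surjective _ hs)

/-- the flatness hypothesis from a faithful `M₂(A)`-module embedded in a power of `J₀(L)[p^n]`. -/
theorem hasFlat_of_phi {rbar : GQ →* M2 k} {A : Type} [CommRing A] [Algebra k A] {π : A →ₐ[k] k}
    {rA : GQ →* M2 A} (hlift : ∀ σ, (rA σ).map π = rbar σ)
    (hdet : ∀ σ, ∃ c : k, (rA σ).det = algebraMap k A c)
    (hcont : GaloisFactorsThroughFiniteLevel rA)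
    {V : Type} [AddCommGroup V] [Module A V] (Φ : M2 A →ₐ[A] Module.End A V)
    (hfaith : ∀ t : A, (∀ w : V, t • w = 0) → t = 0)
    (L : ℕ) [NeZero L] (hpL : ¬ p ∣ L) (n : ℕ) (ι : Type) [Finite ι] [Nonempty ι]
    (j : V →+ (ι → ↥(Submodule.torsionBy ℤ (JZero L) ((p : ℤ) ^ n))))
    (hj : Function.Injective j)
    (heq : ∀ (σ : GQ) (w : V) (i : ι),
      ((j (Φ (rA σ) w) i : _) : JZero L) = σ • ((j w i : _) : JZero L))
    (φ : A →ₐ[k] DualNumber k) (hφ : ∀ a, (φ a).fst = π a) :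
    Flat.HasFlat (Flat.Ap p).valuation (Flat.matAct (Flat.Ip p) (pushRep φ rA)) := by
  letI : Module (M2 A) V := Module.compHom V (Φ : M2 A →+* Module.End A V)
  have hsm : ∀ (X : M2 A) (w : V), X • w = Φ X w := fun _ _ => rfl
  have hsc : ∀ (t : A) (w : V), (Matrix.scalar (Fin 2) t) • w = t • w := by
    intro t w
    have h1 : Matrix.scalar (Fin 2) t = algebraMap A (M2 A) t := rfl
    rw [hsm, h1, AlgHom.commutes]
    rfl
  exact (flatLift_pushRep_of_embedding (Λ := k) (k := k) (p := p)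
    (fun c => ⟨c, rfl⟩) hlift hdet hcont
    (fun t ht => hfaith t fun w => by rw [← hsc]; exact ht w) L hpL n ι j hj heq hφ).flat

variable [Finite k] [CharP k p]

/-- **(GEN)**, RIB form. -/
theorem exists_tw_gen_rib (hp2 : p ≠ 2) (h2 : (2 : k) ≠ 0) (h3 : (3 : k) ≠ 0) {rbar : GQ →* M2 k}
    (h : RbarHyp p rbar) (S₀ : Finset Nat.Primes) (hpS : pPrime p ∈ S₀)
    (hur : UnramOutside rbar S₀) (hram : ∃ σ ∈ inert twoP, rbar σ ≠ 1)
    (hun : ∀ σ ∈ inert twoP, (rbar σ).charpoly = (X - 1) ^ 2) :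
    ∃ t : ℕ, ∀ (n : ℕ) (T : Finset ℕ), ∃ qv : Fin t → Nat.Primes, Function.Injective qv ∧
      (∀ i, ((qv i : Nat.Primes) : ℕ) ∉ T ∧ qv i ∉ S₀ ∧ p ^ (n + 1) ∣ ((qv i : Nat.Primes) : ℕ) - 1 ∧
        ∃ φ : GQ, (primeLocalPlace (qv i)).IsFrobeniusAt φ ((qv i : Nat.Primes) : ℕ) ∧
          ∃ α β : k, α ≠ β ∧ (rbar φ).charpoly = (X - C α) * (X - C β)) ∧
      ∀ (s : ℕ) (qh : Fin s → Nat.Primes), Function.Injective qh →
        (∀ j, qh j ∈ S₀ ∧ qh j ≠ pPrime p ∧ ScalarAt rbar (qh j)) →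
      ∀ (A : Type) [CommRing A] [IsLocalRing A] [Algebra k A] (π : A →ₐ[k] k) (rA : GQ →* M2 A)
        (fr tm : Fin s → GQ) (ε : Fin s → A),
        RibGenHyp p rbar S₀ (Finset.univ.image qv) qh π rA fr tm ε →
        3 * s ≤ t ∧ ∃ x : Fin (t - 3 * s) → A, (∀ i, x i ∈ maximalIdeal A) ∧
          maximalIdeal A ≤ (⨆ j, entryIdeal (rA (tm j) - 1) ⊔
            entryIdeal (rA (fr j) - ε j • (1 : M2 A))) ⊔ Ideal.span (Set.range x) ⊔
              maximalIdeal A ^ 2 := by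
  obtain ⟨t, ht⟩ := exists_tw_gen_flat hp2 h2 h S₀ hpS hur
  refine ⟨t, fun n T => ?_⟩
  obtain ⟨qv, hinj, hq, hgen⟩ := ht n T
  refine ⟨qv, hinj, hq, fun s qh hqh hqhS A _ _ _ π rA fr tm ε H => ?_⟩
  have hcard : (Finset.univ.image qh).card = s := by
    rw [Finset.card_image_of_injective _ hqh, Finset.card_univ, Fintype.card_fin]
  have key := hgen (Finset.univ.image qh)
    (fun v hv => by
      obtain ⟨j, -, rfl⟩ := Finset.mem_image.1 hv
      exact (hqhS j).1)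
    (fun hv => by
      obtain ⟨j, -, hj⟩ := Finset.mem_image.1 hv
      exact (hqhS j).2.1 hj)
    (fun v hv => by
      obtain ⟨j, -, rfl⟩ := Finset.mem_image.1 hv
      exact (hqhS j).2.2)
    k A (fun c => ⟨c, rfl⟩) π rA _ (H.toFlat hp2 h2 h3 hram hun)
  rw [hcard] at key
  obtain ⟨h1, x, hx, hle⟩ := key
  have hker := ker_eq_maximalIdeal π
  refine ⟨h1, x, fun i => ?_, ?_⟩
  · rw [← hker]
    exact hx i
  · have hbot : (RingHom.ker (algebraMap k k)).map (algebraMap k A) = ⊥ := by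
      have : RingHom.ker (algebraMap k k) = ⊥ := by
        rw [RingHom.ker_eq_bot_iff_eq_zero]
        exact fun x hx => hx
      rw [this, Ideal.map_bot]
    rw [hbot, sup_bot_eq, hker] at hle
    exact hle

end Fermat.Agent.RIB
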