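import Fermat.Agent.RIB.CntAbs
import Fermat.Agent.RIB.Star

/-!
# RIB / abstract (TOP) at one level `L_n`

Board #1920.  Glue between (GEN) [`m ≤ J ⊔ (x) ⊔ m ^ 2`], (*) [`Star.lean`], (CNT), (NIL), (CONC).

* `smul_eq_zero_of_le_sup_sq` : Nakayama glue : `m ≤ I ⊔ m ^ 2`, `m` acts nilpotently ⇒ `V[I] = V[m]`.
* `top_ineq` : the inequality at level `L_n`.
-/

set_option autoImplicit false

namespace Fermat.Agent.RIB

open Module

section Nak

variable {A : Type*} [CommRing A] {V : Type*} [AddCommGroup V] [Module A V]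

/-- **Nakayama glue** : if `m ≤ I ⊔ m ^ 2`, every `t ∈ m` acts locally nilpotently on the noetherian module `V`,
then a vector killed by `I` is killed by `m`. -/
theorem smul_eq_zero_of_le_sup_sq [IsNoetherian A V] (m I : Ideal A)
    (hm : ∀ t ∈ m, ∀ w : V, ∃ e : ℕ, t ^ e • w = 0) (h : m ≤ I ⊔ m ^ 2) (w : V)
    (hw : ∀ t ∈ I, t • w = 0) : ∀ t ∈ m, t • w = 0 := by
  set U : Submodule A V := Submodule.span A {w} with hU
  set N : Submodule A V := m • U with hN
  have hIU : I • U = ⊥ := by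
    rw [eq_bot_iff, Submodule.smul_le]
    intro t ht u hu
    obtain ⟨c, rfl⟩ := Submodule.mem_span_singleton.mp hu
    rw [Submodule.mem_bot, smul_comm, hw t ht, smul_zero]
  have hle : N ≤ m • N := by
    calc N = m • U := rfl
      _ ≤ (I ⊔ m ^ 2) • U := Submodule.smul_mono_left h
      _ = I • U ⊔ m ^ 2 • U := Submodule.sup_smul _ _ _
      _ = m • N := by rw [hIU, bot_sup_eq, sq, Submodule.mul_smul]
  obtain ⟨r, hr1, hr2⟩ := Submodule.exists_sub_one_mem_and_smul_eq_zero_of_fg_of_le_smul m N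
    (IsNoetherian.noetherian N) hle
  have hN0 : ∀ n ∈ N, n = 0 := by
    intro n hn
    -- `t = r - 1 ∈ m`, `t n' = - n'` on `N`
    have ht : ∀ n' ∈ N, (r - 1) • n' = -n' := by
      intro n' hn'
      rw [sub_smul, hr2 n' hn', one_smul, zero_sub]
    have hpow : ∀ e : ℕ, (r - 1) ^ e • n = (-1 : A) ^ e • n := by
      intro e
      induction e with
      | zero => simp
      | succ e ih =>
        rw [pow_succ, mul_smul, ht n hn, smul_neg, ih, pow_succ, mul_smul, neg_smul, one_smul, smul_neg]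
    obtain ⟨e, he⟩ := hm _ hr1 n
    rw [hpow e] at he
    have : ((-1 : A) ^ e * (-1 : A) ^ e) • n = 0 := by rw [mul_smul, he, smul_zero]
    rw [← mul_pow] at this
    simpa using this
  intro t ht
  exact hN0 _ (Submodule.smul_mem_smul ht (Submodule.mem_span_singleton_self w))

end Nak

section Tr

variable {R : Type*} [CommRing R] [IsLocalRing R]

open IsLocalRing

/-- `N ^ 2 = 0`, `det (1 + N) = 1`, `N = 0` mod `m`, `2` a unit ⇒ `tr N = 0` (no reducedness). -/
theorem trace_eq_zero_of_mul_self (h2 : IsUnit (2 : R)) (N : Matrix (Fin 2) (Fin 2) R)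
    (hNm : ∀ i j, N i j ∈ maximalIdeal R) (hN2 : N * N = 0) (hdet : (1 + N).det = 1) :
    N 1 1 = -N 0 0 := by
  have h00 := congrFun (congrFun hN2 0) 0
  have h11 := congrFun (congrFun hN2 1) 1
  simp only [Matrix.mul_apply, Fin.sum_univ_two, Matrix.zero_apply] at h00 h11
  rw [Matrix.det_fin_two] at hdet
  simp only [Matrix.add_apply, Matrix.one_apply_eq, Matrix.one_apply_ne (show (0 : Fin 2) ≠ 1 by decide),
    Matrix.one_apply_ne (show (1 : Fin 2) ≠ 0 by decide), zero_add] at hdet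
  have ht : (N 0 0 + N 1 1) * (N 0 0 + N 1 1 + 2) = 0 := by
    linear_combination h00 + h11 + 2 * hdet
  have hu : IsUnit (N 0 0 + N 1 1 + 2) := by
    rw [← IsLocalRing.notMem_maximalIdeal]
    intro h
    have : (2 : R) ∈ maximalIdeal R := by
      have h3 := (maximalIdeal R).sub_mem h ((maximalIdeal R).add_mem (hNm 0 0) (hNm 1 1))
      simpa using h3
    exact (IsLocalRing.notMem_maximalIdeal.mpr h2) this
  have := hu.mul_left_eq_zero.mp ht
  linear_combination this

end Tr

section Top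

variable {k : Type*} [Field k] {R : Type*} [CommRing R] [IsLocalRing R] [Algebra k R]
  {W : Type*} [AddCommGroup W] [Module R W] [Module k W] [IsScalarTower k R W]
  (Φ : Matrix (Fin 2) (Fin 2) R →ₐ[R] Module.End R W)

open IsLocalRing

/-- **abstract (TOP) at one level**.  `W = W(L_n)`, `R = Tb(L_n)`, `Φ` the `M₂(R)`-structure of (RHO);
`N j = ρ(τ_j) - 1`, `S j = ρ(σ_j)` at the hard primes, `y i` the tame parameters at the TW primes, `x` the further
generators of (GEN). -/
theorem top_ineq [FiniteDimensional k W] {ι σ γ : Type*} [Fintype ι] [Nonempty ι] [Fintype σ]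
    [Fintype γ] (h2 : IsUnit (2 : R))
    (N S : σ → Matrix (Fin 2) (Fin 2) R) (ε : σ → R) (hε : ∀ j, ε j * ε j = 1)
    (hNm : ∀ j a b, N j a b ∈ maximalIdeal R) (hN2 : ∀ j, N j * N j = 0)
    (hNdet : ∀ j, (1 + N j).det = 1)
    (hS : ∀ j a b, (S j - ε j • (1 : Matrix (Fin 2) (Fin 2) R)) a b ∈ maximalIdeal R)
    (key : ∀ j, ∀ w : W, Φ (N j) w = 0 → Φ (S j * S j) w = w)
    (y : ι → R) (p n e₀ e₁ D : ℕ) (hp : 0 < p) (hn : 1 ≤ n) (ν : ι → ℕ) (hν : ∀ i, n ≤ ν i)
    (hy : ∀ i, ∀ w : W, y i ^ (p ^ ν i) • w = 0)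
    (hgrow : e₀ * ∏ i, ((p - 1) * p ^ (ν i - 1)) ≤ finrank k W)
    (hctrl : ∀ t ∈ maximalIdeal R, ∀ w : W, (∀ i, y i • w = 0) → t ^ e₁ • w = 0)
    (hD : finrank k ↥(kil k W (fun t : ↥(maximalIdeal R) => (t : R))) ≤ D)
    (x : γ → R) (hxm : ∀ i, x i ∈ maximalIdeal R)
    (hgen : maximalIdeal R ≤ ((⨆ j, (entryIdeal (N j) ⊔
      entryIdeal (S j - ε j • (1 : Matrix (Fin 2) (Fin 2) R)))) ⊔ Ideal.span (Set.range x)) ⊔
        maximalIdeal R ^ 2) :
    e₀ * ((p - 1) * p ^ (n - 1)) ^ Fintype.card ι ≤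
      (2 * (e₁ * (Fintype.card ι * p ^ n)) ^ 2) ^ Fintype.card σ *
        (e₁ * (Fintype.card ι * p ^ n)) ^ Fintype.card γ * D := by
  haveI : IsNoetherian R W := isNoetherian_of_tower k inferInstance
  have htr : ∀ j, N j 1 1 = -N j 0 0 := fun j =>
    trace_eq_zero_of_mul_self h2 (N j) (hNm j) (hN2 j) (hNdet j)
  refine rib_ineq (k := k) (V := W) (maximalIdeal R : Set R) y (fun j => N j 0 0) (fun j => N j 0 1)
    (fun j => N j 1 0) x (fun j => hNm j 0 1) (fun j => hNm j 1 0) hxm ?_ p n e₀ e₁ D hp hn ν hν hy hgrow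
    hctrl ?_
  · intro j w
    have h00 := congrFun (congrFun (hN2 j) 0) 0
    simp only [Matrix.mul_apply, Fin.sum_univ_two, Matrix.zero_apply] at h00
    rw [smul_smul, smul_smul, ← neg_smul]
    congr 1
    linear_combination h00
  · refine le_trans (Submodule.finrank_mono ?_) hD
    intro w hw
    obtain ⟨h1, hwa⟩ := Submodule.mem_inf.mp hw
    obtain ⟨h2', hwx⟩ := Submodule.mem_inf.mp h1
    obtain ⟨hwb, hwc⟩ := Submodule.mem_inf.mp h2'
    rw [mem_kil] at hwa hwb hwc hwx
    have hNw : ∀ j a b, N j a b • w = 0 := by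
      intro j a b
      fin_cases a <;> fin_cases b
      · exact hwa j
      · exact hwb j
      · exact hwc j
      · show N j 1 1 • w = 0
        rw [htr j, neg_smul, hwa j, neg_zero]
    have hSw : ∀ j a b, (S j - ε j • (1 : Matrix (Fin 2) (Fin 2) R)) a b • w = 0 := fun j a b =>
      star Φ h2 (N j) (S j) (ε j) (hε j) (hS j) (key j) (hNw j) a b
    -- every element of `m` is locally nilpotent
    have hnil : ∀ t ∈ maximalIdeal R, ∀ w : W, ∃ e : ℕ, t ^ e • w = 0 := by
      intro t ht w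
      refine ⟨_, nil_bound (P := ∏ i, p ^ ν i) (Finset.prod_pos fun i _ => pow_pos hp _)
        (hctrl t ht) w fun i => ?_⟩
      obtain ⟨d, hd⟩ := Nat.exists_eq_add_of_le (Nat.le_of_dvd
        (Finset.prod_pos fun i _ => pow_pos hp _)
        (Finset.dvd_prod_of_mem (fun i => p ^ ν i) (Finset.mem_univ i)))
      rw [hd, add_comm, pow_add, mul_smul, hy i w, smul_zero]
    rw [mem_kil]
    rintro ⟨t, ht⟩
    refine smul_eq_zero_of_le_sup_sq (maximalIdeal R) _ hnil hgen w ?_ t ht
    intro t ht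
    have hmem : w ∈ tors W ((⨆ j, (entryIdeal (N j) ⊔
      entryIdeal (S j - ε j • (1 : Matrix (Fin 2) (Fin 2) R)))) ⊔ Ideal.span (Set.range x)) := by
      rw [mem_tors]
      -- the annihilator of `w` contains all the generators
      have hann : ((⨆ j, (entryIdeal (N j) ⊔
          entryIdeal (S j - ε j • (1 : Matrix (Fin 2) (Fin 2) R)))) ⊔ Ideal.span (Set.range x)) ≤
          (Submodule.span R {w}).annihilator := by
        have hmem : ∀ t : R, t • w = 0 → t ∈ (Submodule.span R {w}).annihilator := by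
          intro t ht
          rw [Submodule.mem_annihilator_span_singleton]
          exact ht
        refine sup_le (iSup_le fun j => sup_le ?_ ?_) ?_
        · exact entryIdeal_le.mpr fun a b => hmem _ (hNw j a b)
        · exact entryIdeal_le.mpr fun a b => hmem _ (hSw j a b)
        · rw [Ideal.span_le]
          rintro _ ⟨i, rfl⟩
          exact hmem _ (hwx i)
      intro t ht
      exact (Submodule.mem_annihilator_span_singleton _ _).mp (hann ht)
    exact mem_tors.mp hmem t ht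

end Top

end Fermat.Agent.RIB
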