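import Fermat.Agent.S19.B.Recip
import Fermat.Agent.S19.B.Pairing
import Fermat.Agent.S19.B.Nondeg
import Fermat.Prelude.Def_AlgebraicCurve_Correspondence
import Fermat.Agent.RED.S37.Pull
import Fermat.Agent.SS.Top35.Push

/-!
# RIB / WEIL-ADJ : pullback and pushforward are adjoint for the Weil pairing

For a finite map of curves `π` (an embedding `F → F'` of function fields over an algebraically
closed field `K` of characteristic zero) and `x ∈ Pic0 F [m]`, `y ∈ Pic0 F' [m]`:
`e_m (π^* x, y) = e_m (x, π_* y)`.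

Proof: choose `D` for `x` whose support avoids the image of the support of `E` (`E` for `y`),
`div f = m D`, `div g = m E`.  Then `div (π^* f) = m π^* D`, `div (N g) = m π_* E`,
`(π^* f)(E) = f (π_* E)` and `g (π^* D) = (N g)(D)`.
-/

set_option autoImplicit false
set_option linter.unusedSectionVars false

open AlgebraicCurve

namespace Fermat.Agent.RIB.WA

open Fermat.Agent.S27 Fermat.Agent.S19

section Ext

variable {K F F' : Type*} [Field K] [Field F] [Field F'] [Algebra K F] [Algebra K F']
  [Algebra F F'] [IsScalarTower K F F'] [IsAlgClosed K] [CharZero K] [IsFF K F] [IsFF K F']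
  [FiniteDimensional F F']

theorem degree_pullback_ext {D : Divisor K F} (hD : Divisor.degree D = 0) :
    Divisor.degree (Divisor.pullback F' D) = 0 := by
  obtain ⟨y, hy⟩ := IsFF.exists_param (K := K) (F := F)
  haveI := GAL.FFExt.fundamentalIdentity (F' := F') hy
  rw [Divisor.degree_pullback, hD, mul_zero]

theorem degree_mapRestrict_ext (E : Divisor K F') :
    Divisor.degree (Divisor.mapRestrict F E) = Divisor.degree E := by
  obtain ⟨y, hy⟩ := IsFF.exists_param (K := K) (F := F)
  rw [← GAL.FFExt.pushforward_eq_mapRestrict hy, Divisor.degree_pushforward]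

/-- `π^*` is well defined on classes. -/
theorem dcl_pullback_congr {D D' : Divisor K F} (hD : Divisor.degree D = 0)
    (hD' : Divisor.degree D' = 0) (h : dcl D = dcl D') :
    dcl (Divisor.pullback F' D) = dcl (Divisor.pullback F' D') := by
  rw [← sub_eq_zero, ← dcl_sub hD hD', dcl_eq_zero_iff (by rw [map_sub, hD, hD', sub_zero])] at h
  rw [← sub_eq_zero, ← dcl_sub (degree_pullback_ext hD) (degree_pullback_ext hD'), ← map_sub,
    dcl_eq_zero_iff (degree_pullback_ext (by rw [map_sub, hD, hD', sub_zero]))]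
  exact Divisor.pullback_mem_principal h

theorem support_mapRestrict_subset [DecidableEq (Place K F)] (E : Divisor K F') :
    (Divisor.mapRestrict F E).support ⊆ E.support.image fun w => w.restrict F := by
  classical
  induction E using Finsupp.induction with
  | zero => simp
  | single_add w n E hw hn ih =>
    rw [map_add, Divisor.mapRestrict_single]
    intro v hv
    have hd : Disjoint (Finsupp.single w n).support E.support := by
      rw [Finsupp.support_single_ne_zero _ hn, Finset.disjoint_singleton_left]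
      exact hw
    rw [Finsupp.support_add_eq hd, Finset.image_union, Finset.mem_union]
    rcases Finset.mem_union.1 (Finsupp.support_add hv) with h | h
    · left
      rw [Finsupp.support_single_ne_zero _ hn] at h ⊢
      simpa using h
    · right
      exact ih h

/-- **Adjointness of `π^*` and `π_*` for the Weil pairing**, divisor form. -/
theorem weil_pullback_ext {m : ℕ} {D : Divisor K F} {E : Divisor K F'}
    (hD : Divisor.degree D = 0) (hE : Divisor.degree E = 0)
    (hx : m • dcl D = 0) (hy : m • dcl E = 0) :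
    weil m (dcl (Divisor.pullback F' D)) (dcl E) =
      weil m (dcl D) (dcl (Divisor.mapRestrict F E)) := by
  classical
  obtain ⟨D', hD', hcl, hdisj⟩ :=
    exists_dcl_eq_disjoint (dcl D) (E.support.image fun w => w.restrict F)
  rw [dcl_pullback_congr (F' := F') hD hD' hcl.symm, ← hcl]
  rw [← hcl] at hx
  obtain ⟨f, hf, hfD⟩ := wp_exists_fn hD' hx
  obtain ⟨g, hg, hgE⟩ := wp_exists_fn hE hy
  have hd1 : Disjoint (Divisor.pullback F' D').support E.support := by
    rw [Finset.disjoint_left]
    intro w hw hw'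
    exact (Finset.disjoint_left.1 hdisj)
      (Divisor.restrict_mem_support_of_mem_support_pullback hw)
      (Finset.mem_image_of_mem _ hw')
  have hd2 : Disjoint D'.support (Divisor.mapRestrict F E).support :=
    hdisj.mono_right (support_mapRestrict_subset E)
  have hf' : algebraMap F F' f ≠ 0 := by simpa using hf
  have hfD' : divOf (K := K) (algebraMap F F' f) = m • Divisor.pullback F' D' := by
    rw [divOf_algebraMap_ext, hfD, map_nsmul]
  have hg' : Algebra.norm F g ≠ 0 := Algebra.norm_ne_zero_iff.2 hg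
  have hgE' : divOf (K := K) (Algebra.norm F g) = m • Divisor.mapRestrict F E := by
    rw [divOf_norm hg, hgE, map_nsmul]
  have hu1 : UnitOn (algebraMap F F' f) E := wp_unitOn hf' hfD' hd1
  have hu2 : UnitOn g (Divisor.pullback F' D') := wp_unitOn hg hgE hd1.symm
  have w1 : IsWeil m (dcl (Divisor.pullback F' D')) (dcl E)
      (evalDiv (algebraMap F F' f) E / evalDiv g (Divisor.pullback F' D')) :=
    ⟨_, _, _, _, degree_pullback_ext hD', hE, rfl, rfl, hd1, hf', hg, hfD', hgE, rfl⟩
  have w2 : IsWeil m (dcl D') (dcl (Divisor.mapRestrict F E))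
      (evalDiv f (Divisor.mapRestrict F E) / evalDiv (Algebra.norm F g) D') :=
    ⟨_, _, _, _, hD', by rw [degree_mapRestrict_ext, hE], rfl, rfl, hd2, hf, hg', hfD, hgE', rfl⟩
  rw [w1.weil_eq, w2.weil_eq, evalDiv_mapRestrict f E hu1, evalDiv_pullback D' hu2]

end Ext

section Along

variable {K F F' : Type*} [Field K] [Field F] [Field F'] [Algebra K F] [Algebra K F']
  [IsAlgClosed K] [CharZero K] [IsFF K F] [IsFF K F']

/-! ### the standing hypotheses of the `Along` API hold for all embeddings of function fields -/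

theorem ff_finiteAlong (φ : F →ₐ[K] F') : FiniteAlong K φ := by
  obtain ⟨y, hy⟩ := IsFF.exists_param (K := K) (F := F)
  obtain ⟨y', hy'⟩ := IsFF.exists_param (K := K) (F := F')
  exact GAL.FFExt.finiteAlong φ hy hy'

theorem ff_isIntegral (φ : F →ₐ[K] F') : φ.toRingHom.IsIntegral :=
  GAL.FFExt.isIntegralAlong φ (ff_finiteAlong φ)

theorem ff_normFormulaAlong (φ : F →ₐ[K] F') (hfin : FiniteAlong K φ) :
    NormFormulaAlong K φ hfin := by
  obtain ⟨y, hy⟩ := IsFF.exists_param (K := K) (F := F)
  exact GAL.FFExt.normFormulaAlong φ hfin hy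

theorem ff_fundamentalIdentityAlong (φ : F →ₐ[K] F') (hφ : φ.toRingHom.IsIntegral) :
    FundamentalIdentityAlong K φ hφ := by
  obtain ⟨y, hy⟩ := IsFF.exists_param (K := K) (F := F)
  exact GAL.FFExt.fundamentalIdentityAlong φ hφ (ff_finiteAlong φ) hy

/-- **[WEIL-ADJ]**, divisor form: `e_m (φ^* D, E) = e_m (D, φ_* E)`. -/
theorem weil_pullbackAlong (φ : F →ₐ[K] F') (hφ : φ.toRingHom.IsIntegral) {m : ℕ}
    {D : Divisor K F} {E : Divisor K F'}
    (hD : Divisor.degree D = 0) (hE : Divisor.degree E = 0)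
    (hx : m • dcl D = 0) (hy : m • dcl E = 0) :
    weil m (dcl (Divisor.pullbackAlong φ hφ D)) (dcl E) =
      weil m (dcl D) (dcl (Divisor.pushforwardAlong φ hφ E)) := by
  letI := algebraAlong φ
  haveI := isScalarTower_along φ
  haveI := isIntegral_along φ hφ
  haveI : FiniteDimensional F F' := ff_finiteAlong φ
  obtain ⟨y, hy'⟩ := IsFF.exists_param (K := K) (F := F)
  have h := weil_pullback_ext (F' := F') hD hE hx hy
  rw [← GAL.FFExt.pushforward_eq_mapRestrict hy'] at h
  exact h

theorem pullPic0_dcl (φ : F →ₐ[K] F') (hφ : φ.toRingHom.IsIntegral)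
    (hFI : FundamentalIdentityAlong K φ hφ) {D : Divisor K F} (hD : Divisor.degree D = 0) :
    RED.pullPic0 φ hφ hFI (dcl D) = dcl (Divisor.pullbackAlong φ hφ D) := by
  rw [dcl_of_degree hD, RED.pullPic0_mk,
    dcl_of_degree (Divisor.pullbackAlong_mem_degZero φ hφ hFI hD)]
  rfl

theorem pushPic0_dcl (φ : F →ₐ[K] F') (hφ : φ.toRingHom.IsIntegral) (hfin : FiniteAlong K φ)
    (hN : NormFormulaAlong K φ hfin) {E : Divisor K F'} (hE : Divisor.degree E = 0) :
    SS.pushPic0 φ hφ hfin hN (dcl E) = dcl (Divisor.pushforwardAlong φ hφ E) := by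
  rw [dcl_of_degree hE, SS.pushPic0_mk,
    dcl_of_degree (Divisor.pushforwardAlong_mem_degZero φ hφ hE)]
  rfl

/-- **[WEIL-ADJ]** for `RED.pullPic0` and `SS.pushPic0`: `e_m (φ^* x, y) = e_m (x, φ_* y)`. -/
theorem weil_pullPic0_left (φ : F →ₐ[K] F') (hφ : φ.toRingHom.IsIntegral)
    (hFI : FundamentalIdentityAlong K φ hφ) (hfin : FiniteAlong K φ)
    (hN : NormFormulaAlong K φ hfin) {m : ℕ} {x : Pic0 K F} {y : Pic0 K F'}
    (hx : m • x = 0) (hy : m • y = 0) :
    weil m (RED.pullPic0 φ hφ hFI x) y = weil m x (SS.pushPic0 φ hφ hfin hN y) := by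
  obtain ⟨D, hD, rfl⟩ := dcl_surjective x
  obtain ⟨E, hE, rfl⟩ := dcl_surjective y
  rw [pullPic0_dcl φ hφ hFI hD, pushPic0_dcl φ hφ hfin hN hE]
  exact weil_pullbackAlong φ hφ hD hE hx hy

/-- **[WEIL-ADJ]**, the other side: `e_m (φ_* y, x) = e_m (y, φ^* x)`. -/
theorem weil_pushPic0_left (φ : F →ₐ[K] F') (hφ : φ.toRingHom.IsIntegral)
    (hFI : FundamentalIdentityAlong K φ hφ) (hfin : FiniteAlong K φ)
    (hN : NormFormulaAlong K φ hfin) {m : ℕ} {x : Pic0 K F} {y : Pic0 K F'}
    (hx : m • x = 0) (hy : m • y = 0) :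
    weil m (SS.pushPic0 φ hφ hfin hN y) x = weil m y (RED.pullPic0 φ hφ hFI x) := by
  have hx' : m • RED.pullPic0 φ hφ hFI x = 0 := by rw [← map_nsmul, hx, map_zero]
  have hy' : m • SS.pushPic0 φ hφ hfin hN y = 0 := by rw [← map_nsmul, hy, map_zero]
  rw [weil_swap hx hy', weil_swap hx' hy, weil_pullPic0_left φ hφ hFI hfin hN hx hy]

theorem correspondence_eq_push_pull (φ ψ : F →ₐ[K] F') (hφ : φ.toRingHom.IsIntegral)
    (hψ : ψ.toRingHom.IsIntegral) (hFI : FundamentalIdentityAlong K φ hφ)
    (hfin : FiniteAlong K ψ) (hN : NormFormulaAlong K ψ hfin) (x : Pic0 K F) :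
    Pic0.correspondence φ ψ hφ hψ hFI hfin hN x =
      SS.pushPic0 ψ hψ hfin hN (RED.pullPic0 φ hφ hFI x) := by
  obtain ⟨D, rfl⟩ := Pic0.mk_surjective x
  rfl

/-- the adjoint of the correspondence `ψ_* φ^*` is the transposed correspondence `φ_* ψ^*`. -/
theorem weil_correspondence_left (φ ψ : F →ₐ[K] F') (hφ : φ.toRingHom.IsIntegral)
    (hψ : ψ.toRingHom.IsIntegral) (hFI : FundamentalIdentityAlong K φ hφ)
    (hfin : FiniteAlong K ψ) (hN : NormFormulaAlong K ψ hfin)
    (hFI' : FundamentalIdentityAlong K ψ hψ)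
    (hfin' : FiniteAlong K φ) (hN' : NormFormulaAlong K φ hfin') {m : ℕ} {x y : Pic0 K F}
    (hx : m • x = 0) (hy : m • y = 0) :
    weil m (Pic0.correspondence φ ψ hφ hψ hFI hfin hN x) y =
      weil m x (Pic0.correspondence ψ φ hψ hφ hFI' hfin' hN' y) := by
  have hx' : m • RED.pullPic0 φ hφ hFI x = 0 := by rw [← map_nsmul, hx, map_zero]
  have hy' : m • RED.pullPic0 ψ hψ hFI' y = 0 := by rw [← map_nsmul, hy, map_zero]
  rw [correspondence_eq_push_pull, correspondence_eq_push_pull,
    weil_pushPic0_left ψ hψ hFI' hfin hN hy hx', weil_pullPic0_left φ hφ hFI hfin' hN' hx hy']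

end Along

end Fermat.Agent.RIB.WA
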